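/-
S59 PRE-WORK / GE9-ETA, file 1 (helper2): **the congruence module of a lattice with a perfect
pairing, and its growth** — abstract linear algebra over a DVR (Mathlib + `GE9/NumCrit/Lat`).

`L` an `O`-module with a bilinear form `B`, `P ≤ L` (in the application `P = L[𝔭]`, the eigen-part
of a Hecke module, `orth B P = L[Ann 𝔭]`), `CongMod B P = L ⧸ (P ⊔ P^⊥)`.

* `card_congMod` : if `P` is spanned by `b : Fin d → L` and every functional on `P` is `B (·) x`
  (`hext`; this is "`B` perfect + `P` saturated", `exists_rep_of_perfect`), then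
  `#(L ⧸ (P ⊔ P^⊥)) = #(O ⧸ det (B (b i) (b j)))`;
* `gram_smul`, `card_congMod_growth` : if `b' : Fin d → L'` satisfies
  `B' (b' i) (b' j) = c * B (b i) (b j)` (`b' = α (v ⊗ b)`, `c = vᵀ A v` for the level-raising map
  `α` with `α^† α = A`), then `#Ω' = #Ω · #(O ⧸ c) ^ d`;
* `pairing_alpha` : the relation `B' (b' i) (b' j) = (vᵀ a v) * B (b i) (b j)` for
  `b' = α (v ⊗ b)` from the adjointness `B' (α u) (α w) = ∑ B (u m) (A m n (w n))`;
* `exists_retraction_of_saturated` : over a PID a saturated submodule of a finite free module is a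
  direct summand (retraction form), `exists_rep_of_perfect` : `hext` from it.
-/
import Fermat.Agent.GE9.NumCrit.Lat

set_option autoImplicit false

namespace Fermat.Agent.GE9.Eta

open Module Submodule

section Defs

variable {O : Type*} [CommRing O] {L : Type*} [AddCommGroup L] [Module O L]

/-- the right orthogonal `{x | ∀ y ∈ P, B y x = 0}`. -/
def orth (B : L →ₗ[O] L →ₗ[O] O) (P : Submodule O L) : Submodule O L where
  carrier := {x | ∀ y ∈ P, B y x = 0}
  add_mem' := by
    intro a b ha hb y hy
    rw [map_add, ha y hy, hb y hy, add_zero]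
  zero_mem' := by
    intro y _
    rw [map_zero]
  smul_mem' := by
    intro c a ha y hy
    rw [map_smul, ha y hy, smul_zero]

theorem mem_orth {B : L →ₗ[O] L →ₗ[O] O} {P : Submodule O L} {x : L} :
    x ∈ orth B P ↔ ∀ y ∈ P, B y x = 0 := Iff.rfl

/-- **the congruence module** `L ⧸ (P ⊔ P^⊥)`. -/
abbrev CongMod (B : L →ₗ[O] L →ₗ[O] O) (P : Submodule O L) : Type _ := L ⧸ (P ⊔ orth B P)

/-- the Gram matrix of a family. -/
def gram (B : L →ₗ[O] L →ₗ[O] O) {d : ℕ} (b : Fin d → L) : Matrix (Fin d) (Fin d) O :=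
  Matrix.of fun i j => B (b i) (b j)

theorem gram_apply (B : L →ₗ[O] L →ₗ[O] O) {d : ℕ} (b : Fin d → L) (i j : Fin d) :
    gram B b i j = B (b i) (b j) := rfl

/-- the evaluation map `x ↦ (B (b i) x)_i`. -/
def evalMap (B : L →ₗ[O] L →ₗ[O] O) {d : ℕ} (b : Fin d → L) : L →ₗ[O] (Fin d → O) :=
  LinearMap.pi fun i => B (b i)

theorem evalMap_apply (B : L →ₗ[O] L →ₗ[O] O) {d : ℕ} (b : Fin d → L) (x : L) (i : Fin d) :
    evalMap B b x i = B (b i) x := rfl

theorem ker_evalMap (B : L →ₗ[O] L →ₗ[O] O) {d : ℕ} (b : Fin d → L) :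
    LinearMap.ker (evalMap B b) = orth B (span O (Set.range b)) := by
  ext x
  rw [LinearMap.mem_ker, mem_orth]
  constructor
  · intro h y hy
    induction hy using Submodule.span_induction with
    | mem y hy =>
      obtain ⟨i, rfl⟩ := hy
      exact congrFun h i
    | zero => rw [map_zero, LinearMap.zero_apply]
    | add y z _ _ hy hz => rw [map_add, LinearMap.add_apply, hy, hz, add_zero]
    | smul c y _ hy => rw [map_smul, LinearMap.smul_apply, hy, smul_zero]
  · intro h
    funext i
    exact h (b i) (subset_span ⟨i, rfl⟩)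

/-- `evalMap` maps `span b` onto the row span of the transposed Gram matrix. -/
theorem map_evalMap_span (B : L →ₗ[O] L →ₗ[O] O) {d : ℕ} (b : Fin d → L) :
    (span O (Set.range b)).map (evalMap B b) =
      span O (Set.range fun j => (gram B b).transpose j) := by
  rw [Submodule.map_span, ← Set.range_comp]
  rfl

end Defs

section Card

variable {O : Type*} [CommRing O] [IsDomain O] [IsDiscreteValuationRing O]
  {L : Type*} [AddCommGroup L] [Module O L]

/-- the congruence module is `O ^ d` modulo the Gram lattice. -/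
noncomputable def congModEquiv (B : L →ₗ[O] L →ₗ[O] O) {d : ℕ} (b : Fin d → L)
    (hext : ∀ c : Fin d → O, ∃ x : L, ∀ i, B (b i) x = c i) :
    CongMod B (span O (Set.range b)) ≃ₗ[O]
      ((Fin d → O) ⧸ span O (Set.range fun j => (gram B b).transpose j)) := by
  set P := span O (Set.range b) with hP
  set Q := span O (Set.range fun j => (gram B b).transpose j) with hQ
  have hsurj : Function.Surjective (Q.mkQ.comp (evalMap B b)) := by
    intro y
    obtain ⟨c, rfl⟩ := Q.mkQ_surjective y
    obtain ⟨x, hx⟩ := hext c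
    exact ⟨x, by rw [LinearMap.comp_apply]; congr 1; funext i; exact hx i⟩
  have hker : LinearMap.ker (Q.mkQ.comp (evalMap B b)) = P ⊔ orth B P := by
    rw [LinearMap.ker_comp, Submodule.ker_mkQ, hQ, ← map_evalMap_span, Submodule.comap_map_eq,
      ker_evalMap]
  exact (Submodule.quotEquivOfEq _ _ hker.symm).trans
    (LinearMap.quotKerEquivOfSurjective _ hsurj)

/-- **cardinality of the congruence module** `= #(O ⧸ det Gram)`. -/
theorem card_congMod [Finite (IsLocalRing.ResidueField O)] (B : L →ₗ[O] L →ₗ[O] O) {d : ℕ}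
    (b : Fin d → L) (hext : ∀ c : Fin d → O, ∃ x : L, ∀ i, B (b i) x = c i)
    (hdet : (gram B b).det ≠ 0) :
    Nat.card (CongMod B (span O (Set.range b))) = Nat.card (O ⧸ Ideal.span {(gram B b).det}) := by
  rw [Nat.card_congr (congModEquiv B b hext).toEquiv,
    Fermat.Agent.GE9.NumCrit.card_quotient_span_rows (gram B b).transpose
      (by rwa [Matrix.det_transpose]), Matrix.det_transpose]

end Card

section Growth

variable {O : Type*} [CommRing O] {L L' : Type*} [AddCommGroup L] [Module O L]
  [AddCommGroup L'] [Module O L']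

/-- if the pairing on `b'` is `c` times the pairing on `b`, the Gram determinant is multiplied by
`c ^ d`. -/
theorem det_gram_of_smul (B : L →ₗ[O] L →ₗ[O] O) (B' : L' →ₗ[O] L' →ₗ[O] O) {d : ℕ}
    (b : Fin d → L) (b' : Fin d → L') (c : O)
    (h : ∀ i j, B' (b' i) (b' j) = c * B (b i) (b j)) :
    (gram B' b').det = c ^ d * (gram B b).det := by
  have : gram B' b' = c • gram B b := by
    ext i j
    rw [gram_apply, h, Matrix.smul_apply, gram_apply, smul_eq_mul]
  rw [this, Matrix.det_smul, Fintype.card_fin]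

end Growth

section GrowthCard

variable {O : Type*} [CommRing O] [IsDomain O] [IsDiscreteValuationRing O]
  [Finite (IsLocalRing.ResidueField O)]
  {L L' : Type*} [AddCommGroup L] [Module O L] [AddCommGroup L'] [Module O L']

omit [Finite (IsLocalRing.ResidueField O)] in
theorem card_quotient_span_pow {x : O} (hx : x ≠ 0) (n : ℕ) :
    Nat.card (O ⧸ Ideal.span {x ^ n}) = Nat.card (O ⧸ Ideal.span {x}) ^ n := by
  induction n with
  | zero =>
    rw [pow_zero, pow_zero, Ideal.span_singleton_one]
    exact Nat.card_unique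
  | succ n ih =>
    rw [pow_succ, Fermat.Agent.GE9.NumCrit.card_quotient_span_mul (pow_ne_zero n hx) hx, ih,
      pow_succ]

/-- **growth of the congruence module**: `#Ω' = #Ω · #(O ⧸ c) ^ d`. -/
theorem card_congMod_growth (B : L →ₗ[O] L →ₗ[O] O) (B' : L' →ₗ[O] L' →ₗ[O] O) {d : ℕ}
    (b : Fin d → L) (b' : Fin d → L') (c : O) (hc : c ≠ 0)
    (hext : ∀ a : Fin d → O, ∃ x : L, ∀ i, B (b i) x = a i)
    (hext' : ∀ a : Fin d → O, ∃ x : L', ∀ i, B' (b' i) x = a i)
    (hdet : (gram B b).det ≠ 0)
    (h : ∀ i j, B' (b' i) (b' j) = c * B (b i) (b j)) :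
    Nat.card (CongMod B' (span O (Set.range b'))) =
      Nat.card (CongMod B (span O (Set.range b))) * Nat.card (O ⧸ Ideal.span {c}) ^ d := by
  have hdet' : (gram B' b').det = c ^ d * (gram B b).det := det_gram_of_smul B B' b b' c h
  have hne : (gram B' b').det ≠ 0 := by
    rw [hdet']
    exact mul_ne_zero (pow_ne_zero d hc) hdet
  rw [card_congMod B' b' hext' hne, card_congMod B b hext hdet, hdet',
    Fermat.Agent.GE9.NumCrit.card_quotient_span_mul (pow_ne_zero d hc) hdet,
    card_quotient_span_pow hc, mul_comm]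

end GrowthCard

/-! ### the pairing on the image of a level-raising map -/

section Alpha

variable {O : Type*} [CommRing O] {L L' : Type*} [AddCommGroup L] [Module O L]
  [AddCommGroup L'] [Module O L']

/-- **the pairing on `α (v ⊗ P)`**: if `B' (α u) (α w) = ∑ m n, B (u m) (A m n (w n))`
(`α^† α = A`, a `k × k` matrix of operators of `L`) and every `A m n` acts on the `b j` through the
scalar `a m n`, then `B' (α (v ⊗ b i)) (α (v ⊗ b j)) = (vᵀ a v) · B (b i) (b j)`. -/
theorem pairing_alpha (B : L →ₗ[O] L →ₗ[O] O) (B' : L' →ₗ[O] L' →ₗ[O] O) {k : ℕ}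
    (α : (Fin k → L) →ₗ[O] L') (A : Fin k → Fin k → (L →ₗ[O] L))
    (hadj : ∀ u w : Fin k → L, B' (α u) (α w) = ∑ m, ∑ n, B (u m) (A m n (w n)))
    {d : ℕ} (b : Fin d → L) (a : Fin k → Fin k → O)
    (hA : ∀ m n j, A m n (b j) = a m n • b j) (v : Fin k → O) (i j : Fin d) :
    B' (α fun m => v m • b i) (α fun n => v n • b j) =
      (∑ m, ∑ n, v m * a m n * v n) * B (b i) (b j) := by
  rw [hadj, Finset.sum_mul]
  refine Finset.sum_congr rfl fun m _ => ?_
  rw [Finset.sum_mul]
  refine Finset.sum_congr rfl fun n _ => ?_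
  show B (v m • b i) (A m n (v n • b j)) = v m * a m n * v n * B (b i) (b j)
  rw [map_smul (A m n), hA, map_smul B, LinearMap.smul_apply, map_smul, map_smul, smul_eq_mul,
    smul_eq_mul, smul_eq_mul]
  ring

end Alpha

/-! ### `hext` from a perfect pairing and a saturated submodule -/

section Perfect

variable {O : Type*} [CommRing O] {L : Type*} [AddCommGroup L] [Module O L]

/-- every functional on `P` is represented, if `B` is (right) perfect on `L` and `P` is a direct
summand (retraction form). -/
theorem exists_rep_of_perfect (B : L →ₗ[O] L →ₗ[O] O)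
    (hperf : ∀ φ : L →ₗ[O] O, ∃ x : L, ∀ y, B y x = φ y)
    (P : Submodule O L) (r : L →ₗ[O] P) (hr : ∀ y : P, r y = y) {d : ℕ}
    (b : Basis (Fin d) O P) (a : Fin d → O) :
    ∃ x : L, ∀ i, B ((b i : P) : L) x = a i := by
  obtain ⟨x, hx⟩ := hperf ((b.constr O a).comp r)
  refine ⟨x, fun i => ?_⟩
  rw [hx, LinearMap.comp_apply, hr, Basis.constr_basis]

end Perfect

section Saturated

variable {O : Type*} [CommRing O] [IsDomain O] [IsPrincipalIdealRing O]
  {L : Type*} [AddCommGroup L] [Module O L] [Module.Finite O L]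

/-- over a PID, a saturated submodule of a finitely generated module is a direct summand. -/
theorem exists_retraction_of_saturated (P : Submodule O L)
    (hsat : ∀ (c : O) (x : L), c ≠ 0 → c • x ∈ P → x ∈ P) :
    ∃ r : L →ₗ[O] P, ∀ y : P, r y = y := by
  classical
  have : NoZeroSMulDivisors O (L ⧸ P) := by
    refine ⟨fun {c x} h => ?_⟩
    by_cases hc : c = 0
    · exact Or.inl hc
    · right
      obtain ⟨y, rfl⟩ := P.mkQ_surjective x
      rw [← map_smul, Submodule.mkQ_apply, Submodule.Quotient.mk_eq_zero] at h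
      rw [Submodule.mkQ_apply, Submodule.Quotient.mk_eq_zero]
      exact hsat c y hc h
  have : Module.Free O (L ⧸ P) := Module.free_of_finite_type_torsion_free'
  obtain ⟨s, hs⟩ := Module.projective_lifting_property P.mkQ LinearMap.id P.mkQ_surjective
  have hmem : ∀ x : L, x - s (P.mkQ x) ∈ P := by
    intro x
    rw [← Submodule.Quotient.mk_eq_zero, Submodule.Quotient.mk_sub]
    have := LinearMap.congr_fun hs (P.mkQ x)
    rw [LinearMap.comp_apply, LinearMap.id_apply] at this
    rw [← Submodule.mkQ_apply, ← Submodule.mkQ_apply, this, sub_self]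
  refine ⟨LinearMap.codRestrict P (LinearMap.id - s.comp P.mkQ) hmem, fun y => ?_⟩
  apply Subtype.ext
  rw [LinearMap.codRestrict_apply, LinearMap.sub_apply, LinearMap.id_apply, LinearMap.comp_apply,
    Submodule.mkQ_apply, (Submodule.Quotient.mk_eq_zero P).mpr y.2, map_zero, sub_zero]

end Saturated

end Fermat.Agent.GE9.Eta
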