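/-
GATE-E / GE9-ETA-K (helper46): **kernel transfer** (leaf K of helper2's node table 7190), Mathlib
only.

`A : Λ₁ → Λ'`, `G : Λ₁ → Λ₂` `ℤ`-linear, `Λ₁`, `Λ'` free (projective suffices), `p` prime, and
`∀ n, p ∣ A n → p ∣ G n`.  Then

* `exists_factor`  : `G = C ∘ A + p • D` for `ℤ`-linear `C : Λ' → Λ₂`, `D : Λ₁ → Λ₂`;
* `transfer`       : for every commutative ring `O` and `ϖ ∣ p` in `O`:
    `ϖ ∣ (A ⊗ O) u → ϖ ∣ (G ⊗ O) u` for all `u : O ⊗[ℤ] Λ₁`.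

(`p ∣ x` is spelled `∃ w, x = (p : ℤ) • w`, `ϖ ∣ y` is spelled `∃ z, y = ϖ • z`.)
-/
import Mathlib

set_option autoImplicit false

open scoped TensorProduct

namespace Fermat.Agent.GE9.Eta.KTransfer

/-! ### linear algebra over a field -/

/-- over a field, `ker f ≤ ker g` implies that `g` factors through `f`. -/
theorem exists_comp_eq_of_ker_le {K V V' W : Type*} [Field K] [AddCommGroup V] [Module K V]
    [AddCommGroup V'] [Module K V'] [AddCommGroup W] [Module K W]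
    (f : V →ₗ[K] V') (g : V →ₗ[K] W) (h : LinearMap.ker f ≤ LinearMap.ker g) :
    ∃ c : V' →ₗ[K] W, c ∘ₗ f = g := by
  obtain ⟨s, hs⟩ := LinearMap.exists_rightInverse_of_surjective f.rangeRestrict
    (LinearMap.range_rangeRestrict f)
  obtain ⟨c, hc⟩ := LinearMap.exists_extend (g ∘ₗ s)
  refine ⟨c, LinearMap.ext fun v => ?_⟩
  have h1 : c (f v) = (g ∘ₗ s) (f.rangeRestrict v) := by
    have := LinearMap.congr_fun hc (f.rangeRestrict v)
    simpa using this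
  rw [LinearMap.comp_apply, h1, LinearMap.comp_apply]
  have h2 : f (s (f.rangeRestrict v)) = f v := by
    have := LinearMap.congr_fun hs (f.rangeRestrict v)
    have h3 := congrArg Subtype.val this
    simpa using h3
  have h4 : s (f.rangeRestrict v) - v ∈ LinearMap.ker f := by
    rw [LinearMap.mem_ker, map_sub, h2, sub_self]
  have h5 := h h4
  rw [LinearMap.mem_ker, map_sub, sub_eq_zero] at h5
  exact h5

/-! ### the factorisation over `ℤ` -/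

section Factor

variable {Λ₁ Λ' Λ₂ : Type*} [AddCommGroup Λ₁] [AddCommGroup Λ'] [AddCommGroup Λ₂]

theorem mkQ_eq_zero_iff {Λ : Type*} [AddCommGroup Λ] (p : ℕ) (x : Λ) :
    (LinearMap.range (LinearMap.lsmul ℤ Λ (p : ℤ))).mkQ x = 0 ↔ ∃ w : Λ, x = (p : ℤ) • w := by
  rw [Submodule.mkQ_apply, Submodule.Quotient.mk_eq_zero, LinearMap.mem_range]
  constructor
  · rintro ⟨w, hw⟩
    exact ⟨w, hw.symm⟩
  · rintro ⟨w, hw⟩
    exact ⟨w, hw.symm⟩

/-- **the factorisation**: `G = C ∘ A + p • D`. -/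
theorem exists_factor [Module.Projective ℤ Λ₁] [Module.Projective ℤ Λ'] (p : ℕ) [Fact p.Prime]
    (A : Λ₁ →ₗ[ℤ] Λ') (G : Λ₁ →ₗ[ℤ] Λ₂)
    (h : ∀ n, (∃ w, A n = (p : ℤ) • w) → ∃ z, G n = (p : ℤ) • z) :
    ∃ (C : Λ' →ₗ[ℤ] Λ₂) (D : Λ₁ →ₗ[ℤ] Λ₂), G = C ∘ₗ A + (p : ℤ) • D := by
  -- the reductions modulo `p`
  let π₁ : Λ₁ →ₗ[ℤ] ModN Λ₁ p := (LinearMap.range (LinearMap.lsmul ℤ Λ₁ (p : ℤ))).mkQ
  let π' : Λ' →ₗ[ℤ] ModN Λ' p := (LinearMap.range (LinearMap.lsmul ℤ Λ' (p : ℤ))).mkQ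
  let π₂ : Λ₂ →ₗ[ℤ] ModN Λ₂ p := (LinearMap.range (LinearMap.lsmul ℤ Λ₂ (p : ℤ))).mkQ
  have hπ₁ : Function.Surjective π₁ := Submodule.mkQ_surjective _
  have hπ₂ : Function.Surjective π₂ := Submodule.mkQ_surjective _
  -- `Ā` and `Ḡ` on `Λ₁ / p`
  have hA : LinearMap.range (LinearMap.lsmul ℤ Λ₁ (p : ℤ)) ≤ LinearMap.ker (π' ∘ₗ A) := by
    rintro _ ⟨x, rfl⟩
    rw [LinearMap.mem_ker, LinearMap.comp_apply]
    exact (mkQ_eq_zero_iff p _).mpr ⟨A x, by simp⟩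
  have hG : LinearMap.range (LinearMap.lsmul ℤ Λ₁ (p : ℤ)) ≤ LinearMap.ker (π₂ ∘ₗ G) := by
    rintro _ ⟨x, rfl⟩
    rw [LinearMap.mem_ker, LinearMap.comp_apply]
    exact (mkQ_eq_zero_iff p _).mpr ⟨G x, by simp⟩
  let Abar : ModN Λ₁ p →ₗ[ZMod p] ModN Λ' p :=
    ((LinearMap.range (LinearMap.lsmul ℤ Λ₁ (p : ℤ))).liftQ (π' ∘ₗ A) hA).toAddMonoidHom.toZModLinearMap p
  let Gbar : ModN Λ₁ p →ₗ[ZMod p] ModN Λ₂ p :=
    ((LinearMap.range (LinearMap.lsmul ℤ Λ₁ (p : ℤ))).liftQ (π₂ ∘ₗ G) hG).toAddMonoidHom.toZModLinearMap p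
  have hAbar : ∀ n, Abar (π₁ n) = π' (A n) := fun n => rfl
  have hGbar : ∀ n, Gbar (π₁ n) = π₂ (G n) := fun n => rfl
  have hker : LinearMap.ker Abar ≤ LinearMap.ker Gbar := by
    intro v hv
    obtain ⟨n, rfl⟩ := hπ₁ v
    rw [LinearMap.mem_ker, hAbar] at hv
    rw [LinearMap.mem_ker, hGbar]
    exact (mkQ_eq_zero_iff p _).mpr (h n ((mkQ_eq_zero_iff p _).mp hv))
  obtain ⟨Cbar, hCbar⟩ := exists_comp_eq_of_ker_le Abar Gbar hker
  -- lift `C̄` to `C`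
  obtain ⟨C, hC⟩ := Module.projective_lifting_property π₂
    (Cbar.toAddMonoidHom.toIntLinearMap ∘ₗ π') hπ₂
  have hC' : ∀ y, π₂ (C y) = Cbar (π' y) := fun y => LinearMap.congr_fun hC y
  -- `G - C ∘ A` has values in `p Λ₂`
  have hdiv : ∀ n, (G - C ∘ₗ A) n ∈ LinearMap.range (LinearMap.lsmul ℤ Λ₂ (p : ℤ)) := by
    intro n
    have h0 : π₂ ((G - C ∘ₗ A) n) = 0 := by
      rw [LinearMap.sub_apply, map_sub, LinearMap.comp_apply, hC', ← hAbar, ← hGbar,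
        ← LinearMap.comp_apply Cbar Abar, hCbar, sub_self]
    obtain ⟨w, hw⟩ := (mkQ_eq_zero_iff p _).mp h0
    exact ⟨w, hw.symm⟩
  obtain ⟨D, hD⟩ := Module.projective_lifting_property
    (LinearMap.lsmul ℤ Λ₂ (p : ℤ)).rangeRestrict
    ((G - C ∘ₗ A).codRestrict (LinearMap.range (LinearMap.lsmul ℤ Λ₂ (p : ℤ))) hdiv)
    (LinearMap.surjective_rangeRestrict _)
  refine ⟨C, D, LinearMap.ext fun n => ?_⟩
  have h1 := congrArg Subtype.val (LinearMap.congr_fun hD n)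
  have h2 : (p : ℤ) • D n = G n - C (A n) := by simpa using h1
  rw [LinearMap.add_apply, LinearMap.smul_apply, h2, LinearMap.comp_apply]
  abel

end Factor

/-! ### base change -/

section Transfer

variable {Λ₁ Λ' Λ₂ : Type*} [AddCommGroup Λ₁] [AddCommGroup Λ'] [AddCommGroup Λ₂]

/-- **transfer along a factorisation**. -/
theorem transfer_of_factor (p : ℕ) (A : Λ₁ →ₗ[ℤ] Λ') (G : Λ₁ →ₗ[ℤ] Λ₂)
    (C : Λ' →ₗ[ℤ] Λ₂) (D : Λ₁ →ₗ[ℤ] Λ₂) (hfac : G = C ∘ₗ A + (p : ℤ) • D)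
    (O : Type*) [CommRing O] (ϖ : O) (hpϖ : ∃ c : O, (p : O) = ϖ * c)
    (u : O ⊗[ℤ] Λ₁) (hu : ∃ y : O ⊗[ℤ] Λ', A.baseChange O u = ϖ • y) :
    ∃ z : O ⊗[ℤ] Λ₂, G.baseChange O u = ϖ • z := by
  obtain ⟨c, hc⟩ := hpϖ
  obtain ⟨y, hy⟩ := hu
  refine ⟨C.baseChange O y + c • D.baseChange O u, ?_⟩
  rw [hfac, LinearMap.baseChange_add, LinearMap.baseChange_comp, LinearMap.baseChange_smul,
    LinearMap.add_apply, LinearMap.comp_apply, hy, map_smul, LinearMap.smul_apply, smul_add,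
    smul_smul, ← hc]
  congr 1
  rw [← Int.cast_smul_eq_zsmul O, Int.cast_natCast]

/-- **kernel transfer**: `(∀ n, p ∣ A n → p ∣ G n)` over `ℤ` gives
`ϖ ∣ (A ⊗ O) u → ϖ ∣ (G ⊗ O) u` over every commutative ring `O` in which `ϖ ∣ p`. -/
theorem transfer [Module.Projective ℤ Λ₁] [Module.Projective ℤ Λ'] (p : ℕ) [Fact p.Prime]
    (A : Λ₁ →ₗ[ℤ] Λ') (G : Λ₁ →ₗ[ℤ] Λ₂)
    (h : ∀ n, (∃ w, A n = (p : ℤ) • w) → ∃ z, G n = (p : ℤ) • z)
    (O : Type*) [CommRing O] (ϖ : O) (hpϖ : ∃ c : O, (p : O) = ϖ * c)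
    (u : O ⊗[ℤ] Λ₁) (hu : ∃ y : O ⊗[ℤ] Λ', A.baseChange O u = ϖ • y) :
    ∃ z : O ⊗[ℤ] Λ₂, G.baseChange O u = ϖ • z := by
  obtain ⟨C, D, hfac⟩ := exists_factor p A G h
  exact transfer_of_factor p A G C D hfac O ϖ hpϖ u hu

end Transfer

/-! ### the componentwise form -/

section Pi

variable {ι : Type*} [Fintype ι] [DecidableEq ι]
variable {Λ Λ' Λ₂ : Type*} [AddCommGroup Λ] [AddCommGroup Λ'] [AddCommGroup Λ₂]

/-- **kernel transfer, componentwise form** (the shape of `Sat.injModP_of_killed`'s `hker`):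
`α (u) = ∑ n, a n (u n)` on `ι → Λ`, and `E` an endomorphism-like map applied to every component. -/
theorem transfer_pi [Module.Free ℤ Λ] [Module.Projective ℤ Λ'] (p : ℕ) [Fact p.Prime]
    (a : ι → (Λ →ₗ[ℤ] Λ')) (E : Λ →ₗ[ℤ] Λ₂)
    (h : ∀ u : ι → Λ, (∃ w, ∑ n, a n (u n) = (p : ℤ) • w) → ∀ m, ∃ z, E (u m) = (p : ℤ) • z)
    (O : Type*) [CommRing O] (ϖ : O) (hpϖ : ∃ c : O, (p : O) = ϖ * c)
    (u : ι → O ⊗[ℤ] Λ) (hu : ∃ y : O ⊗[ℤ] Λ', ∑ n, (a n).baseChange O (u n) = ϖ • y) (m : ι) :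
    ∃ z : O ⊗[ℤ] Λ₂, E.baseChange O (u m) = ϖ • z := by
  classical
  set A : (ι → Λ) →ₗ[ℤ] Λ' := ∑ n, (a n) ∘ₗ (LinearMap.proj n) with hA
  have hAapp : ∀ v : ι → Λ, A v = ∑ n, a n (v n) := by
    intro v
    rw [hA, LinearMap.sum_apply]
    rfl
  set G : (ι → Λ) →ₗ[ℤ] Λ₂ := E ∘ₗ (LinearMap.proj m) with hG
  obtain ⟨C, D, hfac⟩ := exists_factor p A G (by
    intro v hv
    rw [hAapp] at hv
    exact h v hv m)
  obtain ⟨c, hc⟩ := hpϖ
  obtain ⟨y, hy⟩ := hu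
  -- the componentwise identities
  have hcomp : ∀ n : ι, (if n = m then E else 0) =
      C ∘ₗ a n + (p : ℤ) • (D ∘ₗ LinearMap.single ℤ (fun _ : ι => Λ) n) := by
    intro n
    refine LinearMap.ext fun x => ?_
    have h1 := LinearMap.congr_fun hfac (Pi.single n x)
    rw [hG, LinearMap.comp_apply, LinearMap.proj_apply, LinearMap.add_apply, LinearMap.comp_apply,
      hAapp, LinearMap.smul_apply] at h1
    have h2 : ∑ k, a k ((Pi.single n x : ι → Λ) k) = a n x := by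
      rw [Finset.sum_eq_single n]
      · rw [Pi.single_eq_same]
      · intro k _ hk
        rw [Pi.single_eq_of_ne hk, map_zero]
      · intro hn
        exact absurd (Finset.mem_univ n) hn
    rw [h2] at h1
    rw [LinearMap.add_apply, LinearMap.comp_apply, LinearMap.smul_apply, LinearMap.comp_apply,
      LinearMap.coe_single, ← h1]
    by_cases hnm : n = m
    · subst hnm
      rw [if_pos rfl, Pi.single_eq_same]
    · rw [if_neg hnm, Pi.single_eq_of_ne (Ne.symm hnm), map_zero, LinearMap.zero_apply]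
  have hbc : ∀ n : ι, (if n = m then E.baseChange O (u n) else 0) =
      C.baseChange O ((a n).baseChange O (u n))
        + (p : O) • (D ∘ₗ LinearMap.single ℤ (fun _ : ι => Λ) n).baseChange O (u n) := by
    intro n
    have h1 : (if n = m then E else 0).baseChange O (u n) =
        (C ∘ₗ a n + (p : ℤ) • (D ∘ₗ LinearMap.single ℤ (fun _ : ι => Λ) n)).baseChange O (u n) := by
      rw [← hcomp n]
    rw [LinearMap.baseChange_add, LinearMap.baseChange_comp, LinearMap.baseChange_smul,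
      LinearMap.add_apply, LinearMap.comp_apply, LinearMap.smul_apply] at h1
    rw [← Int.cast_smul_eq_zsmul O, Int.cast_natCast] at h1
    rw [← h1]
    by_cases hnm : n = m
    · rw [if_pos hnm, if_pos hnm]
    · rw [if_neg hnm, if_neg hnm, LinearMap.baseChange_zero, LinearMap.zero_apply]
  have hsum : E.baseChange O (u m) = ∑ n, (if n = m then E.baseChange O (u n) else 0) := by
    rw [Finset.sum_ite_eq' Finset.univ m, if_pos (Finset.mem_univ m)]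
  refine ⟨C.baseChange O y
    + c • ∑ n, (D ∘ₗ LinearMap.single ℤ (fun _ : ι => Λ) n).baseChange O (u n), ?_⟩
  rw [hsum, Finset.sum_congr rfl (fun n _ => hbc n), Finset.sum_add_distrib, ← map_sum, hy,
    map_smul, ← Finset.smul_sum, hc, smul_add, smul_smul]

end Pi

end Fermat.Agent.GE9.Eta.KTransfer
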