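/-
S59 PRE-WORK / GE9-ETA, file 2 (helper2): **the case `k = 3`** of the growth of the congruence module
(ruling R2 of GATE-E GRAPH v0: level `N_Σ · q²`, `U_q = 0`).

The three degeneracy maps `α = (α₀, α₁, α₂) : L(N)³ → L(N q²)` satisfy `α^† α = A3 q T_q`,

    A3 q a = ⎡ q(q+1)      q a        a² − (q+1) ⎤
             ⎢ q a         q(q+1)     q a        ⎥
             ⎣ a² − (q+1)  q a        q(q+1)     ⎦

(Wiles (2.12), DDT §4.4; trivial nebentypus).  With `v3 q a = (q, −a, 1)` one has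
`A3 · v3 = ((q−1)((1+q)² − a²), 0, 0)` — the image of `v3 ⊗ L` is the part of the image of `α` killed
by `U_q` — and `v3ᵀ · A3 · v3 = q · (q−1)((1+q)² − a²) = q · wilesFactor` (`GE9/TanGrow`), an associate
of Wiles' local factor because `q` is a unit of `O`.

* `A3_mulVec_v3`, `v3_A3_v3` : the arithmetic;
* `associated_cThree_wilesFactor` : `cThree q a ~ wilesFactor f q` for `tr f = a`, `q` a unit;
* `pairing_alpha_three` : `B' (α (v3 ⊗ b i)) (α (v3 ⊗ b j)) = cThree q a · B (b i) (b j)`;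
* `card_congMod_growth_three` : `#Ω' = #Ω · #(O ⧸ wilesFactor) ^ d` — the `heta` binder of
  `GE9/Ind.chain` (`Ind.heta_of_gram`) with the SAME `c n` as the `hgrow` binder (`Ind.hgrow_of_tame`).
-/
import Fermat.Agent.GE9.Eta.Abstract
import Fermat.Agent.GE9.TanGrow.Main

set_option autoImplicit false

namespace Fermat.Agent.GE9.Eta

open Module Submodule

section Arith

variable {O : Type*} [CommRing O]

/-- Wiles' `3 × 3` matrix `α^† α` for the three degeneracy maps `N → N q²` (as a function of the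
`T_q`-eigenvalue `a`). -/
def A3 (q a : O) : Fin 3 → Fin 3 → O :=
  ![![q * (q + 1), q * a, a ^ 2 - (q + 1)],
    ![q * a, q * (q + 1), q * a],
    ![a ^ 2 - (q + 1), q * a, q * (q + 1)]]

/-- the vector `(q, −a, 1)` : `α ∘ (v3 ⊗ ·)` is the `U_q = 0` part of the old space. -/
def v3 (q a : O) : Fin 3 → O := ![q, -a, 1]

/-- the factor `v3ᵀ · A3 · v3 = q (q − 1) ((1 + q)² − a²)`. -/
def cThree (q a : O) : O := q * ((q - 1) * ((1 + q) ^ 2 - a ^ 2))

theorem A3_symm (q a : O) (m n : Fin 3) : A3 q a m n = A3 q a n m := by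
  fin_cases m <;> fin_cases n <;> rfl

/-- `A3 · v3 = ((q − 1)((1 + q)² − a²), 0, 0)`. -/
theorem A3_mulVec_v3 (q a : O) (m : Fin 3) :
    ∑ n, A3 q a m n * v3 q a n = ![(q - 1) * ((1 + q) ^ 2 - a ^ 2), 0, 0] m := by
  fin_cases m <;> simp [A3, v3, Fin.sum_univ_three] <;> ring

/-- `v3ᵀ · A3 · v3 = q (q − 1) ((1 + q)² − a²)`. -/
theorem v3_A3_v3 (q a : O) :
    ∑ m, ∑ n, v3 q a m * A3 q a m n * v3 q a n = cThree q a := by
  have h : ∀ m, ∑ n, v3 q a m * A3 q a m n * v3 q a n =
      v3 q a m * ![(q - 1) * ((1 + q) ^ 2 - a ^ 2), 0, 0] m := by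
    intro m
    rw [← A3_mulVec_v3, Finset.mul_sum]
    exact Finset.sum_congr rfl fun n _ => mul_assoc _ _ _
  rw [Finset.sum_congr rfl fun m _ => h m, Fin.sum_univ_three, cThree]
  simp [v3]

/-- `cThree q a` is associated to Wiles' factor `(q − 1)((1 + q)² − (tr f)²)` of `GE9/TanGrow` when
`q` is a unit and `tr f = a`. -/
theorem associated_cThree_wilesFactor (f : Matrix (Fin 2) (Fin 2) O) (q a : O) (hq : IsUnit q)
    (ha : f.trace = a) :
    Associated (cThree q a) (Fermat.Agent.GE9.TanGrow.wilesFactor f q) := by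
  obtain ⟨u, rfl⟩ := hq
  refine ⟨u⁻¹, ?_⟩
  rw [cThree, Fermat.Agent.GE9.TanGrow.wilesFactor, ha, mul_comm, ← mul_assoc, Units.inv_mul,
    one_mul]

theorem cThree_ne_zero [IsDomain O] {q a : O} (hq : IsUnit q)
    (hc : (q - 1) * ((1 + q) ^ 2 - a ^ 2) ≠ 0) : cThree q a ≠ 0 :=
  mul_ne_zero hq.ne_zero hc

end Arith

section Pairing

variable {O : Type*} [CommRing O] {L L' : Type*} [AddCommGroup L] [Module O L]
  [AddCommGroup L'] [Module O L']

/-- the new family `b' i = α (q · b i, −a · b i, b i)`. -/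
def raise3 (α : (Fin 3 → L) →ₗ[O] L') (q a : O) {d : ℕ} (b : Fin d → L) : Fin d → L' :=
  fun i => α fun m => v3 q a m • b i

/-- **the pairing on the raised family** : `B' (b' i) (b' j) = cThree q a · B (b i) (b j)`, from the
adjointness `B' (α u) (α w) = ∑ B (u m) (A m n (w n))` and `A m n = A3 q T_q m n` on the `b j`
(`T_q (b j) = a • b j`). -/
theorem pairing_alpha_three (B : L →ₗ[O] L →ₗ[O] O) (B' : L' →ₗ[O] L' →ₗ[O] O)
    (α : (Fin 3 → L) →ₗ[O] L') (A : Fin 3 → Fin 3 → (L →ₗ[O] L))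
    (hadj : ∀ u w : Fin 3 → L, B' (α u) (α w) = ∑ m, ∑ n, B (u m) (A m n (w n)))
    {d : ℕ} (b : Fin d → L) (q a : O)
    (hA : ∀ m n j, A m n (b j) = A3 q a m n • b j) (i j : Fin d) :
    B' (raise3 α q a b i) (raise3 α q a b j) = cThree q a * B (b i) (b j) := by
  rw [← v3_A3_v3]
  exact pairing_alpha B B' α A hadj b (A3 q a) hA (v3 q a) i j

/-- the operator matrix `A3 q T` for an endomorphism `T` of `L` (`T = T_q`). -/
noncomputable def A3op (q : O) (T : L →ₗ[O] L) : Fin 3 → Fin 3 → (L →ₗ[O] L) :=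
  ![![(q * (q + 1)) • LinearMap.id, q • T, T * T - (q + 1) • LinearMap.id],
    ![q • T, (q * (q + 1)) • LinearMap.id, q • T],
    ![T * T - (q + 1) • LinearMap.id, q • T, (q * (q + 1)) • LinearMap.id]]

/-- on an eigenvector `T x = a • x`, the operator matrix `A3op q T` acts through `A3 q a`. -/
theorem A3op_apply_of_eigen (q : O) (T : L →ₗ[O] L) {a : O} {x : L} (hx : T x = a • x)
    (m n : Fin 3) : A3op q T m n x = A3 q a m n • x := by
  have h2 : (T * T) x = (a ^ 2) • x := by
    rw [Module.End.mul_apply, hx, map_smul, hx, smul_smul, sq]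
  fin_cases m <;> fin_cases n <;>
    simp [A3op, A3, LinearMap.sub_apply, LinearMap.smul_apply, hx, h2, sub_smul, smul_smul]

end Pairing

section Card

variable {O : Type*} [CommRing O] [IsDomain O] [IsDiscreteValuationRing O]
  [Finite (IsLocalRing.ResidueField O)]
  {L L' : Type*} [AddCommGroup L] [Module O L] [AddCommGroup L'] [Module O L']

/-- **growth of the congruence module at `k = 3`** (level `N → N q²`, `U_q = 0`), with the factor
spelled as `GE9/TanGrow.wilesFactor` :
`#Ω(L', α (v3 ⊗ P)) = #Ω(L, P) · #(O ⧸ (q − 1)((1 + q)² − a_q²)) ^ d`.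

Binders: `hadj` = the adjointness matrix of the three degeneracy maps is `A3op q T_q`; `hT` = the
`b j` are `T_q`-eigenvectors with eigenvalue `a = tr f` (`f = ρ(Frob_q)`); `hext`, `hext'` = every
functional on the span is a pairing (`exists_rep_of_perfect`: perfect pairing + saturation — at the
new level this is Wiles' Lemma 2.5); `hdet` = non-degeneracy on `P`. -/
theorem card_congMod_growth_three (B : L →ₗ[O] L →ₗ[O] O) (B' : L' →ₗ[O] L' →ₗ[O] O)
    (α : (Fin 3 → L) →ₗ[O] L') (q : O) (T : L →ₗ[O] L)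
    (hadj : ∀ u w : Fin 3 → L, B' (α u) (α w) = ∑ m, ∑ n, B (u m) (A3op q T m n (w n)))
    {d : ℕ} (b : Fin d → L) (f : Matrix (Fin 2) (Fin 2) O)
    (hT : ∀ j, T (b j) = f.trace • b j)
    (hq : IsUnit q) (hc : Fermat.Agent.GE9.TanGrow.wilesFactor f q ≠ 0)
    (hext : ∀ a : Fin d → O, ∃ x : L, ∀ i, B (b i) x = a i)
    (hext' : ∀ a : Fin d → O, ∃ x : L', ∀ i, B' (raise3 α q f.trace b i) x = a i)
    (hdet : (gram B b).det ≠ 0) :
    Nat.card (CongMod B' (span O (Set.range (raise3 α q f.trace b)))) =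
      Nat.card (CongMod B (span O (Set.range b))) *
        Nat.card (O ⧸ Ideal.span {Fermat.Agent.GE9.TanGrow.wilesFactor f q}) ^ d := by
  have hass := associated_cThree_wilesFactor f q f.trace hq rfl
  have hc3 : cThree q f.trace ≠ 0 := fun h0 => hc (hass.eq_zero_iff.mp h0)
  rw [← Fermat.Agent.GE9.NumCrit.card_quotient_span_of_associated hass]
  refine card_congMod_growth B B' b (raise3 α q f.trace b) (cThree q f.trace) hc3 hext hext' hdet ?_
  intro i j
  exact pairing_alpha_three B B' α (A3op q T) hadj b q f.trace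
    (fun m n j => A3op_apply_of_eigen q T (hT j) m n) i j

end Card

end Fermat.Agent.GE9.Eta
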