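/-
GATE-E / GE9-ETA-LOC (helper5): **LOC of the `η`-growth step** (helper2 6888 §4 / 6974), abstract
half, on helper74's `GB/B3/Loc` (`L = locPart 𝔪 L ⊕ awayPart 𝔪 L`).

`Perfect B` := the `hperf` binder of `Eta/Sat.next_stage` / `hext_of_perfect_of_saturated`:
every functional on `L` is `B (·) x`.

* (L1) `perfect_of_dualFamily`, `perfect_of_isBaseChange` : a UNIMODULAR `ℤ`-form (`B₀` bijective,
  e.g. `GM/Asm/DAsm.lamB_bijective`) on a finite free `Λ` stays perfect after any base change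
  `j : Λ → L`, `IsBaseChange O j`;
* (L2) `perfect_compr` : twisting the second variable by a bijection keeps perfectness (the
  Atkin–Lehner twist that makes the Hecke operators self-adjoint);
* (L3) `apply_eq_zero_of_mem_locPart_of_mem_awayPart`, `perfect_locPart` : if a commutative algebra
  `A` acts SELF-ADJOINTLY for `B`, then `locPart 𝔪 L ⟂ awayPart 𝔪 L` and the restriction of a
  perfect `B` to `locPart 𝔪 L` is perfect;
* (L4) `mem_locPart_of_eigen` : a joint eigenvector whose eigencharacter is residually `𝔪` lies in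
  `locPart 𝔪 L`.
-/
import Mathlib
import Fermat.Agent.GB.B3.Loc
import Fermat.Agent.GE9.Eta.Abstract

set_option autoImplicit false
set_option linter.unusedSectionVars false

namespace Fermat.Agent.GE9.Eta.Loc

open Module Submodule Fermat.Agent.GB.B3.Loc

/-- every functional is represented by the form (the `hperf` binder of `Eta/Sat`). -/
def Perfect {O : Type*} [CommRing O] {L : Type*} [AddCommGroup L] [Module O L]
    (B : L →ₗ[O] L →ₗ[O] O) : Prop :=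
  ∀ φ : L →ₗ[O] O, ∃ x : L, ∀ y, B y x = φ y

section DualFamily

variable {O : Type*} [CommRing O] {L : Type*} [AddCommGroup L] [Module O L]

/-- **(L1a)** a basis with a dual family for `B` ⟹ `B` perfect. -/
theorem perfect_of_dualFamily {ι : Type*} [Fintype ι] [DecidableEq ι]
    (B : L →ₗ[O] L →ₗ[O] O) (β : Basis ι O L) (β' : ι → L)
    (hdual : ∀ i j, B (β i) (β' j) = if i = j then 1 else 0) : Perfect B := by
  intro φ
  refine ⟨∑ j, φ (β j) • β' j, fun y => ?_⟩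
  have key : (B.flip (∑ j, φ (β j) • β' j)) = φ := by
    refine β.ext fun i => ?_
    rw [LinearMap.flip_apply, map_sum]
    simp only [map_smul, hdual, smul_eq_mul, mul_ite, mul_one, mul_zero]
    rw [Finset.sum_ite_eq]
    simp
  have := congrArg (fun f : L →ₗ[O] O => f y) key
  simpa [LinearMap.flip_apply] using this

/-- **(L2)** twisting the second variable by a bijection keeps perfectness. -/
theorem perfect_compr (B : L →ₗ[O] L →ₗ[O] O) (w : L ≃ₗ[O] L) (hB : Perfect B) :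
    Perfect (B.compl₂ (w : L →ₗ[O] L)) := by
  intro φ
  obtain ⟨x, hx⟩ := hB φ
  refine ⟨w.symm x, fun y => ?_⟩
  rw [LinearMap.compl₂_apply, LinearEquiv.coe_coe, LinearEquiv.apply_symm_apply]
  exact hx y

/-- twisting the first variable by a bijection keeps perfectness. -/
theorem perfect_compl (B : L →ₗ[O] L →ₗ[O] O) (w : L ≃ₗ[O] L) (hB : Perfect B) :
    Perfect (B.comp (w : L →ₗ[O] L)) := by
  intro φ
  obtain ⟨x, hx⟩ := hB (φ.comp (w.symm : L →ₗ[O] L))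
  refine ⟨x, fun y => ?_⟩
  rw [LinearMap.comp_apply, LinearEquiv.coe_coe, hx, LinearMap.comp_apply, LinearEquiv.coe_coe,
    LinearEquiv.symm_apply_apply]

end DualFamily

section BaseChange

variable {Λ : Type*} [AddCommGroup Λ] [Module.Free ℤ Λ] [Module.Finite ℤ Λ]
  {O : Type*} [CommRing O] {L : Type*} [AddCommGroup L] [Module O L]

/-- **(L1)** a unimodular `ℤ`-form stays perfect after base change. -/
theorem perfect_of_isBaseChange (B₀ : Λ →ₗ[ℤ] Λ →ₗ[ℤ] ℤ) (hB₀ : Function.Bijective B₀)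
    (j : Λ →ₗ[ℤ] L) (hj : IsBaseChange O j) (B : L →ₗ[O] L →ₗ[O] O)
    (hBj : ∀ x y, B (j x) (j y) = ((B₀ x y : ℤ) : O)) : Perfect B := by
  classical
  let ι := Module.Free.ChooseBasisIndex ℤ Λ
  let b : Basis ι ℤ Λ := Module.Free.chooseBasis ℤ Λ
  -- the dual family for `B₀` : `B₀ x (b' i) = b.coord i x`, via the FLIPPED form
  have hflip : Function.Bijective (B₀.flip : Λ →ₗ[ℤ] Λ →ₗ[ℤ] ℤ) := by
    -- `B₀.flip = (dual transpose of B₀) ∘ eval`, both bijective for finite free modules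
    have h1 : (B₀.flip : Λ →ₗ[ℤ] Λ →ₗ[ℤ] ℤ) =
        (Module.Dual.transpose (R := ℤ) B₀) ∘ₗ (Module.Dual.eval ℤ Λ) := by
      ext x y
      rfl
    rw [h1]
    have he : Function.Bijective (Module.Dual.eval ℤ Λ) := Module.bijective_dual_eval ℤ Λ
    have ht : Function.Bijective (Module.Dual.transpose (R := ℤ) B₀) := by
      let e : Λ ≃ₗ[ℤ] Module.Dual ℤ Λ := LinearEquiv.ofBijective B₀ hB₀
      have : (Module.Dual.transpose (R := ℤ) B₀) =
          (e.dualMap : Module.Dual ℤ (Module.Dual ℤ Λ) →ₗ[ℤ] Module.Dual ℤ Λ) := rfl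
      rw [this]
      exact e.dualMap.bijective
    exact ht.comp he
  choose b' hb' using fun i => hflip.2 (b.coord i)
  have hb'' : ∀ i k, B₀ (b i) (b' k) = if i = k then 1 else 0 := by
    intro i k
    have := congrArg (fun f : Λ →ₗ[ℤ] ℤ => f (b i)) (hb' k)
    simp only [LinearMap.flip_apply, Basis.coord_apply, Basis.repr_self] at this
    rw [this, Finsupp.single_apply]
  let β : Basis ι O L := hj.basis b
  have hβ : ∀ i, β i = j (b i) := fun i => hj.basis_apply b i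
  refine perfect_of_dualFamily B β (fun k => j (b' k)) fun i k => ?_
  rw [hβ, hBj, hb'']
  split_ifs <;> simp

end BaseChange

section LocPart

variable {𝒪 : Type} [CommRing 𝒪] [IsLocalRing 𝒪] [IsNoetherianRing 𝒪]
  [IsAdicComplete (IsLocalRing.maximalIdeal 𝒪) 𝒪]
variable {A : Type} [CommRing A] [Algebra 𝒪 A] (𝔪 : Ideal A) [𝔪.IsMaximal]
variable {L : Type*} [AddCommGroup L] [Module 𝒪 L] [Module A L] [IsScalarTower 𝒪 A L]
  [Module.Finite 𝒪 L]

omit [IsLocalRing 𝒪] [IsNoetherianRing 𝒪] [IsAdicComplete (IsLocalRing.maximalIdeal 𝒪) 𝒪]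
  [Module.Finite 𝒪 L] in
/-- **(L3a)** for a form with self-adjoint `A`-action, `locPart 𝔪 L ⟂ awayPart 𝔪 L`. -/
theorem apply_eq_zero_of_mem_locPart_of_mem_awayPart (B : L →ₗ[𝒪] L →ₗ[𝒪] 𝒪)
    (hsa : ∀ (a : A) (x y : L), B (a • x) y = B x (a • y)) {x y : L}
    (hx : x ∈ locPart 𝔪 L) (hy : y ∈ awayPart 𝔪 L) : B x y = 0 ∧ B y x = 0 := by
  obtain ⟨s, hs, hsy⟩ := mem_awayPart.1 hy
  obtain ⟨x', rfl⟩ := mem_locPart.1 hx s hs
  constructor
  · rw [hsa, hsy, map_zero]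
  · rw [← hsa, hsy, map_zero, LinearMap.zero_apply]

/-- **(L3)** the restriction of a perfect form with self-adjoint `A`-action to the `𝔪`-primary part
is perfect (the `hperf` binder of `Eta/Sat.next_stage` at `L' := locPart 𝔪 L`). -/
theorem perfect_locPart (B : L →ₗ[𝒪] L →ₗ[𝒪] 𝒪)
    (hsa : ∀ (a : A) (x y : L), B (a • x) y = B x (a • y)) (hB : Perfect B)
    (φ : locPart 𝔪 L →ₗ[𝒪] 𝒪) :
    ∃ x : locPart 𝔪 L, ∀ y : locPart 𝔪 L, B (y : L) (x : L) = φ y := by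
  have hcompl := isCompl_locPart_awayPart 𝒪 (L := L) 𝔪
  obtain ⟨x, hx⟩ := hB (φ.comp ((locProj 𝒪 (L := L) 𝔪).restrictScalars 𝒪))
  have hxtop : x ∈ locPart 𝔪 L ⊔ awayPart 𝔪 L := by rw [hcompl.sup_eq_top]; trivial
  obtain ⟨x₁, hx₁, x₂, hx₂, rfl⟩ := Submodule.mem_sup.1 hxtop
  refine ⟨⟨x₁, hx₁⟩, fun y => ?_⟩
  have h1 := hx (y : L)
  rw [map_add, (apply_eq_zero_of_mem_locPart_of_mem_awayPart 𝔪 B hsa y.2 hx₂).1, add_zero] at h1
  rw [h1, LinearMap.comp_apply, LinearMap.coe_restrictScalars, locProj_apply_of_mem 𝒪 𝔪 y.2]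

/-- the restricted form on the `𝔪`-primary part. -/
noncomputable def BLoc (B : L →ₗ[𝒪] L →ₗ[𝒪] 𝒪) :
    locPart 𝔪 L →ₗ[𝒪] locPart 𝔪 L →ₗ[𝒪] 𝒪 :=
  (B.comp ((locPart 𝔪 L).subtype.restrictScalars 𝒪)).compl₂
    ((locPart 𝔪 L).subtype.restrictScalars 𝒪)

omit [IsLocalRing 𝒪] [IsNoetherianRing 𝒪] [IsAdicComplete (IsLocalRing.maximalIdeal 𝒪) 𝒪]
  [Module.Finite 𝒪 L] in
@[simp] theorem BLoc_apply (B : L →ₗ[𝒪] L →ₗ[𝒪] 𝒪) (x y : locPart 𝔪 L) :
    BLoc 𝔪 B x y = B (x : L) (y : L) := rfl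

/-- **(L3)**, packaged: `BLoc` is perfect. -/
theorem perfect_BLoc (B : L →ₗ[𝒪] L →ₗ[𝒪] 𝒪)
    (hsa : ∀ (a : A) (x y : L), B (a • x) y = B x (a • y)) (hB : Perfect B) :
    Perfect (BLoc 𝔪 B) := fun φ => by
  obtain ⟨x, hx⟩ := perfect_locPart 𝔪 B hsa hB φ
  exact ⟨x, fun y => hx y⟩

omit [IsLocalRing 𝒪] [IsNoetherianRing 𝒪] [IsAdicComplete (IsLocalRing.maximalIdeal 𝒪) 𝒪]
  [Module.Finite 𝒪 L] in
/-- the `A`-action stays self-adjoint for `BLoc`. -/
theorem BLoc_selfAdjoint (B : L →ₗ[𝒪] L →ₗ[𝒪] 𝒪)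
    (hsa : ∀ (a : A) (x y : L), B (a • x) y = B x (a • y)) (a : A) (x y : locPart 𝔪 L) :
    BLoc 𝔪 B (a • x) y = BLoc 𝔪 B x (a • y) := hsa a x y

end LocPart

section Eigen

variable {𝒪 : Type*} [CommRing 𝒪] [IsLocalRing 𝒪]
variable {A : Type*} [CommRing A] [Algebra 𝒪 A] (𝔪 : Ideal A) [𝔪.IsPrime]
variable {L : Type*} [AddCommGroup L] [Module 𝒪 L] [Module A L] [IsScalarTower 𝒪 A L]

/-- **(L4)** a joint eigenvector whose eigencharacter `χ` is residually `𝔪` (`χ a` is a unit for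
`a ∉ 𝔪`) lies in the `𝔪`-primary part. -/
theorem mem_locPart_of_eigen (χ : A → 𝒪) (h𝔪 : ∀ a : A, a ∉ 𝔪 → IsUnit (χ a)) {x : L}
    (hx : ∀ a : A, a • x = χ a • x) : x ∈ locPart 𝔪 L := by
  rw [mem_locPart]
  intro s hs
  obtain ⟨u, hu⟩ := h𝔪 s hs
  refine ⟨((u⁻¹ : 𝒪ˣ) : 𝒪) • x, ?_⟩
  rw [smul_comm, hx s, ← hu, smul_smul, Units.inv_mul, one_smul]

end Eigen

end Fermat.Agent.GE9.Eta.Loc
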