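/-
GATE-E / GE9-ETA-LOC-LAM (helper5): **the `⊗ O` glue of E9-ETA on the model `O ⊗[ℤ] Lam N`**
(the model of helper63's `GE9/Mult1/Main`: `M = O ⊗[ℤ] Lam N`, `T' l = (latT N l).baseChange O`).

ABSTRACT (a `ℤ`-lattice `Λ` with a form `B₀`):

* `bcForm O B₀` := `B₀.baseChange O` on `O ⊗[ℤ] Λ`, `bcForm_tmul`, `bcForm_one_tmul`;
* `perfect_bcForm` : `B₀` unimodular (bijective), `Λ` finite free ⟹ `Loc.Perfect (bcForm O B₀)`
  (the `hperf` binder of `Eta/Sat`);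
* `bcForm_transfer` : a `ℤ`-identity `B₀' (α x) (α' y) = B₀ x (γ y)` survives base change;
  `bcForm_adjoint`, `bcForm_selfAdjoint`, `bcForm_skew` : special cases.

CONCRETE (`Λ = Lam N`, `B₀ = lamB N` the unimodular cup form of `GM/Asm/DAsm`):

* `lamBO N O`, `perfect_lamBO`, `lamBO_latT` (self-adjointness of `T_l ⊗ O`, `l ∤ N`), `lamBO_skew`;
* `alpha3O N q O : (Fin 3 → O ⊗ Lam N) →ₗ[O] O ⊗ Lam (N q²)`, the base change of helper2's `alpha3`;
* **`lamBO_alpha3O`** : the binder `hadj` of `Eta/Three.card_congMod_growth_three` OVER `O`, from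
  helper2's `Adj3.lamB_alpha3_latT` over `ℤ`:
  `⟨α₃ u, α₃ w⟩ = ∑ m n, ⟨u m, A3op q (T_q ⊗ O) m n (w n)⟩`;
* `card_congMod_growth_three_lam` : plug test — `card_congMod_growth_three` on the model with
  `hadj` discharged.
-/
import Mathlib
import Fermat.Agent.GE9.Eta.Loc
import Fermat.Agent.GE9.Adj3.Main
import Fermat.Agent.GE9.Mult1.Main

set_option autoImplicit false
set_option linter.unusedSectionVars false

open scoped TensorProduct

namespace Fermat.Agent.GE9.Eta.LocLam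

open Fermat.Agent.GE9.Eta.Loc

/-! ### abstract base change of a `ℤ`-form -/

section Abstract

variable (O : Type*) [CommRing O]
variable {Λ : Type*} [AddCommGroup Λ] {Λ' : Type*} [AddCommGroup Λ']

/-- the base change `B₀ ⊗ O` of a `ℤ`-bilinear form, as an `O`-bilinear form on `O ⊗[ℤ] Λ`. -/
noncomputable def bcForm (B₀ : Λ →ₗ[ℤ] Λ →ₗ[ℤ] ℤ) :
    (O ⊗[ℤ] Λ) →ₗ[O] (O ⊗[ℤ] Λ) →ₗ[O] O :=
  LinearMap.BilinForm.baseChange O B₀

variable {O}

theorem bcForm_tmul (B₀ : Λ →ₗ[ℤ] Λ →ₗ[ℤ] ℤ) (a a' : O) (x y : Λ) :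
    bcForm O B₀ (a ⊗ₜ x) (a' ⊗ₜ y) = (B₀ x y) • (a * a') :=
  LinearMap.BilinForm.baseChange_tmul B₀ a x a' y

theorem bcForm_one_tmul (B₀ : Λ →ₗ[ℤ] Λ →ₗ[ℤ] ℤ) (x y : Λ) :
    bcForm O B₀ ((1 : O) ⊗ₜ x) ((1 : O) ⊗ₜ y) = ((B₀ x y : ℤ) : O) := by
  rw [bcForm_tmul, mul_one, zsmul_eq_mul, mul_one]

/-- two `O`-bilinear forms on `O ⊗[ℤ] Λ` that agree on the lattice `1 ⊗ Λ` are equal. -/
theorem bilin_ext_of_one_tmul {B B' : (O ⊗[ℤ] Λ) →ₗ[O] (O ⊗[ℤ] Λ) →ₗ[O] O}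
    (h : ∀ x y : Λ, B ((1 : O) ⊗ₜ x) ((1 : O) ⊗ₜ y) = B' ((1 : O) ⊗ₜ x) ((1 : O) ⊗ₜ y))
    (x y : O ⊗[ℤ] Λ) : B x y = B' x y := by
  have htm : ∀ (a b : O) (u v : Λ), B (a ⊗ₜ u) (b ⊗ₜ v) = B' (a ⊗ₜ u) (b ⊗ₜ v) := by
    intro a b u v
    have ha : (a ⊗ₜ[ℤ] u : O ⊗[ℤ] Λ) = a • ((1 : O) ⊗ₜ[ℤ] u) := by
      rw [TensorProduct.smul_tmul', smul_eq_mul, mul_one]
    have hb : (b ⊗ₜ[ℤ] v : O ⊗[ℤ] Λ) = b • ((1 : O) ⊗ₜ[ℤ] v) := by
      rw [TensorProduct.smul_tmul', smul_eq_mul, mul_one]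
    rw [ha, hb]
    simp only [map_smul, LinearMap.smul_apply, h]
  induction x using TensorProduct.induction_on with
  | zero => simp
  | tmul a u =>
    induction y using TensorProduct.induction_on with
    | zero => simp
    | tmul b v => exact htm a b u v
    | add y₁ y₂ h₁ h₂ => rw [map_add, map_add, h₁, h₂]
  | add x₁ x₂ h₁ h₂ => rw [map_add, map_add, LinearMap.add_apply, LinearMap.add_apply, h₁, h₂]

/-- **transfer**: a `ℤ`-identity `B₀' (α x) (α' y) = B₀ x (γ y)` survives base change. -/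
theorem bcForm_transfer (B₀ : Λ →ₗ[ℤ] Λ →ₗ[ℤ] ℤ) (B₀' : Λ' →ₗ[ℤ] Λ' →ₗ[ℤ] ℤ)
    (α α' : Λ →ₗ[ℤ] Λ') (γ : Λ →ₗ[ℤ] Λ)
    (h : ∀ x y, B₀' (α x) (α' y) = B₀ x (γ y)) (x y : O ⊗[ℤ] Λ) :
    bcForm O B₀' (α.baseChange O x) (α'.baseChange O y)
      = bcForm O B₀ x (γ.baseChange O y) := by
  induction x using TensorProduct.induction_on with
  | zero => simp
  | tmul a u =>
    induction y using TensorProduct.induction_on with
    | zero => simp
    | tmul b v =>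
      rw [LinearMap.baseChange_tmul, LinearMap.baseChange_tmul, LinearMap.baseChange_tmul,
        bcForm_tmul, bcForm_tmul, h]
    | add y₁ y₂ h₁ h₂ => rw [map_add, map_add, map_add, map_add, h₁, h₂]
  | add x₁ x₂ h₁ h₂ =>
    rw [map_add, map_add, map_add, LinearMap.add_apply, LinearMap.add_apply, h₁, h₂]

/-- adjoint pairs survive base change. -/
theorem bcForm_adjoint (B₀ : Λ →ₗ[ℤ] Λ →ₗ[ℤ] ℤ) (S T : Λ →ₗ[ℤ] Λ)
    (h : ∀ x y, B₀ (S x) y = B₀ x (T y)) (x y : O ⊗[ℤ] Λ) :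
    bcForm O B₀ (S.baseChange O x) y = bcForm O B₀ x (T.baseChange O y) := by
  have := bcForm_transfer (O := O) B₀ B₀ S LinearMap.id T (fun x y => h x y) x y
  rwa [LinearMap.baseChange_id, LinearMap.id_apply] at this

/-- self-adjoint operators survive base change. -/
theorem bcForm_selfAdjoint (B₀ : Λ →ₗ[ℤ] Λ →ₗ[ℤ] ℤ) (T : Λ →ₗ[ℤ] Λ)
    (h : ∀ x y, B₀ (T x) y = B₀ x (T y)) (x y : O ⊗[ℤ] Λ) :
    bcForm O B₀ (T.baseChange O x) y = bcForm O B₀ x (T.baseChange O y) :=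
  bcForm_adjoint B₀ T T h x y

/-- isometries survive base change. -/
theorem bcForm_isometry (B₀ : Λ →ₗ[ℤ] Λ →ₗ[ℤ] ℤ) (B₀' : Λ' →ₗ[ℤ] Λ' →ₗ[ℤ] ℤ)
    (w : Λ →ₗ[ℤ] Λ') (h : ∀ x y, B₀' (w x) (w y) = B₀ x y) (x y : O ⊗[ℤ] Λ) :
    bcForm O B₀' (w.baseChange O x) (w.baseChange O y) = bcForm O B₀ x y := by
  have := bcForm_transfer (O := O) B₀ B₀' w w LinearMap.id (fun x y => h x y) x y
  rwa [LinearMap.baseChange_id, LinearMap.id_apply] at this

/-- skew-symmetry survives base change. -/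
theorem bcForm_skew (B₀ : Λ →ₗ[ℤ] Λ →ₗ[ℤ] ℤ) (h : ∀ x y, B₀ x y = - B₀ y x)
    (x y : O ⊗[ℤ] Λ) : bcForm O B₀ x y = - bcForm O B₀ y x := by
  have key := bilin_ext_of_one_tmul (O := O) (B := bcForm O B₀) (B' := - (bcForm O B₀).flip)
    (fun u v => by
      rw [LinearMap.neg_apply, LinearMap.neg_apply, LinearMap.flip_apply, bcForm_one_tmul,
        bcForm_one_tmul, h u v, Int.cast_neg]) x y
  rw [key, LinearMap.neg_apply, LinearMap.neg_apply, LinearMap.flip_apply]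

/-- symmetry survives base change. -/
theorem bcForm_symm (B₀ : Λ →ₗ[ℤ] Λ →ₗ[ℤ] ℤ) (h : ∀ x y, B₀ x y = B₀ y x)
    (x y : O ⊗[ℤ] Λ) : bcForm O B₀ x y = bcForm O B₀ y x := by
  have key := bilin_ext_of_one_tmul (O := O) (B := bcForm O B₀) (B' := (bcForm O B₀).flip)
    (fun u v => by
      rw [LinearMap.flip_apply, bcForm_one_tmul, bcForm_one_tmul, h u v]) x y
  rw [key, LinearMap.flip_apply]

variable [Module.Free ℤ Λ] [Module.Finite ℤ Λ]

/-- **a unimodular `ℤ`-form is perfect after base change to `O`** (the `hperf` binder). -/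
theorem perfect_bcForm (B₀ : Λ →ₗ[ℤ] Λ →ₗ[ℤ] ℤ) (hB₀ : Function.Bijective B₀) :
    Perfect (bcForm O B₀) :=
  perfect_of_isBaseChange B₀ hB₀ (TensorProduct.mk ℤ O Λ 1) (TensorProduct.isBaseChange ℤ Λ O)
    (bcForm O B₀) (fun x y => bcForm_one_tmul B₀ x y)

end Abstract

/-! ### the operator matrix `A3op` commutes with base change -/

section A3

variable {O : Type*} [CommRing O] {Λ : Type*} [AddCommGroup Λ]

theorem A3op_baseChange (q : ℤ) (T₀ : Λ →ₗ[ℤ] Λ) (m n : Fin 3) :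
    (Fermat.Agent.GE9.Eta.A3op q T₀ m n).baseChange O
      = Fermat.Agent.GE9.Eta.A3op ((q : ℤ) : O) (T₀.baseChange O) m n := by
  have hs : ∀ (z : ℤ) (f : Λ →ₗ[ℤ] Λ), (z • f).baseChange O = ((z : ℤ) : O) • f.baseChange O := by
    intro z f
    rw [LinearMap.baseChange_smul]
    exact (Int.cast_smul_eq_zsmul O z (f.baseChange O)).symm
  have hm : (T₀ * T₀).baseChange O = T₀.baseChange O * T₀.baseChange O :=
    LinearMap.baseChange_mul T₀ T₀
  have h00 : ((q * (q + 1)) • (LinearMap.id : Λ →ₗ[ℤ] Λ)).baseChange O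
      = ((((q : ℤ) : O)) * (((q : ℤ) : O) + 1)) • (LinearMap.id : (O ⊗[ℤ] Λ) →ₗ[O] (O ⊗[ℤ] Λ)) := by
    rw [hs, LinearMap.baseChange_id, Int.cast_mul, Int.cast_add, Int.cast_one]
  have h01 : (q • T₀).baseChange O = ((q : ℤ) : O) • T₀.baseChange O := hs q T₀
  have h02 : (T₀ * T₀ - (q + 1) • (LinearMap.id : Λ →ₗ[ℤ] Λ)).baseChange O
      = T₀.baseChange O * T₀.baseChange O
        - (((q : ℤ) : O) + 1) • (LinearMap.id : (O ⊗[ℤ] Λ) →ₗ[O] (O ⊗[ℤ] Λ)) := by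
    rw [LinearMap.baseChange_sub, hm, hs, LinearMap.baseChange_id, Int.cast_add, Int.cast_one]
  fin_cases m <;> fin_cases n
  · exact h00
  · exact h01
  · exact h02
  · exact h01
  · exact h00
  · exact h01
  · exact h02
  · exact h01
  · exact h00

end A3

/-! ### the model `O ⊗[ℤ] Lam N` -/

section Concrete

open Fermat.Agent.GJ.J2.Lat Fermat.Agent.GM.Asm Fermat.Agent.GM.Theta.Outer

variable (N : ℕ) [NeZero N] (O : Type*) [CommRing O]

/-- the cup form of level `N` over `O`, on `O ⊗[ℤ] Lam N`. -/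
noncomputable def lamBO : (O ⊗[ℤ] Lam N) →ₗ[O] (O ⊗[ℤ] Lam N) →ₗ[O] O :=
  bcForm O (lamB N)

variable {N O}

theorem lamBO_tmul (a a' : O) (x y : Lam N) :
    lamBO N O (a ⊗ₜ x) (a' ⊗ₜ y) = (lamB N x y) • (a * a') :=
  bcForm_tmul (lamB N) a a' x y

theorem lamBO_one_tmul (x y : Lam N) :
    lamBO N O ((1 : O) ⊗ₜ x) ((1 : O) ⊗ₜ y) = ((lamB N x y : ℤ) : O) :=
  bcForm_one_tmul (lamB N) x y

variable (N O)

/-- **`hperf` for the model**: the cup form over `O` is perfect. -/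
theorem perfect_lamBO : Perfect (lamBO N O) :=
  perfect_bcForm (lamB N) (lamB_bijective N)

variable {N O}

/-- `T_l ⊗ O` is self-adjoint for the cup form, `l ∤ N`. -/
theorem lamBO_latT (l : Nat.Primes) (hlN : ¬ (l : ℕ) ∣ N) (x y : O ⊗[ℤ] Lam N) :
    lamBO N O ((latT N l).baseChange O x) y = lamBO N O x ((latT N l).baseChange O y) :=
  bcForm_selfAdjoint (lamB N) (latT N l) (lamB_latT l hlN) x y

/-- the cup form over `O` is skew-symmetric. -/
theorem lamBO_skew (x y : O ⊗[ℤ] Lam N) : lamBO N O x y = - lamBO N O y x :=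
  bcForm_skew (lamB N) (lamB_skew N) x y

end Concrete

/-! ### the three degeneracy maps over `O` and their Gram matrix -/

section Alpha3

open Fermat.Agent.GJ.J2.Lat Fermat.Agent.GM.Asm Fermat.Agent.GE9.Adj3

variable (N q : ℕ) [Fact q.Prime] [NeZero N] [NeZero (N * q)] [NeZero (N * q * q)]
variable (O : Type*) [CommRing O]

/-- the `m`-th component `α_m : Lam N → Lam (N q²)` of `α₃`. -/
noncomputable def alComp (m : Fin 3) : Lam N →ₗ[ℤ] Lam (N * q * q) :=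
  (alpha3 N q).comp (LinearMap.single ℤ (fun _ : Fin 3 => Lam N) m)

/-- `α₃ ⊗ O : (O ⊗ Lam N)³ → O ⊗ Lam (N q²)`. -/
noncomputable def alpha3O : (Fin 3 → O ⊗[ℤ] Lam N) →ₗ[O] O ⊗[ℤ] Lam (N * q * q) :=
  ∑ m : Fin 3, ((alComp N q m).baseChange O).comp (LinearMap.proj m)

variable {N q O}

theorem alpha3O_apply (u : Fin 3 → O ⊗[ℤ] Lam N) :
    alpha3O N q O u = ∑ m : Fin 3, (alComp N q m).baseChange O (u m) := by
  simp [alpha3O, LinearMap.sum_apply]

/-- on the lattice: `α₃ ⊗ O (1 ⊗ u) = 1 ⊗ α₃ u`. -/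
theorem alpha3O_one_tmul (u : Fin 3 → Lam N) :
    alpha3O N q O (fun m => (1 : O) ⊗ₜ[ℤ] u m) = (1 : O) ⊗ₜ[ℤ] alpha3 N q u := by
  rw [alpha3O_apply]
  simp only [LinearMap.baseChange_tmul]
  rw [← TensorProduct.tmul_sum]
  congr 1
  simp only [alComp, LinearMap.comp_apply]
  rw [← map_sum]
  congr 1
  ext k
  simp [Finset.sum_apply, Pi.single_apply]

/-- the entries of the Gram matrix over `ℤ` (helper2's `lamB_alpha3_latT` on `single`s). -/
theorem lamB_alComp (hqN : ¬ q ∣ N) (hq : q.Prime) (m n : Fin 3) (x y : Lam N) :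
    lamB (N * q * q) (alComp N q m x) (alComp N q n y)
      = lamB N x (Fermat.Agent.GE9.Eta.A3op (q : ℤ) (latT N (⟨q, hq⟩ : Nat.Primes)) m n y) := by
  have h := lamB_alpha3_latT hqN hq (Pi.single m x) (Pi.single n y)
  simp only [alComp, LinearMap.comp_apply, LinearMap.single_apply]
  rw [h]
  rw [Finset.sum_eq_single m]
  · rw [Finset.sum_eq_single n]
    · rw [Pi.single_eq_same, Pi.single_eq_same]
    · intro k _ hk
      rw [Pi.single_eq_of_ne hk, map_zero, map_zero]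
    · intro hn
      exact absurd (Finset.mem_univ n) hn
  · intro k _ hk
    refine Finset.sum_eq_zero fun j _ => ?_
    rw [Pi.single_eq_of_ne hk, map_zero, LinearMap.zero_apply]
  · intro hm
    exact absurd (Finset.mem_univ m) hm

/-- **the Gram matrix of `α₃ ⊗ O` is `A3op q (T_q ⊗ O)`** — the binder `hadj` of
`GE9/Eta/Three.card_congMod_growth_three` over `O`, for
`B = lamBO N O`, `B' = lamBO (N q²) O`, `α = alpha3O N q O`, `T = (latT N q).baseChange O`. -/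
theorem lamBO_alpha3O (hqN : ¬ q ∣ N) (hq : q.Prime) (u w : Fin 3 → O ⊗[ℤ] Lam N) :
    lamBO (N * q * q) O (alpha3O N q O u) (alpha3O N q O w)
      = ∑ m, ∑ n, lamBO N O (u m)
          (Fermat.Agent.GE9.Eta.A3op ((q : ℕ) : O)
            ((latT N (⟨q, hq⟩ : Nat.Primes)).baseChange O) m n (w n)) := by
  have key : ∀ m n : Fin 3,
      lamBO (N * q * q) O ((alComp N q m).baseChange O (u m)) ((alComp N q n).baseChange O (w n))
        = lamBO N O (u m) (Fermat.Agent.GE9.Eta.A3op ((q : ℕ) : O)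
            ((latT N (⟨q, hq⟩ : Nat.Primes)).baseChange O) m n (w n)) := by
    intro m n
    have h := bcForm_transfer (O := O) (lamB N) (lamB (N * q * q)) (alComp N q m) (alComp N q n)
      (Fermat.Agent.GE9.Eta.A3op (q : ℤ) (latT N (⟨q, hq⟩ : Nat.Primes)) m n)
      (fun x y => lamB_alComp hqN hq m n x y) (u m) (w n)
    rw [A3op_baseChange, Int.cast_natCast] at h
    exact h
  rw [alpha3O_apply, alpha3O_apply]
  simp only [map_sum, LinearMap.sum_apply, key]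
  exact Finset.sum_comm

end Alpha3

/-! ### plug test: `card_congMod_growth_three` on the model -/

section Plug

open Fermat.Agent.GJ.J2.Lat Fermat.Agent.GM.Asm Fermat.Agent.GE9.Adj3 Submodule

variable {N q : ℕ} [Fact q.Prime] [NeZero N] [NeZero (N * q)] [NeZero (N * q * q)]
variable {O : Type*} [CommRing O] [IsDomain O] [IsDiscreteValuationRing O]
  [Finite (IsLocalRing.ResidueField O)]

/-- **`Eta/Three.card_congMod_growth_three` on the model `O ⊗[ℤ] Lam N → O ⊗[ℤ] Lam (N q²)`**: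
the binder `hadj` is discharged by `lamBO_alpha3O`. -/
theorem card_congMod_growth_three_lam (hqN : ¬ q ∣ N) (hq : q.Prime)
    {d : ℕ} (b : Fin d → O ⊗[ℤ] Lam N) (f : Matrix (Fin 2) (Fin 2) O)
    (hT : ∀ j, (latT N (⟨q, hq⟩ : Nat.Primes)).baseChange O (b j) = f.trace • b j)
    (hqu : IsUnit ((q : ℕ) : O))
    (hc : Fermat.Agent.GE9.TanGrow.wilesFactor f ((q : ℕ) : O) ≠ 0)
    (hext : ∀ a : Fin d → O, ∃ x : O ⊗[ℤ] Lam N, ∀ i, lamBO N O (b i) x = a i)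
    (hext' : ∀ a : Fin d → O, ∃ x : O ⊗[ℤ] Lam (N * q * q), ∀ i,
      lamBO (N * q * q) O
        (Fermat.Agent.GE9.Eta.raise3 (alpha3O N q O) ((q : ℕ) : O) f.trace b i) x = a i)
    (hdet : (Fermat.Agent.GE9.Eta.gram (lamBO N O) b).det ≠ 0) :
    Nat.card (Fermat.Agent.GE9.Eta.CongMod (lamBO (N * q * q) O)
        (span O (Set.range
          (Fermat.Agent.GE9.Eta.raise3 (alpha3O N q O) ((q : ℕ) : O) f.trace b)))) =
      Nat.card (Fermat.Agent.GE9.Eta.CongMod (lamBO N O) (span O (Set.range b))) *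
        Nat.card (O ⧸ Ideal.span
          {Fermat.Agent.GE9.TanGrow.wilesFactor f ((q : ℕ) : O)}) ^ d :=
  Fermat.Agent.GE9.Eta.card_congMod_growth_three (lamBO N O) (lamBO (N * q * q) O)
    (alpha3O N q O) ((q : ℕ) : O) ((latT N (⟨q, hq⟩ : Nat.Primes)).baseChange O)
    (lamBO_alpha3O hqN hq) b f hT hqu hc hext hext' hdet

end Plug

end Fermat.Agent.GE9.Eta.LocLam
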