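/-
GATE-E / GE9-ETA-K (helper46): the plug of **IHARA2** (`GE9/Ihara2/Final.ihara2_latT`) through the
**kernel transfer** (`GE9/Eta/KTransfer.transfer_pi`) on the model `O ⊗[ℤ] Lam N` of
`GE9/Eta/LocLam`:

* `alpha3P_eq_alpha3` : `alpha3P N q (u 0, u 1, u 2) = Adj3.alpha3 N q u` (adapter);
* `eisEnd N l`        : `E_l = T_l - (l + 1)` as a `ℤ`-linear endomorphism of `Lam N`;
* `ihara2_alpha3`     : `α₃ u ∈ p Λ_{N q²} ⟹ E_l' E_l (u m) ∈ p Λ_N` for every `m`;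
* **`hker_alpha3O`**  : for every commutative ring `O`, `ϖ ∣ p` in `O`:
    `ϖ ∣ alpha3O N q O u ⟹ ϖ ∣ (E_l' E_l ⊗ O) (u m)` for every `m`
  — the binder `hker` of `Sat.injModP_of_killed` for `α = alpha3O N q O`, `E = (E_l' E_l) ⊗ O`.
-/
import Mathlib
import Fermat.Agent.GE9.Ihara2.Final
import Fermat.Agent.GE9.Eta.KTransfer
import Fermat.Agent.GE9.Eta.LocLam

set_option autoImplicit false

open scoped TensorProduct
open CongruenceSubgroup ModularCurve.Period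
open Fermat.Agent.GM.B Fermat.Agent.GJ.J2.Lat
open Fermat.Agent.GE9.Adj3 Fermat.Agent.GE9.Ihara2 Fermat.Agent.GE9.Eta.LocLam

namespace Fermat.Agent.GE9.Eta.KPlug

variable {N q : ℕ} [hqF : Fact q.Prime] [NeZero N] [NeZero (N * q)] [NeZero (N * q * q)]

/-- adapter: helper46's `alpha3P` is helper2's `alpha3`. -/
theorem alpha3P_eq_alpha3 (u : Fin 3 → Lam N) :
    alpha3P N q (u 0, u 1, u 2) = alpha3 N q u := by
  rw [alpha3P_apply, alpha3_apply, alphaP_apply, map_add]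
  rfl

/-- `E_l = T_l - (l + 1)` on `Λ_N`. -/
noncomputable def eisEnd (N : ℕ) [NeZero N] (l : Nat.Primes) : Module.End ℤ (Lam N) :=
  latT N l - (((l : ℕ) : ℤ) + 1) • (1 : Module.End ℤ (Lam N))

/-- **IHARA2 on helper2's `alpha3`**. -/
theorem ihara2_alpha3 (hqN : ¬ q ∣ N) {p : ℕ} (hp : p.Prime) (hp2 : p ≠ 2)
    (l l' : Nat.Primes) (hl : ¬ (l : ℕ) ∣ N * q) (hlq : ((l : ℕ) : ZMod q) = 1)
    (hl' : ¬ (l' : ℕ) ∣ N) (u : Fin 3 → Lam N)
    (hu : ∃ w : Lam (N * q * q), alpha3 N q u = (p : ℤ) • w) (m : Fin 3) :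
    ∃ z : Lam N, (eisEnd N l' * eisEnd N l) (u m) = (p : ℤ) • z := by
  rw [← alpha3P_eq_alpha3] at hu
  obtain ⟨z1, z2, z3, h1, h2, h3⟩ := ihara2_latT hqN hp hp2 l l' hl hlq hl' (u 0) (u 1) (u 2) hu
  fin_cases m
  · exact ⟨z1, h1⟩
  · exact ⟨z2, h2⟩
  · exact ⟨z3, h3⟩

/-- `alpha3 u = ∑ m, alComp m (u m)`. -/
theorem alpha3_eq_sum (u : Fin 3 → Lam N) : alpha3 N q u = ∑ m : Fin 3, alComp N q m (u m) := by
  have h : ∀ m : Fin 3, alComp N q m (u m) = alpha3 N q (Pi.single m (u m)) := fun m => rfl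
  simp only [h]
  rw [← map_sum]
  congr 1
  ext k
  simp [Finset.sum_apply, Pi.single_apply]

/-- **the binder `hker` of `Sat.injModP_of_killed`** for `α = alpha3O N q O` and
`E = (E_l' E_l) ⊗ O`, over any commutative ring `O` in which `ϖ ∣ p`. -/
theorem hker_alpha3O (hqN : ¬ q ∣ N) {p : ℕ} (hp : p.Prime) (hp2 : p ≠ 2)
    (l l' : Nat.Primes) (hl : ¬ (l : ℕ) ∣ N * q) (hlq : ((l : ℕ) : ZMod q) = 1)
    (hl' : ¬ (l' : ℕ) ∣ N)
    (O : Type*) [CommRing O] (ϖ : O) (hpϖ : ∃ c : O, (p : O) = ϖ * c)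
    (u : Fin 3 → O ⊗[ℤ] Lam N) (hu : ∃ y : O ⊗[ℤ] Lam (N * q * q), alpha3O N q O u = ϖ • y)
    (m : Fin 3) :
    ∃ x' : O ⊗[ℤ] Lam N, (eisEnd N l' * eisEnd N l).baseChange O (u m) = ϖ • x' := by
  haveI : Fact p.Prime := ⟨hp⟩
  haveI : Module.Free ℤ (Lam N) := Fermat.Agent.GJ.J2.ZStruct.free_parabolicHoms_int N
  haveI : Module.Free ℤ (Lam (N * q * q)) :=
    Fermat.Agent.GJ.J2.ZStruct.free_parabolicHoms_int (N * q * q)
  rw [alpha3O_apply] at hu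
  refine KTransfer.transfer_pi p (alComp N q) (eisEnd N l' * eisEnd N l) ?_ O ϖ hpϖ u hu m
  intro v hv k
  rw [← alpha3_eq_sum] at hv
  exact ihara2_alpha3 hqN hp hp2 l l' hl hlq hl' v hv k

end Fermat.Agent.GE9.Eta.KPlug
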