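/-
GATE-E / GE9-ETA-K (helper46), file 3: **injectivity modulo `ϖ` of `α₃ ⊗ O` on joint eigenvectors**
— the binder `hinjP` of `Sat.next_stage_on(_three)` (helper50) on the model `O ⊗[ℤ] Lam N`
(helper5 `LocLam.alpha3O`), from IHARA2 + kernel transfer (`KPlug.hker_alpha3O`) + two units.

`x : O ⊗ Lam N` with `(T_l ⊗ O) x = a • x`, `(T_l' ⊗ O) x = a' • x`, `a - (l + 1)` and
`a' - (l' + 1)` units of `O`, `l ≡ 1 (mod q)`, `l ∤ N q`, `l' ∤ N`, `ϖ ∣ p` (`p` odd prime),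
`v : Fin 3 → O` with a unit coordinate `v m₀ = 1`:

  `ϖ ∣ alpha3O N q O (v ⊗ x)  ⟹  ϖ ∣ x`.
-/
import Mathlib
import Fermat.Agent.GE9.Eta.KPlug

set_option autoImplicit false

open scoped TensorProduct
open CongruenceSubgroup ModularCurve.Period
open Fermat.Agent.GM.B Fermat.Agent.GJ.J2.Lat
open Fermat.Agent.GE9.Adj3 Fermat.Agent.GE9.Ihara2 Fermat.Agent.GE9.Eta.LocLam

namespace Fermat.Agent.GE9.Eta.KPlug

variable {N q : ℕ} [hqF : Fact q.Prime] [NeZero N] [NeZero (N * q)] [NeZero (N * q * q)]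

omit hqF [NeZero (N * q)] [NeZero (N * q * q)] in
/-- `E_l ⊗ O` on an eigenvector of `T_l ⊗ O`. -/
theorem eisEnd_baseChange_of_eigen (O : Type*) [CommRing O] (l : Nat.Primes) (a : O)
    (x : O ⊗[ℤ] Lam N) (hx : (latT N l).baseChange O x = a • x) :
    (eisEnd N l).baseChange O x = (a - (((l : ℕ) : O) + 1)) • x := by
  unfold eisEnd
  rw [LinearMap.baseChange_sub, LinearMap.baseChange_smul, LinearMap.sub_apply,
    LinearMap.smul_apply, hx, Module.End.one_eq_id, LinearMap.baseChange_id, LinearMap.id_apply,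
    sub_smul, ← Int.cast_smul_eq_zsmul O]
  push_cast
  rfl

omit hqF [NeZero (N * q)] [NeZero (N * q * q)] in
/-- `(E_l' E_l) ⊗ O` on a joint eigenvector. -/
theorem eisEnd_mul_baseChange_of_eigen (O : Type*) [CommRing O] (l l' : Nat.Primes) (a a' : O)
    (x : O ⊗[ℤ] Lam N) (hx : (latT N l).baseChange O x = a • x)
    (hx' : (latT N l').baseChange O x = a' • x) :
    (eisEnd N l' * eisEnd N l).baseChange O x
      = ((a' - (((l' : ℕ) : O) + 1)) * (a - (((l : ℕ) : O) + 1))) • x := by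
  rw [Module.End.mul_eq_comp, LinearMap.baseChange_comp, LinearMap.comp_apply,
    eisEnd_baseChange_of_eigen O l a x hx, map_smul,
    eisEnd_baseChange_of_eigen O l' a' x hx', smul_smul, mul_comm]

/-- **`hinjP`**: `ϖ ∣ α₃ ⊗ O (v ⊗ x) ⟹ ϖ ∣ x` for a joint `(T_l, T_l')`-eigenvector `x` with
non-Eisenstein eigenvalues, `v` with a unit coordinate. -/
theorem hinjP_alpha3O (hqN : ¬ q ∣ N) {p : ℕ} (hp : p.Prime) (hp2 : p ≠ 2)
    (l l' : Nat.Primes) (hl : ¬ (l : ℕ) ∣ N * q) (hlq : ((l : ℕ) : ZMod q) = 1)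
    (hl' : ¬ (l' : ℕ) ∣ N)
    (O : Type*) [CommRing O] (ϖ : O) (hpϖ : ∃ c : O, (p : O) = ϖ * c)
    (a a' : O) (ha : IsUnit (a - (((l : ℕ) : O) + 1))) (ha' : IsUnit (a' - (((l' : ℕ) : O) + 1)))
    (x : O ⊗[ℤ] Lam N) (hx : (latT N l).baseChange O x = a • x)
    (hx' : (latT N l').baseChange O x = a' • x)
    (v : Fin 3 → O) (m₀ : Fin 3) (hv : v m₀ = 1)
    (h : ∃ y' : O ⊗[ℤ] Lam (N * q * q), alpha3O N q O (fun m => v m • x) = ϖ • y') :
    ∃ x' : O ⊗[ℤ] Lam N, x = ϖ • x' := by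
  obtain ⟨x', hx'eq⟩ := hker_alpha3O hqN hp hp2 l l' hl hlq hl' O ϖ hpϖ (fun m => v m • x) h m₀
  simp only [hv, one_smul] at hx'eq
  rw [eisEnd_mul_baseChange_of_eigen O l l' a a' x hx hx'] at hx'eq
  obtain ⟨u, hu⟩ := (ha'.mul ha)
  refine ⟨(↑u⁻¹ : O) • x', ?_⟩
  rw [smul_comm, ← hx'eq, ← hu, smul_smul, Units.inv_mul, one_smul]

/-- the same with `v = Three.v3 q a_q` (unit coordinate `2`), in `raise3` spelling. -/
theorem hinjP_raise3 (hqN : ¬ q ∣ N) {p : ℕ} (hp : p.Prime) (hp2 : p ≠ 2)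
    (l l' : Nat.Primes) (hl : ¬ (l : ℕ) ∣ N * q) (hlq : ((l : ℕ) : ZMod q) = 1)
    (hl' : ¬ (l' : ℕ) ∣ N)
    (O : Type*) [CommRing O] (ϖ : O) (hpϖ : ∃ c : O, (p : O) = ϖ * c)
    (a a' : O) (ha : IsUnit (a - (((l : ℕ) : O) + 1))) (ha' : IsUnit (a' - (((l' : ℕ) : O) + 1)))
    (x : O ⊗[ℤ] Lam N) (hx : (latT N l).baseChange O x = a • x)
    (hx' : (latT N l').baseChange O x = a' • x) (qO aq : O)
    (h : ∃ y' : O ⊗[ℤ] Lam (N * q * q),
      alpha3O N q O (fun m => Fermat.Agent.GE9.Eta.v3 qO aq m • x) = ϖ • y') :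
    ∃ x' : O ⊗[ℤ] Lam N, x = ϖ • x' :=
  hinjP_alpha3O hqN hp hp2 l l' hl hlq hl' O ϖ hpϖ a a' ha ha' x hx hx'
    (Fermat.Agent.GE9.Eta.v3 qO aq) 2 rfl h

end Fermat.Agent.GE9.Eta.KPlug
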