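/-
GATE-E / GE9-ETA-LOC-LAM-U part 2, abstract half (helper5): **twisted forms over `O`.**

`Λ` a `ℤ`-lattice with a form `B₀` and an endomorphism `w` (the Fricke involution `frP M` of helper2's
`GE9/Fricke`).  `twForm O B₀ w x y := bcForm O B₀ x ((w ⊗ O) y)` — the form `BW` of helper2's node table
(board 7190) for which ALL Hecke operators (`U_ℓ` included) are self-adjoint.

* `twForm_apply`, `twForm_one_tmul`, `twForm_eq_bcForm` (`= bcForm O (B₀.compl₂ w)`);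
* `perfect_twForm` : `B₀` unimodular, `w ∘ w = 1` ⟹ `Loc.Perfect (twForm O B₀ w)` (`hperf`);
* `twForm_adjoint`, `twForm_selfAdjoint` : a `ℤ`-identity `B₀ (S x) (w y) = B₀ x (w (T y))` survives
  base change (`hadj`-type binders: `BW (T_ℓ x) y = BW x (T_ℓ y)`);
* `twForm_symm` / `twForm_skew` from the `ℤ`-level (skew-)symmetry of `B₀ (·) (w ·)`;
* `twForm_transfer` : a `ℤ`-identity `B₀' (α x) (w' (α' y)) = B₀ x (w (γ y))` survives base change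
  (Gram matrix of `α₃` for the twisted forms, once `w' ∘ α_m = α_{rev m} ∘ w` (Z5) is on main).
-/
import Mathlib
import Fermat.Agent.GE9.Eta.LocLam

set_option autoImplicit false
set_option linter.unusedSectionVars false

open scoped TensorProduct

namespace Fermat.Agent.GE9.Eta.LocTw

open Fermat.Agent.GE9.Eta.Loc Fermat.Agent.GE9.Eta.LocLam

variable (O : Type*) [CommRing O]
variable {Λ : Type*} [AddCommGroup Λ] {Λ' : Type*} [AddCommGroup Λ']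

/-- the twisted form `⟨x, w y⟩` over `O`. -/
noncomputable def twForm (B₀ : Λ →ₗ[ℤ] Λ →ₗ[ℤ] ℤ) (w : Λ →ₗ[ℤ] Λ) :
    (O ⊗[ℤ] Λ) →ₗ[O] (O ⊗[ℤ] Λ) →ₗ[O] O :=
  (bcForm O B₀).compl₂ (w.baseChange O)

variable {O}

theorem twForm_apply (B₀ : Λ →ₗ[ℤ] Λ →ₗ[ℤ] ℤ) (w : Λ →ₗ[ℤ] Λ) (x y : O ⊗[ℤ] Λ) :
    twForm O B₀ w x y = bcForm O B₀ x (w.baseChange O y) := rfl

theorem twForm_one_tmul (B₀ : Λ →ₗ[ℤ] Λ →ₗ[ℤ] ℤ) (w : Λ →ₗ[ℤ] Λ) (x y : Λ) :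
    twForm O B₀ w ((1 : O) ⊗ₜ x) ((1 : O) ⊗ₜ y) = ((B₀ x (w y) : ℤ) : O) := by
  rw [twForm_apply, LinearMap.baseChange_tmul, bcForm_one_tmul]

/-- the twisted form is the base change of the twisted `ℤ`-form. -/
theorem twForm_eq_bcForm (B₀ : Λ →ₗ[ℤ] Λ →ₗ[ℤ] ℤ) (w : Λ →ₗ[ℤ] Λ) (x y : O ⊗[ℤ] Λ) :
    twForm O B₀ w x y = bcForm O (B₀.compl₂ w) x y :=
  bilin_ext_of_one_tmul (fun u v => by
    rw [twForm_one_tmul, bcForm_one_tmul, LinearMap.compl₂_apply]) x y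

/-- **transfer**: a `ℤ`-identity `B₀' (α x) (w' (α' y)) = B₀ x (w (γ y))` survives base change. -/
theorem twForm_transfer (B₀ : Λ →ₗ[ℤ] Λ →ₗ[ℤ] ℤ) (w : Λ →ₗ[ℤ] Λ)
    (B₀' : Λ' →ₗ[ℤ] Λ' →ₗ[ℤ] ℤ) (w' : Λ' →ₗ[ℤ] Λ')
    (α α' : Λ →ₗ[ℤ] Λ') (γ : Λ →ₗ[ℤ] Λ)
    (h : ∀ x y, B₀' (α x) (w' (α' y)) = B₀ x (w (γ y))) (x y : O ⊗[ℤ] Λ) :
    twForm O B₀' w' (α.baseChange O x) (α'.baseChange O y)
      = twForm O B₀ w x (γ.baseChange O y) := by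
  rw [twForm_apply, twForm_apply]
  have := bcForm_transfer (O := O) B₀ B₀' α (w'.comp α') (w.comp γ)
    (fun x y => by rw [LinearMap.comp_apply, LinearMap.comp_apply, h]) x y
  rwa [LinearMap.baseChange_comp, LinearMap.baseChange_comp, LinearMap.comp_apply,
    LinearMap.comp_apply] at this

/-- adjoint pairs for the twisted form survive base change. -/
theorem twForm_adjoint (B₀ : Λ →ₗ[ℤ] Λ →ₗ[ℤ] ℤ) (w S T : Λ →ₗ[ℤ] Λ)
    (h : ∀ x y, B₀ (S x) (w y) = B₀ x (w (T y))) (x y : O ⊗[ℤ] Λ) :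
    twForm O B₀ w (S.baseChange O x) y = twForm O B₀ w x (T.baseChange O y) := by
  have := twForm_transfer (O := O) B₀ w B₀ w S LinearMap.id T (fun x y => h x y) x y
  rwa [LinearMap.baseChange_id, LinearMap.id_apply] at this

/-- self-adjoint operators for the twisted form survive base change. -/
theorem twForm_selfAdjoint (B₀ : Λ →ₗ[ℤ] Λ →ₗ[ℤ] ℤ) (w T : Λ →ₗ[ℤ] Λ)
    (h : ∀ x y, B₀ (T x) (w y) = B₀ x (w (T y))) (x y : O ⊗[ℤ] Λ) :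
    twForm O B₀ w (T.baseChange O x) y = twForm O B₀ w x (T.baseChange O y) :=
  twForm_adjoint B₀ w T T h x y

/-- symmetry of the twisted form. -/
theorem twForm_symm (B₀ : Λ →ₗ[ℤ] Λ →ₗ[ℤ] ℤ) (w : Λ →ₗ[ℤ] Λ)
    (h : ∀ x y, B₀ x (w y) = B₀ y (w x)) (x y : O ⊗[ℤ] Λ) :
    twForm O B₀ w x y = twForm O B₀ w y x := by
  rw [twForm_eq_bcForm, twForm_eq_bcForm]
  exact bcForm_symm (B₀.compl₂ w) (fun u v => by
    rw [LinearMap.compl₂_apply, LinearMap.compl₂_apply, h]) x y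

/-- skew-symmetry of the twisted form. -/
theorem twForm_skew (B₀ : Λ →ₗ[ℤ] Λ →ₗ[ℤ] ℤ) (w : Λ →ₗ[ℤ] Λ)
    (h : ∀ x y, B₀ x (w y) = - B₀ y (w x)) (x y : O ⊗[ℤ] Λ) :
    twForm O B₀ w x y = - twForm O B₀ w y x := by
  rw [twForm_eq_bcForm, twForm_eq_bcForm]
  exact bcForm_skew (B₀.compl₂ w) (fun u v => by
    rw [LinearMap.compl₂_apply, LinearMap.compl₂_apply, h]) x y

/-- an involution of `Λ` gives a linear automorphism of `O ⊗ Λ`. -/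
noncomputable def bcEquivOfInvol (w : Λ →ₗ[ℤ] Λ) (hw : w.comp w = LinearMap.id) :
    (O ⊗[ℤ] Λ) ≃ₗ[O] (O ⊗[ℤ] Λ) :=
  LinearEquiv.ofLinearMap (w.baseChange O) (w.baseChange O)
    (by rw [← LinearMap.baseChange_comp, hw, LinearMap.baseChange_id])
    (by rw [← LinearMap.baseChange_comp, hw, LinearMap.baseChange_id])

theorem coe_bcEquivOfInvol (w : Λ →ₗ[ℤ] Λ) (hw : w.comp w = LinearMap.id) :
    ((bcEquivOfInvol (O := O) w hw : (O ⊗[ℤ] Λ) ≃ₗ[O] (O ⊗[ℤ] Λ)) :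
      (O ⊗[ℤ] Λ) →ₗ[O] (O ⊗[ℤ] Λ)) = w.baseChange O := rfl

/-- **`hperf` for the twisted form**: `B₀` unimodular, `w` an involution. -/
theorem perfect_twForm [Module.Free ℤ Λ] [Module.Finite ℤ Λ] (B₀ : Λ →ₗ[ℤ] Λ →ₗ[ℤ] ℤ)
    (hB₀ : Function.Bijective B₀) (w : Λ →ₗ[ℤ] Λ) (hw : w.comp w = LinearMap.id) :
    Perfect (twForm O B₀ w) := by
  have h := perfect_compr (bcForm O B₀) (bcEquivOfInvol (O := O) w hw) (perfect_bcForm B₀ hB₀)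
  rwa [coe_bcEquivOfInvol] at h

end Fermat.Agent.GE9.Eta.LocTw
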