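import Mathlib
import Fermat.Agent.GE9.Eta.Abstract
import Fermat.Agent.GE9.Eta.Three
import Fermat.Agent.GE9.NumCrit.ModForm.EtaHext

/-!
# GE9-ETA-SAT (S59 pre-work, helper50): the abstract saturation chain of the `η`-growth step

The level-raising map `α : L ^ k → L'` (`k = 3` for `Γ₀(N) → Γ₀(N q²)`) is **injective mod `ϖ`**
(`InjModP`: `ϖ ∣ α u ⟹ ϖ ∣ u`, the pointwise form of "`α ⊗ k` injective" = Wiles Lemma 2.5 /
IHARA2 on the non-Eisenstein part).  From this single hypothesis we derive everything the next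
stage of `Ind.chain` needs about `b' i := α (fun m => v m • b i)` (`v` with a unit coordinate,
e.g. `v3 q a = ![q, -a, 1]`):

* `(S0) injModP_of_killed` : `InjModP` from "`ker (α ⊗ k)` is killed by an invertible operator";
* `(S1) range_saturated`, `injective_of_injModP`, `separated_of_finite_free`;
* `(S2) tens_saturated` : `{v ⊗ x | x ∈ P}` is saturated in `L ^ k` if `P` is saturated in `L`;
* `(S3) map_saturated` : the image of a saturated submodule under `α` is saturated;
* `(S4) linearIndependent_raise`, `span_raise`, `hext_of_perfect_of_saturated`;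
* `(S5) eq_of_saturated_of_finrank` : a saturated submodule of full rank is everything;
* `(S6) next_stage` : `hli'`, `hspan'`, `hext'` of the next stage, in the spelling of
  `Ind.chain` / `Eta.card_congMod_growth_three` / `ModForm.hM1_of_eta_ne_bot`.
-/

set_option linter.unusedSectionVars false

namespace Fermat.Agent.GE9.Eta.Sat

open Module Submodule

section Defs

variable {O : Type*} [CommRing O] {L : Type*} [AddCommGroup L] [Module O L]

/-- `P` is saturated in `L` (the spelling of `Eta.exists_retraction_of_saturated`). -/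
def Saturated (P : Submodule O L) : Prop := ∀ (c : O) (x : L), c ≠ 0 → c • x ∈ P → x ∈ P

variable {M : Type*} [AddCommGroup M] [Module O M] {L' : Type*} [AddCommGroup L'] [Module O L']

/-- `α` is injective modulo `ϖ`, pointwise form: `ϖ ∣ α u ⟹ ϖ ∣ u`. -/
def InjModP (ϖ : O) (α : M →ₗ[O] L') : Prop :=
  ∀ u : M, (∃ y' : L', α u = ϖ • y') → ∃ u' : M, u = ϖ • u'

/-- `x ↦ (v m • x)_m : L → L ^ k`. -/
def tens {k : ℕ} (v : Fin k → O) : L →ₗ[O] (Fin k → L) := LinearMap.pi fun m => v m • LinearMap.id

@[simp] theorem tens_apply {k : ℕ} (v : Fin k → O) (x : L) (m : Fin k) : tens v x m = v m • x := rfl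

theorem tens_injective {k : ℕ} (v : Fin k → O) (m₀ : Fin k) (hv : v m₀ = 1) :
    Function.Injective (tens (L := L) v) := by
  intro x y hxy
  have := congrFun hxy m₀
  rwa [tens_apply, tens_apply, hv, one_smul, one_smul] at this

/-- **(S0)** `InjModP` from "the kernel of `α` mod `ϖ` is killed by an invertible operator". -/
theorem injModP_of_killed {k : ℕ} (ϖ : O) (α : (Fin k → L) →ₗ[O] L') (E Einv : L →ₗ[O] L)
    (hE : ∀ x, Einv (E x) = x)
    (hker : ∀ u : Fin k → L, (∃ y' : L', α u = ϖ • y') → ∀ m, ∃ x' : L, E (u m) = ϖ • x') :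
    InjModP ϖ α := by
  intro u hu
  choose x' hx' using hker u hu
  refine ⟨fun m => Einv (x' m), ?_⟩
  funext m
  rw [Pi.smul_apply, ← map_smul, ← hx' m, hE]

end Defs

section DVR

variable {O : Type*} [CommRing O] [IsDomain O] [IsDiscreteValuationRing O]
  {M : Type*} [AddCommGroup M] [Module O M] {L' : Type*} [AddCommGroup L'] [Module O L']

theorem mem_range_of_pow_smul [Module.IsTorsionFree O L'] {ϖ : O} (hϖ : Irreducible ϖ)
    {α : M →ₗ[O] L'} (hinj : InjModP ϖ α) (n : ℕ) (y : L')
    (hy : ϖ ^ n • y ∈ LinearMap.range α) : y ∈ LinearMap.range α := by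
  induction n generalizing y with
  | zero => rwa [pow_zero, one_smul] at hy
  | succ n ih =>
    obtain ⟨w, hw⟩ := hy
    obtain ⟨w', rfl⟩ := hinj w ⟨ϖ ^ n • y, by rw [hw, pow_succ', mul_smul]⟩
    apply ih
    refine ⟨w', ?_⟩
    rw [map_smul, pow_succ', mul_smul] at hw
    exact smul_right_injective L' hϖ.ne_zero hw

/-- **(S1)** the range of a map injective mod `ϖ` is saturated. -/
theorem range_saturated [Module.IsTorsionFree O L'] {ϖ : O} (hϖ : Irreducible ϖ)
    {α : M →ₗ[O] L'} (hinj : InjModP ϖ α) : Saturated (LinearMap.range α) := by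
  intro c y hc hy
  obtain ⟨n, u, rfl⟩ := IsDiscreteValuationRing.eq_unit_mul_pow_irreducible hc hϖ
  apply mem_range_of_pow_smul hϖ hinj n
  have h1 : ϖ ^ n • y = ((u⁻¹ : Oˣ) : O) • ((u : O) * ϖ ^ n) • y := by
    rw [smul_smul, ← mul_assoc, Units.inv_mul, one_mul]
  rw [h1]
  exact Submodule.smul_mem _ _ hy

/-- a map injective mod `ϖ` with `ϖ`-adically separated source and torsion-free target is
injective. -/
theorem injective_of_injModP [Module.IsTorsionFree O L'] {ϖ : O} (hϖ : Irreducible ϖ)
    {α : M →ₗ[O] L'} (hinj : InjModP ϖ α)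
    (hsep : ∀ u : M, (∀ n : ℕ, ∃ u' : M, u = ϖ ^ n • u') → u = 0) : Function.Injective α := by
  rw [injective_iff_map_eq_zero]
  intro u hu
  apply hsep
  intro n
  suffices h : ∃ u' : M, u = ϖ ^ n • u' ∧ α u' = 0 from ⟨h.choose, h.choose_spec.1⟩
  induction n with
  | zero => exact ⟨u, by rw [pow_zero, one_smul], hu⟩
  | succ n ih =>
    obtain ⟨u', hu', hαu'⟩ := ih
    obtain ⟨u'', rfl⟩ := hinj u' ⟨0, by rw [hαu', smul_zero]⟩
    refine ⟨u'', by rw [hu', pow_succ, mul_smul], ?_⟩
    rw [map_smul] at hαu'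
    exact (smul_eq_zero.mp hαu').resolve_left hϖ.ne_zero

/-- a finite free module over a DVR is `ϖ`-adically separated. -/
theorem separated_of_finite_free [Module.Finite O M] [Module.Free O M] {ϖ : O}
    (hϖ : Irreducible ϖ) (u : M) (hu : ∀ n : ℕ, ∃ u' : M, u = ϖ ^ n • u') : u = 0 := by
  let b := Module.Free.chooseBasis O M
  apply b.repr.injective
  rw [map_zero]
  ext i
  rw [Finsupp.zero_apply]
  by_contra hne
  obtain ⟨n, w, hw⟩ := IsDiscreteValuationRing.eq_unit_mul_pow_irreducible hne hϖ
  obtain ⟨u', hu'⟩ := hu (n + 1)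
  have h1 : b.repr u i = ϖ ^ (n + 1) * b.repr u' i := by
    rw [hu', map_smul, Finsupp.smul_apply, smul_eq_mul]
  rw [hw, pow_succ, mul_assoc, mul_comm (w : O), mul_right_inj' (pow_ne_zero n hϖ.ne_zero)] at h1
  have h2 : ϖ ∣ (w : O) := ⟨_, h1⟩
  exact hϖ.not_isUnit (isUnit_of_dvd_unit h2 w.isUnit)

end DVR

section Sat

variable {O : Type*} [CommRing O] [IsDomain O] {L : Type*} [AddCommGroup L] [Module O L]
  {M : Type*} [AddCommGroup M] [Module O M] {L' : Type*} [AddCommGroup L'] [Module O L']

/-- **(S2)** `{v ⊗ x | x ∈ P}` is saturated in `L ^ k` if `P` is saturated in `L` and `v` has a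
coordinate equal to `1`. -/
theorem tens_saturated [Module.IsTorsionFree O L] {P : Submodule O L} (hP : Saturated P)
    {k : ℕ} (v : Fin k → O) (m₀ : Fin k) (hv : v m₀ = 1) : Saturated (P.map (tens v)) := by
  intro c u hc hu
  obtain ⟨x, hx, hxu⟩ := hu
  have h0 : x = c • u m₀ := by
    have := congrFun hxu m₀
    rwa [tens_apply, hv, one_smul, Pi.smul_apply] at this
  have hx' : u m₀ ∈ P := hP c (u m₀) hc (by rw [← h0]; exact hx)
  refine ⟨u m₀, hx', ?_⟩
  funext m
  have h1 := congrFun hxu m
  rw [tens_apply, Pi.smul_apply, h0, smul_comm] at h1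
  rw [tens_apply]
  exact smul_right_injective L hc h1

/-- **(S3)** the image of a saturated submodule under an injective map with saturated range is
saturated. -/
theorem map_saturated {α : M →ₗ[O] L'} (hα : Function.Injective α)
    (hr : Saturated (LinearMap.range α)) {Q : Submodule O M} (hQ : Saturated Q) :
    Saturated (Q.map α) := by
  intro c y hc hy
  obtain ⟨w, hw, hwy⟩ := hy
  obtain ⟨u, rfl⟩ := hr c y hc ⟨w, hwy⟩
  rw [← map_smul] at hwy
  have h1 : w = c • u := hα hwy
  exact ⟨u, hQ c u hc (by rw [← h1]; exact hw), rfl⟩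

/-- **(S4a)** the raised family is linearly independent. -/
theorem linearIndependent_raise {k : ℕ} {α : (Fin k → L) →ₗ[O] L'}
    (hα : Function.Injective α) (v : Fin k → O) (m₀ : Fin k) (hv : v m₀ = 1) {ι : Type*}
    {b : ι → L} (hli : LinearIndependent O b) :
    LinearIndependent O fun i => α fun m => v m • b i := by
  have h1 : LinearIndependent O ((α ∘ₗ tens v) ∘ b) := by
    apply hli.map'
    rw [LinearMap.ker_eq_bot]
    exact hα.comp (tens_injective v m₀ hv)
  exact h1

/-- **(S4b)** the span of the raised family. -/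
theorem span_raise {k : ℕ} (α : (Fin k → L) →ₗ[O] L') (v : Fin k → O) {ι : Type*} (b : ι → L) :
    span O (Set.range fun i => α fun m => v m • b i) =
      ((span O (Set.range b)).map (tens v)).map α := by
  rw [Submodule.map_span, Submodule.map_span, ← Set.range_comp, ← Set.range_comp]
  rfl

end Sat

section PID

variable {O : Type*} [CommRing O] [IsDomain O] [IsPrincipalIdealRing O]
  {L' : Type*} [AddCommGroup L'] [Module O L']

/-- **(S4c)** `hext` from a perfect pairing and a saturated submodule with an independent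
spanning family. -/
theorem hext_of_perfect_of_saturated [Module.Finite O L'] (B' : L' →ₗ[O] L' →ₗ[O] O)
    (hperf : ∀ φ : L' →ₗ[O] O, ∃ x : L', ∀ y, B' y x = φ y)
    {P' : Submodule O L'} (hsat : Saturated P') {d : ℕ} (b' : Fin d → L')
    (hli : LinearIndependent O b') (hspan : span O (Set.range b') = P') (a : Fin d → O) :
    ∃ x : L', ∀ i, B' (b' i) x = a i := by
  obtain ⟨r, hr⟩ := Eta.exists_retraction_of_saturated P' hsat
  let β : Module.Basis (Fin d) O P' := (Module.Basis.span hli).map (LinearEquiv.ofEq _ _ hspan)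
  have hβ : ∀ i, ((β i : P') : L') = b' i := by
    intro i
    rw [Module.Basis.map_apply, LinearEquiv.coe_ofEq_apply, Module.Basis.span_apply]
  obtain ⟨x, hx⟩ := Eta.exists_rep_of_perfect B' hperf P' r hr β a
  exact ⟨x, fun i => by rw [← hx i, hβ]⟩

/-- **(S5)** a saturated submodule `P ≤ Q` with `rank Q ≤ rank P` is all of `Q`. -/
theorem eq_of_saturated_of_finrank {P Q : Submodule O L'} (hPQ : P ≤ Q) (hP : Saturated P)
    [Module.Finite O Q] (hrank : finrank O Q ≤ finrank O P) : P = Q := by
  apply le_antisymm hPQ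
  intro y hy
  let P' : Submodule O Q := P.comap Q.subtype
  have h1 : finrank O P' = finrank O P :=
    LinearEquiv.finrank_eq (Submodule.comapSubtypeEquivOfLe hPQ)
  have h2 := P'.finrank_quotient_add_finrank
  have h3 : finrank O (Q ⧸ P') = 0 := by omega
  have h4 : Module.IsTorsion O (Q ⧸ P') := Module.finrank_eq_zero_iff_isTorsion.mp h3
  obtain ⟨c, hc⟩ := @h4 (P'.mkQ ⟨y, hy⟩)
  have h5 : (c : O) • (⟨y, hy⟩ : Q) ∈ P' := by
    rw [← Submodule.Quotient.mk_eq_zero, Submodule.Quotient.mk_smul]
    exact hc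
  have h6 : (c : O) • y ∈ P := h5
  exact hP c y (nonZeroDivisors.coe_ne_zero c) h6

end PID

section Package

variable {O : Type*} [CommRing O] [IsDomain O] [IsDiscreteValuationRing O]
  {L : Type*} [AddCommGroup L] [Module O L] {L' : Type*} [AddCommGroup L'] [Module O L']

/-- **(S6) the next stage.**  `α : L ^ k → L'` injective mod `ϖ`, `b` an independent family whose
span `P` is saturated in `L`, `v` with a coordinate `1`, `b' i := α (v ⊗ b i)`, `P'` a submodule of
`L'` containing the `b' i` with `rank P' ≤ d` (MULT1), `B'` perfect on `L'`: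
`b'` is independent, spans `P'`, and every tuple of values on `b'` is represented by `B'`. -/
theorem next_stage [Module.Finite O L] [Module.Free O L] [Module.Finite O L']
    [Module.IsTorsionFree O L'] {ϖ : O} (hϖ : Irreducible ϖ) {k : ℕ}
    (α : (Fin k → L) →ₗ[O] L') (hinj : InjModP ϖ α) (v : Fin k → O) (m₀ : Fin k) (hv : v m₀ = 1)
    {d : ℕ} (b : Fin d → L) (hli : LinearIndependent O b)
    (hsat : Saturated (span O (Set.range b)))
    (P' : Submodule O L') (hmem : ∀ i, (α fun m => v m • b i) ∈ P')
    (hrank : finrank O P' ≤ d)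
    (B' : L' →ₗ[O] L' →ₗ[O] O) (hperf : ∀ φ : L' →ₗ[O] O, ∃ x : L', ∀ y, B' y x = φ y) :
    LinearIndependent O (fun i => α fun m => v m • b i) ∧
      span O (Set.range fun i => α fun m => v m • b i) = P' ∧
      ∀ a : Fin d → O, ∃ x : L', ∀ i, B' ((fun i => α fun m => v m • b i) i) x = a i := by
  have hα : Function.Injective α :=
    injective_of_injModP hϖ hinj (separated_of_finite_free hϖ)
  have hli' : LinearIndependent O (fun i => α fun m => v m • b i) :=
    linearIndependent_raise hα v m₀ hv hli
  have hsat' : Saturated (span O (Set.range fun i => α fun m => v m • b i)) := by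
    rw [span_raise]
    exact map_saturated hα (range_saturated hϖ hinj) (tens_saturated hsat v m₀ hv)
  have hle : span O (Set.range fun i => α fun m => v m • b i) ≤ P' := by
    rw [span_le]
    rintro _ ⟨i, rfl⟩
    exact hmem i
  have hfin : Module.Finite O P' := Module.Finite.of_injective P'.subtype P'.injective_subtype
  have hrk : finrank O (span O (Set.range fun i => α fun m => v m • b i)) = d := by
    rw [finrank_span_eq_card hli', Fintype.card_fin]
  have hspan' : span O (Set.range fun i => α fun m => v m • b i) = P' :=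
    eq_of_saturated_of_finrank hle hsat' (by rw [hrk]; exact hrank)
  refine ⟨hli', hspan', ?_⟩
  have hsatP' : Saturated P' := hspan' ▸ hsat'
  exact hext_of_perfect_of_saturated B' hperf hsatP' _ hli' hspan'

end Package

section Three

open Fermat.Agent.GE9.NumCrit.ModForm

variable {O : Type*} [CommRing O] [IsDomain O] [IsDiscreteValuationRing O]
  {T T' : Type*} [CommRing T] [Algebra O T] [CommRing T'] [Algebra O T']
  {π : T →ₐ[O] O} {π' : T' →ₐ[O] O}
  {L : Type*} [AddCommGroup L] [Module O L] [Module T L] [IsScalarTower O T L]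
  {L' : Type*} [AddCommGroup L'] [Module O L'] [Module T' L'] [IsScalarTower O T' L']

/-- `L[𝔭]` is saturated in a torsion-free `L` (`IsTorsionFree` spelling). -/
theorem torPO_saturated' [Module.IsTorsionFree O L] : Saturated (torPO π L) := by
  intro c l hc hl t ht
  have h1 : t • c • l = 0 := hl t ht
  rw [smul_comm] at h1
  exact (smul_eq_zero.mp h1).resolve_left hc

/-- **(S6) at `k = 3`**, in the spelling of `Eta.card_congMod_growth_three` (`raise3`) and
`ModForm.hM1_of_eta_ne_bot` (`torPO`): the previous stage's `b` spans `L[𝔭]`; the raised family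
`raise3 α q a b` lies in `L'[𝔭']` (Hecke-equivariance of `α` + `U_q ∘ α ∘ v3 = 0`), `rank L'[𝔭'] ≤ d`
(MULT1), `α` injective mod `ϖ` (IHARA2), `B'` perfect. -/
theorem next_stage_three [Module.Finite O L] [Module.Free O L] [Module.Finite O L']
    [Module.IsTorsionFree O L'] {ϖ : O} (hϖ : Irreducible ϖ)
    (α : (Fin 3 → L) →ₗ[O] L') (hinj : InjModP ϖ α) (q a : O)
    {d : ℕ} (b : Fin d → L) (hli : LinearIndependent O b)
    (hspan : span O (Set.range b) = torPO π L)
    (hmem : ∀ i, raise3 α q a b i ∈ torP π' L')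
    (hrank : finrank O (torPO π' L') ≤ d)
    (B' : L' →ₗ[O] L' →ₗ[O] O) (hperf : ∀ φ : L' →ₗ[O] O, ∃ x : L', ∀ y, B' y x = φ y) :
    LinearIndependent O (raise3 α q a b) ∧
      span O (Set.range (raise3 α q a b)) = torPO π' L' ∧
      ∀ a' : Fin d → O, ∃ x : L', ∀ i, B' (raise3 α q a b i) x = a' i :=
  next_stage hϖ α hinj (v3 q a) 2 rfl b hli (hspan ▸ torPO_saturated') (torPO π' L') hmem hrank
    B' hperf

end Three

end Fermat.Agent.GE9.Eta.Sat
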