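import Mathlib
import Fermat.Agent.GE9.Eta.Sat

/-!
# GE9-ETA-SAT, file 2 (helper50): `next_stage` with injectivity mod `ϖ` ONLY ON THE EIGEN-LINE

helper2's ETA-MOD (board 7190) works on the unlocalised lattice `O ⊗ Lam N`, where IHARA2 gives
`ϖ ∣ α (v ⊗ x) ⟹ ϖ ∣ x` only for `x` in the eigen-sublattice `P = span b` (on eigenvectors the
operators `T_ℓ − (ℓ + 1)` are unit scalars).  This is enough:

* `injModP_restrict` : the restriction `β = α ∘ (v ⊗ ·) : P → L'` is `InjModP` (`P` saturated);
* `next_stage_on` : conclusion of `Sat.next_stage` from the hypothesis on `P` only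
  (no unit coordinate of `v` needed);
* `next_stage_on_three` : the same in the `raise3` / `torPO` spelling.
-/

set_option linter.unusedSectionVars false

namespace Fermat.Agent.GE9.Eta.Sat

open Module Submodule

section On

variable {O : Type*} [CommRing O] [IsDomain O] [IsDiscreteValuationRing O]
  {L : Type*} [AddCommGroup L] [Module O L] {L' : Type*} [AddCommGroup L'] [Module O L']

/-- the restriction of `α ∘ (v ⊗ ·)` to a submodule `P`. -/
def restr {k : ℕ} (α : (Fin k → L) →ₗ[O] L') (v : Fin k → O) (P : Submodule O L) : P →ₗ[O] L' :=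
  (α ∘ₗ tens v) ∘ₗ P.subtype

theorem restr_apply {k : ℕ} (α : (Fin k → L) →ₗ[O] L') (v : Fin k → O) (P : Submodule O L)
    (x : P) : restr α v P x = α fun m => v m • (x : L) := rfl

/-- injectivity mod `ϖ` on a saturated `P` gives `InjModP` for the restricted map. -/
theorem injModP_restrict {k : ℕ} (α : (Fin k → L) →ₗ[O] L') (v : Fin k → O) {ϖ : O} (hϖ0 : ϖ ≠ 0)
    {P : Submodule O L} (hsat : Saturated P)
    (hinjP : ∀ x ∈ P, (∃ y' : L', α (fun m => v m • x) = ϖ • y') → ∃ x' : L, x = ϖ • x') :
    InjModP ϖ (restr α v P) := by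
  intro u hu
  obtain ⟨x', hx'⟩ := hinjP u u.2 hu
  have hx'P : x' ∈ P := hsat ϖ x' hϖ0 (by rw [← hx']; exact u.2)
  exact ⟨⟨x', hx'P⟩, Subtype.ext hx'⟩

/-- **`next_stage` from injectivity mod `ϖ` on the eigen-line only.** -/
theorem next_stage_on [Module.Finite O L] [Module.Free O L] [Module.Finite O L']
    [Module.IsTorsionFree O L'] {ϖ : O} (hϖ : Irreducible ϖ) {k : ℕ}
    (α : (Fin k → L) →ₗ[O] L') (v : Fin k → O)
    {d : ℕ} (b : Fin d → L) (hli : LinearIndependent O b)
    (hsat : Saturated (span O (Set.range b)))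
    (hinjP : ∀ x ∈ span O (Set.range b),
      (∃ y' : L', α (fun m => v m • x) = ϖ • y') → ∃ x' : L, x = ϖ • x')
    (P' : Submodule O L') (hmem : ∀ i, (α fun m => v m • b i) ∈ P')
    (hrank : finrank O P' ≤ d)
    (B' : L' →ₗ[O] L' →ₗ[O] O) (hperf : ∀ φ : L' →ₗ[O] O, ∃ x : L', ∀ y, B' y x = φ y) :
    LinearIndependent O (fun i => α fun m => v m • b i) ∧
      span O (Set.range fun i => α fun m => v m • b i) = P' ∧
      ∀ a : Fin d → O, ∃ x : L', ∀ i, B' ((fun i => α fun m => v m • b i) i) x = a i := by
  set P := span O (Set.range b) with hP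
  let bs : Basis (Fin d) O P := Basis.span hli
  have hbs : ∀ i, ((bs i : P) : L) = b i := fun i =>
    congrArg Subtype.val (Basis.span_apply hli i)
  have : Module.Free O P := Module.Free.of_basis bs
  have : Module.Finite O P := Module.Finite.of_basis bs
  set β := restr α v P with hβ
  have hinjβ : InjModP ϖ β := injModP_restrict α v hϖ.ne_zero hsat hinjP
  have hβinj : Function.Injective β :=
    injective_of_injModP hϖ hinjβ (separated_of_finite_free hϖ)
  have hfam : (fun i => α fun m => v m • b i) = β ∘ bs := by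
    funext i
    rw [Function.comp_apply, hβ, restr_apply, hbs]
  have hli' : LinearIndependent O (fun i => α fun m => v m • b i) := by
    rw [hfam]
    exact bs.linearIndependent.map' β (LinearMap.ker_eq_bot.mpr hβinj)
  have hspanβ : span O (Set.range fun i => α fun m => v m • b i) = LinearMap.range β := by
    rw [hfam, Set.range_comp, ← Submodule.map_span, bs.span_eq, Submodule.map_top]
  have hsat' : Saturated (span O (Set.range fun i => α fun m => v m • b i)) := by
    rw [hspanβ]
    exact range_saturated hϖ hinjβ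
  have hle : span O (Set.range fun i => α fun m => v m • b i) ≤ P' := by
    rw [span_le]
    rintro _ ⟨i, rfl⟩
    exact hmem i
  have hfin : Module.Finite O P' := Module.Finite.of_injective P'.subtype P'.injective_subtype
  have hrk : finrank O (span O (Set.range fun i => α fun m => v m • b i)) = d := by
    rw [finrank_span_eq_card hli', Fintype.card_fin]
  have hspan' : span O (Set.range fun i => α fun m => v m • b i) = P' :=
    eq_of_saturated_of_finrank hle hsat' (by rw [hrk]; exact hrank)
  refine ⟨hli', hspan', ?_⟩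
  have hsatP' : Saturated P' := hspan' ▸ hsat'
  exact hext_of_perfect_of_saturated B' hperf hsatP' _ hli' hspan'

end On

section Three

open Fermat.Agent.GE9.NumCrit.ModForm

variable {O : Type*} [CommRing O] [IsDomain O] [IsDiscreteValuationRing O]
  {T T' : Type*} [CommRing T] [Algebra O T] [CommRing T'] [Algebra O T']
  {π : T →ₐ[O] O} {π' : T' →ₐ[O] O}
  {L : Type*} [AddCommGroup L] [Module O L] [Module T L] [IsScalarTower O T L]
  {L' : Type*} [AddCommGroup L'] [Module O L'] [Module T' L'] [IsScalarTower O T' L']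

/-- **`next_stage_three` with IHARA2 on the eigen-line only** (`raise3` / `torPO` spelling). -/
theorem next_stage_on_three [Module.Finite O L] [Module.Free O L] [Module.Finite O L']
    [Module.IsTorsionFree O L'] {ϖ : O} (hϖ : Irreducible ϖ)
    (α : (Fin 3 → L) →ₗ[O] L') (q a : O)
    {d : ℕ} (b : Fin d → L) (hli : LinearIndependent O b)
    (hspan : span O (Set.range b) = torPO π L)
    (hinjP : ∀ x ∈ torP π L,
      (∃ y' : L', α (fun m => v3 q a m • x) = ϖ • y') → ∃ x' : L, x = ϖ • x')
    (hmem : ∀ i, raise3 α q a b i ∈ torP π' L')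
    (hrank : finrank O (torPO π' L') ≤ d)
    (B' : L' →ₗ[O] L' →ₗ[O] O) (hperf : ∀ φ : L' →ₗ[O] O, ∃ x : L', ∀ y, B' y x = φ y) :
    LinearIndependent O (raise3 α q a b) ∧
      span O (Set.range (raise3 α q a b)) = torPO π' L' ∧
      ∀ a' : Fin d → O, ∃ x : L', ∀ i, B' (raise3 α q a b i) x = a' i :=
  next_stage_on hϖ α (v3 q a) b hli (hspan ▸ torPO_saturated')
    (fun x hx => hinjP x (by rw [hspan] at hx; exact hx)) (torPO π' L') hmem hrank B' hperf

end Three

end Fermat.Agent.GE9.Eta.Sat
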