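/-
S59 PRE-WORK / GE9-ETA (helper2, owner): **ETA-MOD — the growth of the congruence module on the
modular model**, O2 of the node table (board 7190), assembled from

* `GE9/Fricke` (helper2): the Fricke involution `frP M`, `lamB_latT_frP` (the FULL Hecke algebra is
  self-adjoint for `⟨x, W y⟩`), `frP_alpha3` (`W` reverses `α₃`);
* `GE9/Eta/{LocLam,LocLamU,LocTw}` (helper5): `lamBO`, `alpha3O`, `lamBO_alpha3O`, `uq_raise3O`,
  `latT_alpha3O`, `twForm`, `perfect_twForm`, `twForm_selfAdjoint`;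
* `GE9/Eta/KPlugEigen` (helper46): `hinjP_raise3` (IHARA2 + kernel transfer);
* `GE9/Eta/SatOn` (helper50): `next_stage_on`;
* `GE9/Mult1/MainO` (helper81/helper63): `finrank_eigenTensorO_le_two`.

Model: `M := O ⊗[ℤ] Lam N` (UNLOCALISED), `BW N O := ⟨x, W_N y⟩` the Fricke-twisted cup form,
`P := eigenTensorO N O lam` for an `O`-valued eigensystem of ALL `T_l`, `U_l`.
-/
import Mathlib
import Fermat.Agent.GE9.Fricke.Adjoint
import Fermat.Agent.GE9.Fricke.Alpha3
import Fermat.Agent.GE9.Eta.LocLamU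
import Fermat.Agent.GE9.Eta.LocTw
import Fermat.Agent.GE9.Eta.KPlugEigen
import Fermat.Agent.GE9.Eta.SatOn
import Fermat.Agent.GE9.Mult1.MainO

set_option autoImplicit false
set_option linter.unusedSectionVars false

open scoped TensorProduct

namespace Fermat.Agent.GE9.Eta.Mod

open Fermat.Agent.GJ.J2.Lat Fermat.Agent.GM.Asm Fermat.Agent.GE9.Adj3 Fermat.Agent.GE9.Fricke
open Fermat.Agent.GE9.Eta.Loc Fermat.Agent.GE9.Eta.LocLam Fermat.Agent.GE9.Eta.LocLamU
  Fermat.Agent.GE9.Eta.LocTw Fermat.Agent.GE9.Mult1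

/-! ### the Fricke-twisted cup form over `O` -/

section BW

variable (M : ℕ) [NeZero M] (O : Type*) [CommRing O]

/-- the Fricke involution as a `ℤ`-linear map -/
noncomputable def frLin : Lam M →ₗ[ℤ] Lam M := (frP M ℤ).toIntLinearMap

theorem frLin_apply (x : Lam M) : frLin M x = frP M ℤ x := rfl

theorem frLin_comp_frLin : (frLin M).comp (frLin M) = LinearMap.id :=
  LinearMap.ext fun x => frP_frP x

/-- **the Fricke-twisted cup form** `⟨x, W y⟩` on `O ⊗[ℤ] Lam M` -/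
noncomputable def BW : (O ⊗[ℤ] Lam M) →ₗ[O] (O ⊗[ℤ] Lam M) →ₗ[O] O :=
  twForm O (lamB M) (frLin M)

/-- `W ⊗ O` -/
noncomputable def frO : (O ⊗[ℤ] Lam M) →ₗ[O] (O ⊗[ℤ] Lam M) := (frLin M).baseChange O

variable {M O}

theorem BW_apply (x y : O ⊗[ℤ] Lam M) : BW M O x y = lamBO M O x (frO M O y) := rfl

variable (M O)

/-- **`hperf`**: the twisted form is perfect -/
theorem perfect_BW : Perfect (BW M O) := by
  have : Module.Free ℤ (Lam M) := Fermat.Agent.GJ.J2.ZStruct.free_parabolicHoms_int M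
  have : Module.Finite ℤ (Lam M) := Fermat.Agent.GJ.J2.ZStruct.finite_parabolicHoms_int M
  exact perfect_twForm (lamB M) (lamB_bijective M) (frLin M) (frLin_comp_frLin M)

variable {M O}

/-- **`hadj`**: EVERY `T_l ⊗ O` (`U_l` included) is self-adjoint for the twisted form -/
theorem BW_latT (l : Nat.Primes) (x y : O ⊗[ℤ] Lam M) :
    BW M O ((latT M l).baseChange O x) y = BW M O x ((latT M l).baseChange O y) :=
  twForm_selfAdjoint (lamB M) (frLin M) (latT M l) (fun u v => lamB_latT_frP l u v) x y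

end BW

/-! ### the Fricke involution reverses `α₃ ⊗ O` -/

section Rev

variable {N q : ℕ} [Fact q.Prime] [NeZero N] [NeZero (N * q)] [NeZero (N * q * q)]
variable {O : Type*} [CommRing O]

theorem frLin_alComp (m : Fin 3) :
    (frLin (N * q * q)).comp (alComp N q m) = (alComp N q (Fin.rev m)).comp (frLin N) := by
  refine LinearMap.ext fun x => ?_
  rw [LinearMap.comp_apply, LinearMap.comp_apply, frLin_apply, frLin_apply]
  fin_cases m
  · show frP (N * q * q) ℤ (alComp N q 0 x) = alComp N q 2 (frP N ℤ x)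
    rw [alComp_zero_apply, alComp_two_apply, frP_al0]
  · show frP (N * q * q) ℤ (alComp N q 1 x) = alComp N q 1 (frP N ℤ x)
    rw [alComp_one_apply, alComp_one_apply, frP_al1]
  · show frP (N * q * q) ℤ (alComp N q 2 x) = alComp N q 0 (frP N ℤ x)
    rw [alComp_two_apply, alComp_zero_apply, frP_al2]

/-- **`(W ⊗ O) (α₃^O u) = α₃^O (W u ∘ rev)`** -/
theorem frO_alpha3O (u : Fin 3 → O ⊗[ℤ] Lam N) :
    frO (N * q * q) O (alpha3O N q O u) = alpha3O N q O (fun m => frO N O (u (Fin.rev m))) := by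
  rw [alpha3O_apply, alpha3O_apply, map_sum]
  conv_rhs => rw [← Equiv.sum_comp Fin.revPerm]
  refine Finset.sum_congr rfl fun m _ => ?_
  rw [Fin.revPerm_apply, Fin.rev_rev]
  show (frLin (N * q * q)).baseChange O ((alComp N q m).baseChange O (u m))
    = (alComp N q (Fin.rev m)).baseChange O ((frLin N).baseChange O (u m))
  rw [baseChange_comp_apply, frLin_alComp, ← baseChange_comp_apply]

/-- `W ⊗ O` commutes with `T_l ⊗ O`, `l ∤ N` -/
theorem frO_latT (l : Nat.Primes) (hlN : ¬ (l : ℕ) ∣ N) (x : O ⊗[ℤ] Lam N) :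
    frO N O ((latT N l).baseChange O x) = (latT N l).baseChange O (frO N O x) := by
  show (frLin N).baseChange O ((latT N l).baseChange O x)
    = (latT N l).baseChange O ((frLin N).baseChange O x)
  rw [baseChange_comp_apply, baseChange_comp_apply]
  congr 2
  exact LinearMap.ext fun y => frP_latT_of_not_dvd l hlN y

end Rev

/-! ### the arithmetic of the twisted Gram matrix -/

section Arith

variable {O : Type*} [CommRing O]

/-- `v3ᵀ · A3 · rev(v3) = (q − 1)((1 + q)² − a²)` -/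
theorem v3_A3_rev (q a : O) :
    ∑ m, ∑ n, v3 q a m * A3 q a m n * v3 q a (Fin.rev n) = (q - 1) * ((1 + q) ^ 2 - a ^ 2) := by
  have h0 : v3 q a (Fin.rev 0) = 1 := rfl
  have h1 : v3 q a (Fin.rev 1) = -a := rfl
  have h2 : v3 q a (Fin.rev 2) = q := rfl
  simp only [Fin.sum_univ_three, h0, h1, h2]
  simp [A3, v3]
  ring

end Arith

/-! ### the twisted Gram relation -/

section Gram

variable {N q : ℕ} [Fact q.Prime] [NeZero N] [NeZero (N * q)] [NeZero (N * q * q)]
variable {O : Type*} [CommRing O]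

/-- **the twisted Gram relation** on `T_q ⊗ O`-eigenvectors of eigenvalue `a`:
`⟨α₃(v3 ⊗ x), W α₃(v3 ⊗ y)⟩ = (q − 1)((1 + q)² − a²) ⟨x, W y⟩`. -/
theorem BW_raise3 (hqN : ¬ q ∣ N) (hq : q.Prime) (a : O) (x y : O ⊗[ℤ] Lam N)
    (hy : (latT N (⟨q, hq⟩ : Nat.Primes)).baseChange O y = a • y) :
    BW (N * q * q) O (alpha3O N q O (fun m => v3 ((q : ℕ) : O) a m • x))
        (alpha3O N q O (fun m => v3 ((q : ℕ) : O) a m • y))
      = ((((q : ℕ) : O) - 1) * ((1 + ((q : ℕ) : O)) ^ 2 - a ^ 2)) * BW N O x y := by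
  have hy' : (latT N (⟨q, hq⟩ : Nat.Primes)).baseChange O (frO N O y) = a • frO N O y := by
    rw [← frO_latT (⟨q, hq⟩ : Nat.Primes) hqN, hy, map_smul]
  have key : ∀ m n : Fin 3,
      lamBO N O (v3 ((q : ℕ) : O) a m • x)
        (A3op ((q : ℕ) : O) ((latT N (⟨q, hq⟩ : Nat.Primes)).baseChange O) m n
          (frO N O (v3 ((q : ℕ) : O) a (Fin.rev n) • y)))
      = (v3 ((q : ℕ) : O) a m * A3 ((q : ℕ) : O) a m n * v3 ((q : ℕ) : O) a (Fin.rev n))
          * BW N O x y := by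
    intro m n
    have h1 : frO N O (v3 ((q : ℕ) : O) a (Fin.rev n) • y)
        = v3 ((q : ℕ) : O) a (Fin.rev n) • frO N O y := map_smul _ _ _
    have h3 := A3op_apply_of_eigen ((q : ℕ) : O) _ hy' m n
    have h2 : A3op ((q : ℕ) : O) ((latT N (⟨q, hq⟩ : Nat.Primes)).baseChange O) m n
        (v3 ((q : ℕ) : O) a (Fin.rev n) • frO N O y)
        = v3 ((q : ℕ) : O) a (Fin.rev n) •
          A3op ((q : ℕ) : O) ((latT N (⟨q, hq⟩ : Nat.Primes)).baseChange O) m n (frO N O y) :=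
      map_smul _ _ _
    rw [h1, h2, h3, BW_apply]
    simp only [map_smul, LinearMap.smul_apply, smul_eq_mul]
    ring
  rw [BW_apply, frO_alpha3O, lamBO_alpha3O hqN hq]
  simp only [key, ← Finset.sum_mul]
  rw [v3_A3_rev]

end Gram

/-! ### ETA-MOD -/

section Main

open Submodule Fermat.Agent.GE9.Eta.Sat Fermat.Agent.GE9.Eta.KPlug

variable {N q : ℕ} [Fact q.Prime] [NeZero N] [NeZero (N * q)] [NeZero (N * q * q)]
variable {O : Type*} [CommRing O] [IsDomain O] [CharZero O]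

theorem free_tensor_lam (M : ℕ) [NeZero M] : Module.Free O (O ⊗[ℤ] Lam M) := by
  have : Module.Free ℤ (Lam M) := Fermat.Agent.GJ.J2.ZStruct.free_parabolicHoms_int M
  infer_instance

theorem finite_tensor_lam (M : ℕ) [NeZero M] : Module.Finite O (O ⊗[ℤ] Lam M) := by
  have : Module.Finite ℤ (Lam M) := Fermat.Agent.GJ.J2.ZStruct.finite_parabolicHoms_int M
  infer_instance

theorem torsionFree_tensor_lam (M : ℕ) [NeZero M] : Module.IsTorsionFree O (O ⊗[ℤ] Lam M) := by
  have := free_tensor_lam (O := O) M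
  infer_instance

/-- the joint eigen-sublattice is saturated -/
theorem saturated_eigenTensorO (M : ℕ) [NeZero M] (lam : Nat.Primes → O) :
    Saturated (eigenTensorO M O lam) := by
  have := torsionFree_tensor_lam (O := O) M
  intro c x hc hx
  rw [mem_eigenTensorO] at hx ⊢
  intro l
  have h := hx l
  rw [map_smul, smul_comm] at h
  exact smul_right_injective _ hc h

/-- **`hmem`**, eigenvalues in `O`: the raised vector is an eigenvector at level `N q²` for `lam`
with `lam q` replaced by `0`. -/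
theorem raise3O_mem_eigenTensorO (hqN : ¬ q ∣ N) (hq : q.Prime) (lam : Nat.Primes → O)
    {x : O ⊗[ℤ] Lam N} (hx : x ∈ eigenTensorO N O lam) :
    alpha3O N q O (fun m => v3 ((q : ℕ) : O) (lam (⟨q, hq⟩ : Nat.Primes)) m • x)
      ∈ eigenTensorO (N * q * q) O (Function.update lam (⟨q, hq⟩ : Nat.Primes) 0) := by
  rw [mem_eigenTensorO] at hx ⊢
  intro l
  by_cases hl : l = (⟨q, hq⟩ : Nat.Primes)
  · have hupd : Function.update lam (⟨q, hq⟩ : Nat.Primes) 0 l = 0 := by
      rw [hl]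
      exact Function.update_self _ _ _
    rw [hupd, zero_smul, hl]
    exact uq_raise3O hqN hq x _ (hx _)
  · have hlq : (l : ℕ) ≠ q := fun h => hl (Subtype.ext h)
    rw [Function.update_of_ne hl, latT_alpha3O l hlq]
    simp only [map_smul, hx l]
    rw [← map_smul]
    congr 1
    funext m
    rw [Pi.smul_apply, smul_comm]

variable [IsDiscreteValuationRing O]

/-- **ETA-MOD, structural part.**  `b` an `O`-basis of the joint eigen-sublattice
`eigenTensorO N O lam` of the unlocalised model; two auxiliary primes `l ≡ 1 (q)`, `l'` at which the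
eigensystem is non-Eisenstein.  Then the raised family `b' i = α₃^O (q b i, -a_q b i, b i)` is an
`O`-basis of the eigen-sublattice at level `N q²` for `lam[q ↦ 0]`, every functional on it is
represented by the (perfect) Fricke-twisted form, and the twisted Gram matrices are proportional by
Wiles' factor `(q − 1)((1 + q)² − a_q²)`. -/
theorem eta_mod (hqN : ¬ q ∣ N) (hq : q.Prime) {p : ℕ} (hp : p.Prime) (hp2 : p ≠ 2)
    {ϖ : O} (hϖ : Irreducible ϖ) (hpϖ : ∃ c : O, (p : O) = ϖ * c)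
    (lam : Nat.Primes → O)
    (l l' : Nat.Primes) (hl : ¬ (l : ℕ) ∣ N * q) (hlq : ((l : ℕ) : ZMod q) = 1)
    (hl' : ¬ (l' : ℕ) ∣ N)
    (ha : IsUnit (lam l - (((l : ℕ) : O) + 1))) (ha' : IsUnit (lam l' - (((l' : ℕ) : O) + 1)))
    {d : ℕ} (hd : 2 ≤ d) (b : Fin d → O ⊗[ℤ] Lam N) (hli : LinearIndependent O b)
    (hspan : span O (Set.range b) = eigenTensorO N O lam) :
    LinearIndependent O (raise3 (alpha3O N q O) ((q : ℕ) : O) (lam (⟨q, hq⟩ : Nat.Primes)) b) ∧
      span O (Set.range (raise3 (alpha3O N q O) ((q : ℕ) : O) (lam (⟨q, hq⟩ : Nat.Primes)) b))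
        = eigenTensorO (N * q * q) O (Function.update lam (⟨q, hq⟩ : Nat.Primes) 0) ∧
      (∀ a' : Fin d → O, ∃ x : O ⊗[ℤ] Lam (N * q * q), ∀ i,
        BW (N * q * q) O
          (raise3 (alpha3O N q O) ((q : ℕ) : O) (lam (⟨q, hq⟩ : Nat.Primes)) b i) x = a' i) ∧
      (∀ a' : Fin d → O, ∃ x : O ⊗[ℤ] Lam N, ∀ i, BW N O (b i) x = a' i) ∧
      ∀ i j, BW (N * q * q) O
          (raise3 (alpha3O N q O) ((q : ℕ) : O) (lam (⟨q, hq⟩ : Nat.Primes)) b i)
          (raise3 (alpha3O N q O) ((q : ℕ) : O) (lam (⟨q, hq⟩ : Nat.Primes)) b j)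
        = ((((q : ℕ) : O) - 1) * ((1 + ((q : ℕ) : O)) ^ 2 - lam (⟨q, hq⟩ : Nat.Primes) ^ 2))
            * BW N O (b i) (b j) := by
  have := free_tensor_lam (O := O) N
  have := finite_tensor_lam (O := O) N
  have := finite_tensor_lam (O := O) (N * q * q)
  have := torsionFree_tensor_lam (O := O) (N * q * q)
  have hsat : Saturated (span O (Set.range b)) := hspan ▸ saturated_eigenTensorO N lam
  have hbmem : ∀ i, b i ∈ eigenTensorO N O lam := fun i => hspan ▸ subset_span ⟨i, rfl⟩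
  obtain ⟨h1, h2, h3⟩ := next_stage_on hϖ (alpha3O N q O)
    (v3 ((q : ℕ) : O) (lam (⟨q, hq⟩ : Nat.Primes))) b hli hsat
    (fun x hx h => by
      rw [hspan, mem_eigenTensorO] at hx
      exact hinjP_raise3 hqN hp hp2 l l' hl hlq hl' O ϖ hpϖ (lam l) (lam l') ha ha' x (hx l)
        (hx l') _ _ h)
    (eigenTensorO (N * q * q) O (Function.update lam (⟨q, hq⟩ : Nat.Primes) 0))
    (fun i => raise3O_mem_eigenTensorO hqN hq lam (hbmem i))
    ((finrank_eigenTensorO_le_two _).trans hd)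
    (BW (N * q * q) O) (perfect_BW (N * q * q) O)
  refine ⟨h1, h2, h3, ?_, ?_⟩
  · exact hext_of_perfect_of_saturated (BW N O) (perfect_BW N O) hsat b hli rfl
  · intro i j
    exact BW_raise3 hqN hq _ (b i) (b j) ((mem_eigenTensorO.mp (hbmem j)) _)

variable [Finite (IsLocalRing.ResidueField O)]

/-- **ETA-MOD, numerical part**: `#Ω(N q², lam[q ↦ 0]) = #Ω(N, lam) · #(O ⧸ c_q) ^ d` for the
congruence modules of the Fricke-twisted cup forms on the unlocalised models,
`c_q = (q − 1)((1 + q)² − a_q²)`. -/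
theorem card_congMod_eta_mod (hqN : ¬ q ∣ N) (hq : q.Prime) {p : ℕ} (hp : p.Prime) (hp2 : p ≠ 2)
    {ϖ : O} (hϖ : Irreducible ϖ) (hpϖ : ∃ c : O, (p : O) = ϖ * c)
    (lam : Nat.Primes → O)
    (l l' : Nat.Primes) (hl : ¬ (l : ℕ) ∣ N * q) (hlq : ((l : ℕ) : ZMod q) = 1)
    (hl' : ¬ (l' : ℕ) ∣ N)
    (ha : IsUnit (lam l - (((l : ℕ) : O) + 1))) (ha' : IsUnit (lam l' - (((l' : ℕ) : O) + 1)))
    {d : ℕ} (hd : 2 ≤ d) (b : Fin d → O ⊗[ℤ] Lam N) (hli : LinearIndependent O b)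
    (hspan : span O (Set.range b) = eigenTensorO N O lam)
    (hc : (((q : ℕ) : O) - 1) * ((1 + ((q : ℕ) : O)) ^ 2 - lam (⟨q, hq⟩ : Nat.Primes) ^ 2) ≠ 0)
    (hdet : (gram (BW N O) b).det ≠ 0) :
    Nat.card (CongMod (BW (N * q * q) O) (span O (Set.range
        (raise3 (alpha3O N q O) ((q : ℕ) : O) (lam (⟨q, hq⟩ : Nat.Primes)) b)))) =
      Nat.card (CongMod (BW N O) (span O (Set.range b))) *
        Nat.card (O ⧸ Ideal.span
          {(((q : ℕ) : O) - 1) * ((1 + ((q : ℕ) : O)) ^ 2 - lam (⟨q, hq⟩ : Nat.Primes) ^ 2)}) ^ d := by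
  obtain ⟨-, -, hext', hext, hgram⟩ :=
    eta_mod hqN hq hp hp2 hϖ hpϖ lam l l' hl hlq hl' ha ha' hd b hli hspan
  exact card_congMod_growth (BW N O) (BW (N * q * q) O) b _ _ hc hext hext' hdet hgram

/-- the same with the factor spelled `TanGrow.wilesFactor f q`, `tr f = a_q` — the `heta` binder of
`Ind.chain` / `RTNum.next` (`c n = Nat.card (O ⧸ span {wilesFactor f₀ q})`). -/
theorem card_congMod_eta_mod_wiles (hqN : ¬ q ∣ N) (hq : q.Prime) {p : ℕ} (hp : p.Prime)
    (hp2 : p ≠ 2) {ϖ : O} (hϖ : Irreducible ϖ) (hpϖ : ∃ c : O, (p : O) = ϖ * c)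
    (lam : Nat.Primes → O)
    (l l' : Nat.Primes) (hl : ¬ (l : ℕ) ∣ N * q) (hlq : ((l : ℕ) : ZMod q) = 1)
    (hl' : ¬ (l' : ℕ) ∣ N)
    (ha : IsUnit (lam l - (((l : ℕ) : O) + 1))) (ha' : IsUnit (lam l' - (((l' : ℕ) : O) + 1)))
    {d : ℕ} (hd : 2 ≤ d) (b : Fin d → O ⊗[ℤ] Lam N) (hli : LinearIndependent O b)
    (hspan : span O (Set.range b) = eigenTensorO N O lam)
    (f : Matrix (Fin 2) (Fin 2) O) (hf : f.trace = lam (⟨q, hq⟩ : Nat.Primes))
    (hc : Fermat.Agent.GE9.TanGrow.wilesFactor f ((q : ℕ) : O) ≠ 0)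
    (hdet : (gram (BW N O) b).det ≠ 0) :
    Nat.card (CongMod (BW (N * q * q) O) (span O (Set.range
        (raise3 (alpha3O N q O) ((q : ℕ) : O) (lam (⟨q, hq⟩ : Nat.Primes)) b)))) =
      Nat.card (CongMod (BW N O) (span O (Set.range b))) *
        Nat.card (O ⧸ Ideal.span {Fermat.Agent.GE9.TanGrow.wilesFactor f ((q : ℕ) : O)}) ^ d := by
  have e : Fermat.Agent.GE9.TanGrow.wilesFactor f ((q : ℕ) : O)
      = (((q : ℕ) : O) - 1) * ((1 + ((q : ℕ) : O)) ^ 2 - lam (⟨q, hq⟩ : Nat.Primes) ^ 2) := by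
    rw [Fermat.Agent.GE9.TanGrow.wilesFactor, hf]
  rw [e] at hc ⊢
  exact card_congMod_eta_mod hqN hq hp hp2 hϖ hpϖ lam l l' hl hlq hl' ha ha' hd b hli hspan hc hdet

end Main

end Fermat.Agent.GE9.Eta.Mod
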