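/-
S59 PRE-WORK / GE9-ETA (helper2): **ETA-MOD as an inductive invariant** (consumer form for the free
invariant `Inv` of helper73's `GE9/Asm/Chain2`).

* `EtaStage N O lam d` : the joint eigen-sublattice `eigenTensorO N O lam` of `O ⊗ Lam N` has an
  `O`-basis of `d` vectors on which the Fricke-twisted cup form `BW N O` has non-zero Gram determinant;
* `omegaCard N O lam := #(CongMod (BW N O) (eigenTensorO N O lam))` (basis-free);
* **`etaStage_next`** : `EtaStage N O lam d` ⟹ `EtaStage (N q²) O lam[q ↦ 0] d` and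
  `omegaCard (N q²) O lam[q ↦ 0] = omegaCard N O lam · #(O ⧸ wilesFactor f q) ^ d`;
* `EtaStage.binders` : `hext` + the span-spelled `#Ω` for a chosen basis (to plug into
  `stage_binders` / `hM1_of_eta_ne_bot`).
-/
import Mathlib
import Fermat.Agent.GE9.Eta.Mod

set_option autoImplicit false
set_option linter.unusedSectionVars false

open scoped TensorProduct

namespace Fermat.Agent.GE9.Eta.Mod

open Fermat.Agent.GJ.J2.Lat Fermat.Agent.GM.Asm Fermat.Agent.GE9.Adj3 Fermat.Agent.GE9.Fricke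
open Fermat.Agent.GE9.Eta.Loc Fermat.Agent.GE9.Eta.LocLam Fermat.Agent.GE9.Eta.LocLamU
  Fermat.Agent.GE9.Eta.LocTw Fermat.Agent.GE9.Mult1 Submodule

section Stage

variable (N : ℕ) [NeZero N] (O : Type*) [CommRing O]

/-- the stage invariant of the module side: an `O`-basis of the joint eigen-sublattice with
non-degenerate twisted Gram matrix. -/
def EtaStage (lam : Nat.Primes → O) (d : ℕ) : Prop :=
  ∃ b : Fin d → O ⊗[ℤ] Lam N, LinearIndependent O b ∧
    span O (Set.range b) = eigenTensorO N O lam ∧ (gram (BW N O) b).det ≠ 0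

/-- `#Ω` of the joint eigen-sublattice for the Fricke-twisted cup form (basis-free). -/
noncomputable def omegaCard (lam : Nat.Primes → O) : ℕ :=
  Nat.card (CongMod (BW N O) (eigenTensorO N O lam))

end Stage

section Next

variable {N q : ℕ} [Fact q.Prime] [NeZero N] [NeZero (N * q)] [NeZero (N * q * q)]
variable {O : Type*} [CommRing O] [IsDomain O] [CharZero O] [IsDiscreteValuationRing O]
  [Finite (IsLocalRing.ResidueField O)]

/-- **ONE STEP of the module side of the induction `Σ → Σ ∪ {q}`.** -/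
theorem etaStage_next (hqN : ¬ q ∣ N) (hq : q.Prime) {p : ℕ} (hp : p.Prime) (hp2 : p ≠ 2)
    {ϖ : O} (hϖ : Irreducible ϖ) (hpϖ : ∃ c : O, (p : O) = ϖ * c)
    (lam : Nat.Primes → O)
    (l l' : Nat.Primes) (hl : ¬ (l : ℕ) ∣ N * q) (hlq : ((l : ℕ) : ZMod q) = 1)
    (hl' : ¬ (l' : ℕ) ∣ N)
    (ha : IsUnit (lam l - (((l : ℕ) : O) + 1))) (ha' : IsUnit (lam l' - (((l' : ℕ) : O) + 1)))
    {d : ℕ} (hd : 2 ≤ d)
    (f : Matrix (Fin 2) (Fin 2) O) (hf : f.trace = lam (⟨q, hq⟩ : Nat.Primes))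
    (hc : Fermat.Agent.GE9.TanGrow.wilesFactor f ((q : ℕ) : O) ≠ 0)
    (h : EtaStage N O lam d) :
    EtaStage (N * q * q) O (Function.update lam (⟨q, hq⟩ : Nat.Primes) 0) d ∧
      omegaCard (N * q * q) O (Function.update lam (⟨q, hq⟩ : Nat.Primes) 0)
        = omegaCard N O lam *
          Nat.card (O ⧸ Ideal.span {Fermat.Agent.GE9.TanGrow.wilesFactor f ((q : ℕ) : O)}) ^ d := by
  obtain ⟨b, hli, hspan, hdet⟩ := h
  obtain ⟨hli', hspan', -, -, hgram⟩ :=
    eta_mod hqN hq hp hp2 hϖ hpϖ lam l l' hl hlq hl' ha ha' hd b hli hspan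
  have hcard := card_congMod_eta_mod_wiles hqN hq hp hp2 hϖ hpϖ lam l l' hl hlq hl' ha ha' hd b hli
    hspan f hf hc hdet
  have e : Fermat.Agent.GE9.TanGrow.wilesFactor f ((q : ℕ) : O)
      = (((q : ℕ) : O) - 1) * ((1 + ((q : ℕ) : O)) ^ 2 - lam (⟨q, hq⟩ : Nat.Primes) ^ 2) := by
    rw [Fermat.Agent.GE9.TanGrow.wilesFactor, hf]
  refine ⟨⟨_, hli', hspan', ?_⟩, ?_⟩
  · rw [det_gram_of_smul (BW N O) (BW (N * q * q) O) b _ _ hgram]
    rw [e] at hc
    exact mul_ne_zero (pow_ne_zero d hc) hdet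
  · rw [hspan', hspan] at hcard
    exact hcard

end Next

section Binders

variable {N : ℕ} [NeZero N] {O : Type*} [CommRing O] [IsDomain O] [CharZero O]
  [IsDiscreteValuationRing O]

/-- the binders of `Eta.card_congMod` / `Ind.heta_of_gram` owned by a stage. -/
theorem EtaStage.binders {lam : Nat.Primes → O} {d : ℕ} (h : EtaStage N O lam d) :
    ∃ b : Fin d → O ⊗[ℤ] Lam N, LinearIndependent O b ∧
      span O (Set.range b) = eigenTensorO N O lam ∧ (gram (BW N O) b).det ≠ 0 ∧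
      (∀ a : Fin d → O, ∃ x : O ⊗[ℤ] Lam N, ∀ i, BW N O (b i) x = a i) ∧
      Nat.card (CongMod (BW N O) (span O (Set.range b))) = omegaCard N O lam := by
  obtain ⟨b, hli, hspan, hdet⟩ := h
  have := finite_tensor_lam (O := O) N
  refine ⟨b, hli, hspan, hdet, ?_, by rw [hspan]; rfl⟩
  exact Sat.hext_of_perfect_of_saturated (BW N O) (perfect_BW N O)
    (hspan ▸ saturated_eigenTensorO N lam) b hli rfl

end Binders

end Fermat.Agent.GE9.Eta.Mod
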