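/-
S59 PRE-WORK / GE9-ETA (helper2): **the congruence module does not see an orthogonal direct
factor** — the bridge between ETA-MOD on the unlocalised model `O ⊗ Lam N` (`GE9/Eta/Mod`) and the
`𝔪`-local part `L'_Σ = locPart 𝔪 (O ⊗ Lam N_Σ)` of RULING A6.2.

ABSTRACT: `ι : L₁ →ₗ[O] L` injective, `L₂ ≤ L` with `range ι ⊔ L₂ = ⊤`, `B (ι x) y = 0 = B y (ι x)`
for `y ∈ L₂`, `B₁ x y = B (ι x) (ι y)`, `P₁ ≤ L₁`:

* `orth_map` : `(ι P₁)^⊥ = ι (P₁^⊥) ⊔ L₂`;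
* `congModEquiv : CongMod B (P₁.map ι) ≃ₗ[O] CongMod B₁ P₁`, `card_congMod_map`;
* `card_congMod_span` : the same in the span-of-family spelling of `Ind.chain`;
* `gram_comp`, `linearIndependent_comp` : the Gram matrix and independence of `ι ∘ b₁`.

INSTANCE: `L₁ = locPart 𝔪 L`, `L₂ = awayPart 𝔪 L`, `B₁ = Loc.BLoc 𝔪 B` for a form with self-adjoint
`A`-action (helper5 `GE9/Eta/Loc`, helper74 `GB/B3/Loc`): `card_congMod_locPart`.
-/
import Mathlib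
import Fermat.Agent.GE9.Eta.Loc

set_option autoImplicit false
set_option linter.unusedSectionVars false

namespace Fermat.Agent.GE9.Eta.OmegaLoc

open Submodule Fermat.Agent.GE9.Eta

section Abstract

variable {O : Type*} [CommRing O] {L : Type*} [AddCommGroup L] [Module O L]
  {L₁ : Type*} [AddCommGroup L₁] [Module O L₁]
  (B : L →ₗ[O] L →ₗ[O] O) (B₁ : L₁ →ₗ[O] L₁ →ₗ[O] O) (ι : L₁ →ₗ[O] L) (L₂ : Submodule O L)

/-- `(ι P₁)^⊥ ∩ L₁ = ι (P₁^⊥)` -/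
theorem apply_mem_orth_iff (hB₁ : ∀ x y : L₁, B₁ x y = B (ι x) (ι y)) (P₁ : Submodule O L₁)
    (x : L₁) : ι x ∈ orth B (P₁.map ι) ↔ x ∈ orth B₁ P₁ := by
  rw [mem_orth, mem_orth]
  constructor
  · intro h y hy
    rw [hB₁]
    exact h (ι y) (Submodule.mem_map_of_mem hy)
  · rintro h _ ⟨y, hy, rfl⟩
    rw [← hB₁]
    exact h y hy

theorem le_orth_map (horth : ∀ (x : L₁) (y : L), y ∈ L₂ → B (ι x) y = 0) (P₁ : Submodule O L₁) :
    L₂ ≤ orth B (P₁.map ι) := by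
  rintro y hy _ ⟨x, -, rfl⟩
  exact horth x y hy

/-- the composite `L₁ → L → CongMod B (ι P₁)` -/
noncomputable def toCong (P₁ : Submodule O L₁) : L₁ →ₗ[O] CongMod B (P₁.map ι) :=
  (Submodule.mkQ _).comp ι

theorem toCong_surjective (htop : LinearMap.range ι ⊔ L₂ = ⊤)
    (horth : ∀ (x : L₁) (y : L), y ∈ L₂ → B (ι x) y = 0) (P₁ : Submodule O L₁) :
    Function.Surjective (toCong B ι P₁) := by
  intro z
  obtain ⟨x, rfl⟩ := Submodule.mkQ_surjective _ z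
  have hx : x ∈ LinearMap.range ι ⊔ L₂ := by rw [htop]; trivial
  obtain ⟨_, ⟨x₁, rfl⟩, x₂, hx₂, rfl⟩ := Submodule.mem_sup.1 hx
  refine ⟨x₁, ?_⟩
  show Submodule.mkQ _ (ι x₁) = Submodule.mkQ _ (ι x₁ + x₂)
  rw [map_add]
  have h0 : Submodule.mkQ (P₁.map ι ⊔ orth B (P₁.map ι)) x₂ = 0 := by
    rw [Submodule.mkQ_apply, Submodule.Quotient.mk_eq_zero]
    exact Submodule.mem_sup_right (le_orth_map B ι L₂ horth P₁ hx₂)
  rw [h0, add_zero]

theorem ker_toCong (hB₁ : ∀ x y : L₁, B₁ x y = B (ι x) (ι y))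
    (P₁ : Submodule O L₁) : LinearMap.ker (toCong B ι P₁) = P₁ ⊔ orth B₁ P₁ := by
  ext x
  rw [LinearMap.mem_ker]
  show Submodule.mkQ _ (ι x) = 0 ↔ _
  rw [Submodule.mkQ_apply, Submodule.Quotient.mk_eq_zero]
  constructor
  · intro h
    obtain ⟨_, ⟨p, hp, rfl⟩, o, ho, hpo⟩ := Submodule.mem_sup.1 h
    have ho' : o = ι (x - p) := by rw [map_sub, ← hpo]; abel
    rw [ho', apply_mem_orth_iff B B₁ ι hB₁] at ho
    have : x = p + (x - p) := by abel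
    rw [this]
    exact Submodule.add_mem _ (Submodule.mem_sup_left hp) (Submodule.mem_sup_right ho)
  · intro h
    obtain ⟨p, hp, o, ho, rfl⟩ := Submodule.mem_sup.1 h
    rw [map_add]
    exact Submodule.add_mem _ (Submodule.mem_sup_left (Submodule.mem_map_of_mem hp))
      (Submodule.mem_sup_right ((apply_mem_orth_iff B B₁ ι hB₁ P₁ o).2 ho))

/-- **the congruence module of `ι P₁` in `L` is the congruence module of `P₁` in `L₁`** -/
noncomputable def congModEquiv (htop : LinearMap.range ι ⊔ L₂ = ⊤)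
    (horth : ∀ (x : L₁) (y : L), y ∈ L₂ → B (ι x) y = 0)
    (hB₁ : ∀ x y : L₁, B₁ x y = B (ι x) (ι y)) (P₁ : Submodule O L₁) :
    CongMod B₁ P₁ ≃ₗ[O] CongMod B (P₁.map ι) :=
  (Submodule.quotEquivOfEq _ _ (ker_toCong B B₁ ι hB₁ P₁).symm).trans
    ((toCong B ι P₁).quotKerEquivOfSurjective (toCong_surjective B ι L₂ htop horth P₁))

theorem card_congMod_map (htop : LinearMap.range ι ⊔ L₂ = ⊤)
    (horth : ∀ (x : L₁) (y : L), y ∈ L₂ → B (ι x) y = 0)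
    (hB₁ : ∀ x y : L₁, B₁ x y = B (ι x) (ι y)) (P₁ : Submodule O L₁) :
    Nat.card (CongMod B (P₁.map ι)) = Nat.card (CongMod B₁ P₁) :=
  (Nat.card_congr (congModEquiv B B₁ ι L₂ htop horth hB₁ P₁).toEquiv).symm

/-- the same in the span-of-family spelling of `Ind.chain` -/
theorem card_congMod_span (htop : LinearMap.range ι ⊔ L₂ = ⊤)
    (horth : ∀ (x : L₁) (y : L), y ∈ L₂ → B (ι x) y = 0)
    (hB₁ : ∀ x y : L₁, B₁ x y = B (ι x) (ι y)) {κ : Type*} (b₁ : κ → L₁) :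
    Nat.card (CongMod B (span O (Set.range (ι ∘ b₁))))
      = Nat.card (CongMod B₁ (span O (Set.range b₁))) := by
  rw [Set.range_comp, ← Submodule.map_span]
  exact card_congMod_map B B₁ ι L₂ htop horth hB₁ _

theorem gram_comp (hB₁ : ∀ x y : L₁, B₁ x y = B (ι x) (ι y)) {d : ℕ} (b₁ : Fin d → L₁) :
    gram B (ι ∘ b₁) = gram B₁ b₁ := by
  ext i j
  rw [gram_apply, gram_apply, hB₁]
  rfl

theorem linearIndependent_comp (hι : Function.Injective ι) {κ : Type*} {b₁ : κ → L₁}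
    (h : LinearIndependent O b₁) : LinearIndependent O (ι ∘ b₁) :=
  h.map' ι (LinearMap.ker_eq_bot.mpr hι)

end Abstract

/-! ### the `𝔪`-local part -/

section LocPart

open Fermat.Agent.GB.B3.Loc Fermat.Agent.GE9.Eta.Loc

variable {𝒪 : Type} [CommRing 𝒪] [IsLocalRing 𝒪] [IsNoetherianRing 𝒪]
  [IsAdicComplete (IsLocalRing.maximalIdeal 𝒪) 𝒪]
variable {A : Type} [CommRing A] [Algebra 𝒪 A] (𝔪 : Ideal A) [𝔪.IsMaximal]
variable {L : Type*} [AddCommGroup L] [Module 𝒪 L] [Module A L] [IsScalarTower 𝒪 A L]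
  [Module.Finite 𝒪 L]

/-- the inclusion of the `𝔪`-local part, `𝒪`-linear -/
noncomputable def locIncl : locPart 𝔪 L →ₗ[𝒪] L := (locPart 𝔪 L).subtype.restrictScalars 𝒪

omit [IsLocalRing 𝒪] [IsNoetherianRing 𝒪] [IsAdicComplete (IsLocalRing.maximalIdeal 𝒪) 𝒪]
  [Module.Finite 𝒪 L] in
@[simp] theorem locIncl_apply (x : locPart 𝔪 L) : locIncl (𝒪 := 𝒪) 𝔪 x = (x : L) := rfl

theorem range_locIncl_sup_awayPart :
    LinearMap.range (locIncl (𝒪 := 𝒪) (L := L) 𝔪) ⊔ (awayPart 𝔪 L).restrictScalars 𝒪 = ⊤ := by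
  rw [eq_top_iff]
  intro x _
  have hcompl := isCompl_locPart_awayPart 𝒪 (L := L) 𝔪
  have hx : x ∈ locPart 𝔪 L ⊔ awayPart 𝔪 L := by rw [hcompl.sup_eq_top]; trivial
  obtain ⟨x₁, hx₁, x₂, hx₂, rfl⟩ := Submodule.mem_sup.1 hx
  exact Submodule.add_mem _ (Submodule.mem_sup_left ⟨⟨x₁, hx₁⟩, rfl⟩)
    (Submodule.mem_sup_right hx₂)

/-- **`Ω` of a sublattice of the `𝔪`-local part, computed in `L` or in `locPart 𝔪 L`** — for a
form `B` with self-adjoint `A`-action. -/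
theorem card_congMod_locPart (B : L →ₗ[𝒪] L →ₗ[𝒪] 𝒪)
    (hsa : ∀ (a : A) (x y : L), B (a • x) y = B x (a • y)) {κ : Type*}
    (b₁ : κ → locPart 𝔪 L) :
    Nat.card (CongMod B (span 𝒪 (Set.range fun i => ((b₁ i : locPart 𝔪 L) : L))))
      = Nat.card (CongMod (BLoc 𝔪 B) (span 𝒪 (Set.range b₁))) :=
  card_congMod_span B (BLoc 𝔪 B) (locIncl (𝒪 := 𝒪) 𝔪) ((awayPart 𝔪 L).restrictScalars 𝒪)
    (range_locIncl_sup_awayPart 𝔪)
    (fun x _ hy => (apply_eq_zero_of_mem_locPart_of_mem_awayPart 𝔪 B hsa x.2 hy).1)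
    (fun _ _ => rfl) b₁

/-- the same starting from a family in `L` that lies in the `𝔪`-local part -/
theorem card_congMod_of_mem_locPart (B : L →ₗ[𝒪] L →ₗ[𝒪] 𝒪)
    (hsa : ∀ (a : A) (x y : L), B (a • x) y = B x (a • y)) {κ : Type*}
    (b : κ → L) (hb : ∀ i, b i ∈ locPart 𝔪 L) :
    Nat.card (CongMod B (span 𝒪 (Set.range b)))
      = Nat.card (CongMod (BLoc 𝔪 B)
          (span 𝒪 (Set.range fun i => (⟨b i, hb i⟩ : locPart 𝔪 L)))) :=
  card_congMod_locPart 𝔪 B hsa (fun i => (⟨b i, hb i⟩ : locPart 𝔪 L))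

omit [IsLocalRing 𝒪] [IsNoetherianRing 𝒪] [IsAdicComplete (IsLocalRing.maximalIdeal 𝒪) 𝒪]
  [Module.Finite 𝒪 L] in
theorem gram_locPart (B : L →ₗ[𝒪] L →ₗ[𝒪] 𝒪) {d : ℕ} (b₁ : Fin d → locPart 𝔪 L) :
    gram (BLoc 𝔪 B) b₁ = gram B (fun i => ((b₁ i : locPart 𝔪 L) : L)) := by
  ext i j
  rfl

end LocPart

end Fermat.Agent.GE9.Eta.OmegaLoc
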