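/-
GATE-E / RISK-2 case (b), input (v) of helper80 7503 (helper37): **the dual of IHARA2 over `ℤ`** —
for `q ∤ N` prime, `p` an odd prime (`p = q` allowed), `l ≡ 1 (q)`, `l ∤ N q`, `l' ∤ N` primes and
`E = E_{l'} E_l`, `E_l = T_l - (l + 1)` on `Λ_N`:

  `E · Λ_N³ ⊆ β₃ (Λ_{N q²}) + p · Λ_N³`,   `β₃ = α₃^†` (adjoint of `α₃` for the cup forms),

as a `ℤ`-LINEAR factorisation `E^{×3} = β₃ ∘ C' + p • D'` (so that it survives every base change),
and per component: `E = (β₃)_m ∘ C'_m + p • D'_m`.  Consequence: every transfer component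
`(β₃)_m : Λ_{N q²} → Λ_N` is ONTO on every non-Eisenstein localisation.

* `beta3` is CONCRETE: `(β₃ w) 0 = cores (cores₂ w)` (the trace `Γ₀(N q²) → Γ₀(N)`),
  `(β₃ w) 1 = cores_δ (cores₂ w)`, `(β₃ w) 2 = W_N (cores (cores₂ (W_{N q²} w)))`;
* `lamB_alpha3_beta3` : `⟨α₃ u, w⟩_{N q²} = Σ_m ⟨u m, (β₃ w) m⟩_N`;
* `beta3_latT` : `β₃` commutes with `T_l` for every prime `l ∤ N q`.

Proof of `dual_ihara2`: IHARA2 (`GE9/Eta/KPlug.ihara2_alpha3`) + the kernel transfer factorisation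
(`KTransfer.exists_factor`), dualised by helper46's `GE8/RaiseP/DualIhara.exists_dual_factor`.
-/
import Mathlib
import Fermat.Agent.GE9.Eta.KPlug
import Fermat.Agent.GE8.RaiseP.DualIhara
import Fermat.Agent.GE9.Fricke.Alpha3
import Fermat.Agent.GE9.Adj3U.Main

set_option autoImplicit false

open scoped TensorProduct

namespace Fermat.Agent.GE9.Eta.DualIhara2

open CongruenceSubgroup ModularCurve.Period
open Fermat.Agent.GM.B Fermat.Agent.GJ.J2.Lat Fermat.Agent.GM.Asm Fermat.Agent.GM.Theta.Outer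
open Fermat.Agent.GE9.Adj3 Fermat.Agent.GE9.Fricke Fermat.Agent.GE9.Eta.KPlug
open Fermat.Agent.GE8.RaiseP.DualIhara

/-! ### the orthogonal sum of three copies of the cup form -/

section Three

/-- the orthogonal sum of three copies of the cup form. -/
noncomputable def lamB3 (N : ℕ) [NeZero N] :
    (Fin 3 → Lam N) →ₗ[ℤ] (Fin 3 → Lam N) →ₗ[ℤ] ℤ :=
  ∑ m : Fin 3, (lamB N).compl₁₂ (LinearMap.proj m) (LinearMap.proj m)

theorem lamB3_apply (N : ℕ) [NeZero N] (u z : Fin 3 → Lam N) :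
    lamB3 N u z = ∑ m : Fin 3, lamB N (u m) (z m) := by
  simp [lamB3, LinearMap.sum_apply, LinearMap.compl₁₂_apply]

theorem lamB3_right_inj (N : ℕ) [NeZero N] (z : Fin 3 → Lam N)
    (h : ∀ u, lamB3 N u z = 0) : z = 0 := by
  funext m
  refine lamB_right_inj N (z m) fun x => ?_
  have := h (Pi.single m x)
  rw [lamB3_apply] at this
  rw [Finset.sum_eq_single m] at this
  · simpa using this
  · intro k _ hk
    rw [Pi.single_eq_of_ne hk, map_zero, LinearMap.zero_apply]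
  · intro hm
    exact absurd (Finset.mem_univ m) hm

theorem lamB3_right_surj (N : ℕ) [NeZero N] (φ : (Fin 3 → Lam N) →ₗ[ℤ] ℤ) :
    ∃ z, ∀ u, lamB3 N u z = φ u := by
  choose z hz using fun m : Fin 3 => lamB_right_surj N (φ ∘ₗ LinearMap.single ℤ (fun _ => Lam N) m)
  refine ⟨z, fun u => ?_⟩
  rw [lamB3_apply]
  have hu : u = ∑ m : Fin 3, Pi.single m (u m) := by
    funext k
    simp [Finset.sum_apply, Pi.single_apply]
  conv_rhs => rw [hu, map_sum]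
  refine Finset.sum_congr rfl fun m _ => ?_
  rw [hz m, LinearMap.comp_apply]
  rfl

end Three

variable {N q : ℕ} [hqF : Fact q.Prime] [NeZero N] [NeZero (N * q)] [NeZero (N * q * q)]

/-! ### the adjoint `β₃` of `α₃` -/

section Beta

variable (hqN : ¬ q ∣ N)

/-- `(β₃)_0 = cores ∘ cores₂` : the trace `Λ_{N q²} → Λ_N`. -/
noncomputable def be0 : Lam (N * q * q) →+ Lam N :=
  (coresP ℤ hqN).comp (cores2P ℤ (Dvd.intro_left N rfl : q ∣ N * q))

/-- `(β₃)_1 = cores_δ ∘ cores₂`. -/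
noncomputable def be1 : Lam (N * q * q) →+ Lam N :=
  (coresDP ℤ hqN).comp (cores2P ℤ (Dvd.intro_left N rfl : q ∣ N * q))

/-- `(β₃)_2 = W_N ∘ cores ∘ cores₂ ∘ W_{N q²}`. -/
noncomputable def be2 : Lam (N * q * q) →+ Lam N :=
  (frP N ℤ).comp ((be0 hqN).comp (frP (N * q * q) ℤ))

theorem lamB_al0_be0 (x : Lam N) (w : Lam (N * q * q)) :
    lamB (N * q * q) (al0 N q x) w = lamB N x (be0 hqN w) := by
  show lamB (N * q * q) (resP ℤ (N * q) q (resP ℤ N q x)) w = _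
  rw [lamB_resP_cores2P (Dvd.intro_left N rfl : q ∣ N * q), lamB_resP_coresP hqN]
  rfl

theorem lamB_al1_be1 (x : Lam N) (w : Lam (N * q * q)) :
    lamB (N * q * q) (al1 N q x) w = lamB N x (be1 hqN w) := by
  show lamB (N * q * q) (resP ℤ (N * q) q (resDP ℤ N q x)) w = _
  rw [lamB_resP_cores2P (Dvd.intro_left N rfl : q ∣ N * q), lamB_O1 hqN]
  rfl

theorem lamB_al2_be2 (x : Lam N) (w : Lam (N * q * q)) :
    lamB (N * q * q) (al2 N q x) w = lamB N x (be2 hqN w) := by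
  have h1 : al2 N q x = frP (N * q * q) ℤ (al0 N q (frP N ℤ x)) := by
    rw [frP_al0, frP_frP]
  rw [h1, lamB_frP_left, lamB_al0_be0 hqN, lamB_frP_left]
  rfl

/-- **the adjoint of `α₃`** for the cup forms. -/
noncomputable def beta3 : Lam (N * q * q) →ₗ[ℤ] (Fin 3 → Lam N) :=
  LinearMap.pi ![(be0 hqN).toIntLinearMap, (be1 hqN).toIntLinearMap, (be2 hqN).toIntLinearMap]

theorem beta3_zero (w : Lam (N * q * q)) : beta3 hqN w 0 = be0 hqN w := rfl
theorem beta3_one (w : Lam (N * q * q)) : beta3 hqN w 1 = be1 hqN w := rfl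
theorem beta3_two (w : Lam (N * q * q)) : beta3 hqN w 2 = be2 hqN w := rfl

/-- the first component is the trace `cores ∘ cores₂`. -/
theorem beta3_zero_eq (w : Lam (N * q * q)) :
    beta3 hqN w 0 = coresP ℤ hqN (cores2P ℤ (Dvd.intro_left N rfl : q ∣ N * q) w) := rfl

/-- **`α₃ ⊣ β₃`** for the cup forms, over `ℤ`. -/
theorem lamB_alpha3_beta3 (u : Fin 3 → Lam N) (w : Lam (N * q * q)) :
    lamB (N * q * q) (alpha3 N q u) w = lamB3 N u (beta3 hqN w) := by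
  rw [alpha3_apply, lamB3_apply, Fin.sum_univ_three, map_add, map_add, LinearMap.add_apply,
    LinearMap.add_apply, lamB_al0_be0 hqN, lamB_al1_be1 hqN, lamB_al2_be2 hqN]
  rfl

/-- **`β₃` commutes with `T_l`**, `l ∤ N q`. -/
theorem beta3_latT (l : Nat.Primes) (hl : ¬ (l : ℕ) ∣ N * q) (w : Lam (N * q * q)) :
    beta3 hqN (latT (N * q * q) l w) = fun m => latT N l (beta3 hqN w m) := by
  have hlN : ¬ (l : ℕ) ∣ N := fun h => hl (Dvd.dvd.mul_right h q)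
  have hl2 : ¬ (l : ℕ) ∣ N * q * q := by
    intro h
    rcases (Nat.Prime.dvd_mul l.2).mp h with h1 | h1
    · exact hl h1
    · exact hl (dvd_mul_of_dvd_right h1 N)
  rw [← sub_eq_zero]
  refine lamB3_right_inj N _ fun u => ?_
  rw [map_sub, ← lamB_alpha3_beta3 hqN, ← lamB_latT l hl2, Fermat.Agent.GE9.Adj3U.latT_alpha3 l hl,
    lamB_alpha3_beta3 hqN, lamB3_apply, lamB3_apply, ← Finset.sum_sub_distrib]
  refine Finset.sum_eq_zero fun m _ => ?_
  rw [lamB_latT l hlN, sub_self]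

/-- componentwise form. -/
theorem beta3_latT_apply (l : Nat.Primes) (hl : ¬ (l : ℕ) ∣ N * q) (w : Lam (N * q * q))
    (m : Fin 3) : beta3 hqN (latT (N * q * q) l w) m = latT N l (beta3 hqN w m) :=
  congrFun (beta3_latT hqN l hl w) m

end Beta

/-! ### the dual of IHARA2 -/

section Dual

variable (hqN : ¬ q ∣ N)

/-- `E = E_{l'} E_l` on `Λ_N`, as a `ℤ`-linear map. -/
noncomputable def eis2 (N : ℕ) [NeZero N] (l l' : Nat.Primes) : Lam N →ₗ[ℤ] Lam N :=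
  eisEnd N l' * eisEnd N l

/-- `E^{×3}` on `Λ_N³`. -/
noncomputable def eis2Pi (N : ℕ) [NeZero N] (l l' : Nat.Primes) :
    (Fin 3 → Lam N) →ₗ[ℤ] (Fin 3 → Lam N) :=
  LinearMap.pi fun m => eis2 N l l' ∘ₗ LinearMap.proj m

theorem eis2Pi_apply (l l' : Nat.Primes) (u : Fin 3 → Lam N) (m : Fin 3) :
    eis2Pi N l l' u m = eis2 N l l' (u m) := rfl

omit hqF [NeZero (N * q)] [NeZero (N * q * q)] in
/-- `E_l` is self-adjoint for the cup form (`l ∤ N`). -/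
theorem lamB_eisEnd (l : Nat.Primes) (hl : ¬ (l : ℕ) ∣ N) (x y : Lam N) :
    lamB N (eisEnd N l x) y = lamB N x (eisEnd N l y) := by
  simp only [eisEnd, LinearMap.sub_apply, LinearMap.smul_apply, Module.End.one_apply, map_sub,
    map_smul, lamB_latT l hl]

omit hqF [NeZero (N * q)] [NeZero (N * q * q)] in
/-- `E_l` and `E_l'` commute. -/
theorem eisEnd_comm (l l' : Nat.Primes) : eisEnd N l' * eisEnd N l = eisEnd N l * eisEnd N l' := by
  have h : Commute (latT N l') (latT N l) := Fermat.Agent.GJ.J2.Lat.latT_commute N l' l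
  have h1 : Commute (latT N l') (eisEnd N l) :=
    h.sub_right ((Commute.one_right _).smul_right _)
  have h2 : Commute (eisEnd N l') (eisEnd N l) :=
    h1.sub_left ((Commute.one_left _).smul_left _)
  exact h2.eq

omit hqF [NeZero (N * q)] [NeZero (N * q * q)] in
/-- `E = E_{l'} E_l` is self-adjoint for the cup form (`l, l' ∤ N`). -/
theorem lamB_eis2 (l l' : Nat.Primes) (hl : ¬ (l : ℕ) ∣ N) (hl' : ¬ (l' : ℕ) ∣ N)
    (x y : Lam N) : lamB N (eis2 N l l' x) y = lamB N x (eis2 N l l' y) := by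
  show lamB N ((eisEnd N l' * eisEnd N l) x) y = lamB N x ((eisEnd N l' * eisEnd N l) y)
  rw [Module.End.mul_apply, lamB_eisEnd l' hl', lamB_eisEnd l hl, ← Module.End.mul_apply,
    ← eisEnd_comm]

/-- **the dual of IHARA2 over `ℤ`**, as a `ℤ`-linear factorisation
`E^{×3} = β₃ ∘ C' + p • D'` on `Λ_N³`; `p` any odd prime (`p = q` allowed). -/
theorem dual_ihara2 {p : ℕ} (hp : p.Prime) (hp2 : p ≠ 2)
    (l l' : Nat.Primes) (hl : ¬ (l : ℕ) ∣ N * q) (hlq : ((l : ℕ) : ZMod q) = 1)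
    (hl' : ¬ (l' : ℕ) ∣ N) :
    ∃ (C' : (Fin 3 → Lam N) →ₗ[ℤ] Lam (N * q * q))
      (D' : (Fin 3 → Lam N) →ₗ[ℤ] (Fin 3 → Lam N)),
      eis2Pi N l l' = beta3 hqN ∘ₗ C' + (p : ℤ) • D' := by
  have : Fact p.Prime := ⟨hp⟩
  have : Module.Free ℤ (Lam N) := Fermat.Agent.GJ.J2.ZStruct.free_parabolicHoms_int N
  have : Module.Free ℤ (Lam (N * q * q)) :=
    Fermat.Agent.GJ.J2.ZStruct.free_parabolicHoms_int (N * q * q)
  have hlN : ¬ (l : ℕ) ∣ N := fun h => hl (Dvd.dvd.mul_right h q)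
  obtain ⟨C, D, hCD⟩ := Fermat.Agent.GE9.Eta.KTransfer.exists_factor p
    (alpha3 N q) (eis2Pi N l l') (by
      rintro u ⟨w, hw⟩
      choose z hz using fun m => ihara2_alpha3 hqN hp hp2 l l' hl hlq hl' u ⟨w, hw⟩ m
      refine ⟨z, ?_⟩
      funext m
      rw [eis2Pi_apply, Pi.smul_apply]
      exact hz m)
  refine exists_dual_factor (lamB3 N) (lamB (N * q * q)) (lamB3_right_inj N) (lamB3_right_surj N)
    (lamB_right_surj (N * q * q)) (alpha3 N q) (beta3 hqN)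
    (fun u w => lamB_alpha3_beta3 hqN u w) _ ?_ (p : ℤ) C D hCD
  intro u z
  rw [lamB3_apply, lamB3_apply]
  refine Finset.sum_congr rfl fun m _ => ?_
  rw [eis2Pi_apply, eis2Pi_apply, lamB_eis2 l l' hlN hl']

/-- **per component**: `E = (β₃)_m ∘ C'_m + p • D'_m` on `Λ_N`. -/
theorem dual_ihara2_comp {p : ℕ} (hp : p.Prime) (hp2 : p ≠ 2)
    (l l' : Nat.Primes) (hl : ¬ (l : ℕ) ∣ N * q) (hlq : ((l : ℕ) : ZMod q) = 1)
    (hl' : ¬ (l' : ℕ) ∣ N) (m : Fin 3) :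
    ∃ (C' : Lam N →ₗ[ℤ] Lam (N * q * q)) (D' : Lam N →ₗ[ℤ] Lam N),
      eis2 N l l' = (LinearMap.proj m ∘ₗ beta3 hqN) ∘ₗ C' + (p : ℤ) • D' := by
  obtain ⟨C', D', h⟩ := dual_ihara2 hqN hp hp2 l l' hl hlq hl'
  refine ⟨C' ∘ₗ LinearMap.single ℤ (fun _ => Lam N) m,
    LinearMap.proj m ∘ₗ D' ∘ₗ LinearMap.single ℤ (fun _ => Lam N) m, LinearMap.ext fun x => ?_⟩
  have h1 := congrFun (LinearMap.congr_fun h (Pi.single m x)) m
  rw [eis2Pi_apply, Pi.single_eq_same] at h1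
  rw [h1]
  rfl

/-- pointwise form, per component. -/
theorem dual_ihara2_pointwise {p : ℕ} (hp : p.Prime) (hp2 : p ≠ 2)
    (l l' : Nat.Primes) (hl : ¬ (l : ℕ) ∣ N * q) (hlq : ((l : ℕ) : ZMod q) = 1)
    (hl' : ¬ (l' : ℕ) ∣ N) (m : Fin 3) (x : Lam N) :
    ∃ (w : Lam (N * q * q)) (x' : Lam N),
      eisEnd N l' (eisEnd N l x) = beta3 hqN w m + (p : ℤ) • x' := by
  obtain ⟨C', D', h⟩ := dual_ihara2_comp hqN hp hp2 l l' hl hlq hl' m
  exact ⟨C' x, D' x, LinearMap.congr_fun h x⟩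

/-- **base change**, all three components: over any commutative ring `O` with `ϖ ∣ p`, the image
of `E^{×3} ⊗ O` lies in `range (β₃ ⊗ O) + ϖ · (…)`. -/
theorem dual_ihara2_baseChange {p : ℕ} (hp : p.Prime) (hp2 : p ≠ 2)
    (l l' : Nat.Primes) (hl : ¬ (l : ℕ) ∣ N * q) (hlq : ((l : ℕ) : ZMod q) = 1)
    (hl' : ¬ (l' : ℕ) ∣ N)
    (O : Type*) [CommRing O] (ϖ : O) (hpϖ : ∃ c : O, (p : O) = ϖ * c)
    (z : O ⊗[ℤ] (Fin 3 → Lam N)) :
    ∃ (w : O ⊗[ℤ] Lam (N * q * q)) (z' : O ⊗[ℤ] (Fin 3 → Lam N)),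
      (eis2Pi N l l').baseChange O z = (beta3 hqN).baseChange O w + ϖ • z' := by
  obtain ⟨C', D', h⟩ := dual_ihara2 hqN hp hp2 l l' hl hlq hl'
  exact baseChange_of_dual_factor _ _ C' D' p h O ϖ hpϖ z

/-- **base change, per component**: over any commutative ring `O` with `ϖ ∣ p`,
`(E ⊗ O) z ∈ range ((β₃)_m ⊗ O) + ϖ · (O ⊗ Λ_N)` — so `(β₃)_m ⊗ O` is onto modulo `ϖ` after
inverting `E`, i.e. on every non-Eisenstein localisation. -/
theorem dual_ihara2_comp_baseChange {p : ℕ} (hp : p.Prime) (hp2 : p ≠ 2)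
    (l l' : Nat.Primes) (hl : ¬ (l : ℕ) ∣ N * q) (hlq : ((l : ℕ) : ZMod q) = 1)
    (hl' : ¬ (l' : ℕ) ∣ N) (m : Fin 3)
    (O : Type*) [CommRing O] (ϖ : O) (hpϖ : ∃ c : O, (p : O) = ϖ * c)
    (z : O ⊗[ℤ] Lam N) :
    ∃ (w : O ⊗[ℤ] Lam (N * q * q)) (z' : O ⊗[ℤ] Lam N),
      (eis2 N l l').baseChange O z
        = (LinearMap.proj m ∘ₗ beta3 hqN).baseChange O w + ϖ • z' := by
  obtain ⟨C', D', h⟩ := dual_ihara2_comp hqN hp hp2 l l' hl hlq hl' m
  exact baseChange_of_dual_factor _ _ C' D' p h O ϖ hpϖ z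

/-- the `T_l`-equivariance of the component maps, in `LinearMap` form (`l₀ ∤ N q`). -/
theorem proj_beta3_latT (l₀ : Nat.Primes) (hl₀ : ¬ (l₀ : ℕ) ∣ N * q) (m : Fin 3) :
    (LinearMap.proj m ∘ₗ beta3 hqN) ∘ₗ latT (N * q * q) l₀
      = latT N l₀ ∘ₗ (LinearMap.proj m ∘ₗ beta3 hqN) :=
  LinearMap.ext fun w => beta3_latT_apply hqN l₀ hl₀ w m

/-- the same after base change. -/
theorem proj_beta3_latT_baseChange (l₀ : Nat.Primes) (hl₀ : ¬ (l₀ : ℕ) ∣ N * q) (m : Fin 3)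
    (O : Type*) [CommRing O] (w : O ⊗[ℤ] Lam (N * q * q)) :
    (LinearMap.proj m ∘ₗ beta3 hqN).baseChange O ((latT (N * q * q) l₀).baseChange O w)
      = (latT N l₀).baseChange O ((LinearMap.proj m ∘ₗ beta3 hqN).baseChange O w) := by
  rw [← LinearMap.comp_apply, ← LinearMap.baseChange_comp, proj_beta3_latT hqN l₀ hl₀ m,
    LinearMap.baseChange_comp, LinearMap.comp_apply]

end Dual

end Fermat.Agent.GE9.Eta.DualIhara2
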