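/-
GATE-E / RISK-4 PNEW-STAGE, leaf R4-E of helper80 7564 (helper37): **the `p`- and `q`-degeneracies
commute on the lattices** (`p ≠ q` primes, `p ∤ N`, `q ∤ N`):

  `β_p^{N} ∘ (β₃^{N p, q})_m = ((β₃^{N, q})_m × (β₃^{N, q})_m) ∘ β_p^{N q²}`    (`betaP_beta3`)

where `β_p = (cores_p, cores_{p,δ})` (`GM/B.betaP`) and `β₃ = DualIhara2.beta3` is the adjoint of
`α₃`.  The two sides live on `Λ_{(N p) q q}` resp. `Λ_{(N q q) p}`: the level cast is
`lamCast (h : M = M') : Lam M ≃ₗ[ℤ] Lam M'` (identity on the underlying homomorphisms: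
`lamCast_apply`, `lamB_lamCast`, `latT_lamCast`).

Proof: on the `α`-side the statement is `δ_p δ_q = δ_q δ_p` (`lamCast_alm_resP`,
`lamCast_alm_resDP`); dualise along the unimodular cup forms.

(`T_q`-equivariance of `β_p` is `GM/B5/EquivLat.betaP_latT`, on main.)
-/
import Mathlib
import Fermat.Agent.GE9.Eta.DualIhara2
import Fermat.Agent.GM.B5.EquivLat

set_option autoImplicit false

open scoped MatrixGroups

namespace Fermat.Agent.GE9.Eta.DualIhara2

open CongruenceSubgroup Matrix Matrix.SpecialLinearGroup ModularCurve.Period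
open Fermat.Agent.S16_helper49 Fermat.Agent.GM.Amalgam
open Fermat.Agent.GM.B Fermat.Agent.GJ.J2.Lat Fermat.Agent.GM.Asm Fermat.Agent.GM.Theta.Outer
open Fermat.Agent.GE9.Adj3 Fermat.Agent.GE9.Fricke Fermat.Agent.GE9.Eta.KPlug
open Fermat.Agent.GE8.RaiseP.DualIhara

/-! ### the level cast -/

section Cast

/-- the level cast `Λ_M ≃ Λ_{M'}` along `M = M'` (identity on the underlying homomorphisms). -/
noncomputable def lamCast {M M' : ℕ} (h : M = M') : Lam M ≃ₗ[ℤ] Lam M' := by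
  subst h
  exact LinearEquiv.refl ℤ (Lam M)

theorem lamCast_rfl {M : ℕ} (x : Lam M) : lamCast (rfl : M = M) x = x := rfl

theorem lamCast_apply {M M' : ℕ} (h : M = M') (x : Lam M) (g : SL(2, ℤ)) (hg : g ∈ Gamma0 M') :
    (lamCast h x : Additive (Gamma0 M') →+ ℤ) (Additive.ofMul ⟨g, hg⟩)
      = (x : Additive (Gamma0 M) →+ ℤ) (Additive.ofMul ⟨g, h ▸ hg⟩) := by
  subst h
  rfl

theorem lamCast_symm_apply {M M' : ℕ} (h : M = M') (x : Lam M') :
    (lamCast h).symm x = lamCast h.symm x := by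
  subst h
  rfl

theorem lamCast_lamCast {M M' : ℕ} (h : M = M') (h' : M' = M) (x : Lam M) :
    lamCast h' (lamCast h x) = x := by
  subst h
  rfl

/-- the cup form does not see the level cast. -/
theorem lamB_lamCast {M M' : ℕ} [NeZero M] [NeZero M'] (h : M = M') (x y : Lam M) :
    lamB M' (lamCast h x) (lamCast h y) = lamB M x y := by
  subst h
  rfl

/-- the Hecke operators do not see the level cast. -/
theorem latT_lamCast {M M' : ℕ} [NeZero M] [NeZero M'] (h : M = M') (l : Nat.Primes)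
    (x : Lam M) : latT M' l (lamCast h x) = lamCast h (latT M l x) := by
  subst h
  rfl

/-- extensionality through the cast. -/
theorem lamCast_eq_of_apply {M M' : ℕ} (h : M = M') (x : Lam M) (y : Lam M')
    (hxy : ∀ (g : SL(2, ℤ)) (hg : g ∈ Gamma0 M') (hg' : g ∈ Gamma0 M),
      (y : Additive (Gamma0 M') →+ ℤ) (Additive.ofMul ⟨g, hg⟩)
        = (x : Additive (Gamma0 M) →+ ℤ) (Additive.ofMul ⟨g, hg'⟩)) :
    lamCast h x = y := by
  apply Subtype.ext
  refine AddMonoidHom.ext fun g => ?_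
  obtain ⟨⟨g, hg⟩, rfl⟩ : ∃ g' : Gamma0 M', Additive.ofMul g' = g := ⟨Additive.toMul g, rfl⟩
  rw [lamCast_apply, hxy g hg (h ▸ hg)]

end Cast

/-! ### `δ_p` and `δ_q` commute -/

section Dlt

theorem dlt_comm {p q : ℕ} (hp : p ≠ 0) (hq : q ≠ 0) : dlt p * dlt q = dlt q * dlt p := by
  ext a b
  fin_cases a <;> fin_cases b <;>
    simp [hp, hq, Matrix.mul_apply, Fin.sum_univ_two, mul_comm]

theorem conj_conj_comm {G : Type*} [Group G] (a b g : G) (h : a * b = b * a) :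
    a * (b * g * b⁻¹) * a⁻¹ = b * (a * g * a⁻¹) * b⁻¹ := by
  have h' : b⁻¹ * a⁻¹ = a⁻¹ * b⁻¹ := by rw [← _root_.mul_inv_rev, ← _root_.mul_inv_rev, h]
  calc a * (b * g * b⁻¹) * a⁻¹ = (a * b) * g * (b⁻¹ * a⁻¹) := by group
    _ = (b * a) * g * (a⁻¹ * b⁻¹) := by rw [h, h']
    _ = b * (a * g * a⁻¹) * b⁻¹ := by group

variable {N q : ℕ} [Fact q.Prime]

/-- `embR (δ g δ⁻¹) = δ · embR g · δ⁻¹`. -/
theorem embR_degenDelta (g : Gamma0 (N * q)) :
    embR ((degenDelta N q g : Gamma0 N) : SL(2, ℤ)) = dlt q * embR (g : SL(2, ℤ)) * (dlt q)⁻¹ := by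
  rw [eq_mul_inv_iff_mul_eq]
  exact (dlt_rel_degenDelta g).symm

end Dlt

/-! ### the `α`-side -/

section AlphaSide

variable {N p q : ℕ} [hpF : Fact p.Prime] [hqF : Fact q.Prime]

/-- the level equality `(N p) q q = (N q q) p`. -/
theorem level_eq (N p q : ℕ) : N * p * q * q = N * q * q * p := by ring

/-- evaluation of `α₀ = res' res`. -/
theorem al0_apply (x : Lam N) (g : Gamma0 (N * q * q)) :
    (al0 N q x : Additive (Gamma0 (N * q * q)) →+ ℤ) (Additive.ofMul g)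
      = (x : Additive (Gamma0 N) →+ ℤ)
          (Additive.ofMul (degenOne N q (degenOne (N * q) q g))) := by
  show ((resP ℤ (N * q) q (resP ℤ N q x) : Lam (N * q * q)) :
    Additive (Gamma0 (N * q * q)) →+ ℤ) (Additive.ofMul g) = _
  rw [resP_coe, res_apply, resP_coe, res_apply]

/-- evaluation of `α₁ = res' res_δ`. -/
theorem al1_apply (x : Lam N) (g : Gamma0 (N * q * q)) :
    (al1 N q x : Additive (Gamma0 (N * q * q)) →+ ℤ) (Additive.ofMul g)
      = (x : Additive (Gamma0 N) →+ ℤ)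
          (Additive.ofMul (degenDelta N q (degenOne (N * q) q g))) := by
  show ((resP ℤ (N * q) q (resDP ℤ N q x) : Lam (N * q * q)) :
    Additive (Gamma0 (N * q * q)) →+ ℤ) (Additive.ofMul g) = _
  rw [resP_coe, res_apply, resDP_coe, resD_apply]

/-- evaluation of `α₂ = res_δ' res_δ`. -/
theorem al2_apply (x : Lam N) (g : Gamma0 (N * q * q)) :
    (al2 N q x : Additive (Gamma0 (N * q * q)) →+ ℤ) (Additive.ofMul g)
      = (x : Additive (Gamma0 N) →+ ℤ)
          (Additive.ofMul (degenDelta N q (degenDelta (N * q) q g))) := by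
  show ((resDP ℤ (N * q) q (resDP ℤ N q x) : Lam (N * q * q)) :
    Additive (Gamma0 (N * q * q)) →+ ℤ) (Additive.ofMul g) = _
  rw [resDP_coe, resD_apply, resDP_coe, resD_apply]

/-- the three component maps `α_m`, as a family. -/
noncomputable def alm (N q : ℕ) [Fact q.Prime] (m : Fin 3) : Lam N →+ Lam (N * q * q) :=
  ![al0 N q, al1 N q, al2 N q] m

/-- the element of `Γ₀(N)` underlying `α_m` at `g ∈ Γ₀(N q²)`. -/
noncomputable def almPt (N q : ℕ) [Fact q.Prime] (m : Fin 3) (g : Gamma0 (N * q * q)) : Gamma0 N :=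
  ![degenOne N q (degenOne (N * q) q g), degenDelta N q (degenOne (N * q) q g),
    degenDelta N q (degenDelta (N * q) q g)] m

theorem alm_apply (m : Fin 3) (x : Lam N) (g : Gamma0 (N * q * q)) :
    (alm N q m x : Additive (Gamma0 (N * q * q)) →+ ℤ) (Additive.ofMul g)
      = (x : Additive (Gamma0 N) →+ ℤ) (Additive.ofMul (almPt N q m g)) := by
  fin_cases m
  · exact al0_apply x g
  · exact al1_apply x g
  · exact al2_apply x g

/-- the conjugating matrix of `α_m` : `1`, `δ_q`, `δ_q²`. -/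
noncomputable def almMat (q : ℕ) (m : Fin 3) : GL (Fin 2) ℝ := ![1, dlt q, dlt q * dlt q] m

theorem embR_almPt (m : Fin 3) (g : Gamma0 (N * q * q)) :
    embR ((almPt N q m g : Gamma0 N) : SL(2, ℤ))
      = almMat q m * embR (g : SL(2, ℤ)) * (almMat q m)⁻¹ := by
  fin_cases m
  · show embR ((degenOne N q (degenOne (N * q) q g) : Gamma0 N) : SL(2, ℤ))
      = 1 * embR (g : SL(2, ℤ)) * 1⁻¹
    rw [degenOne_coe, degenOne_coe, one_mul, inv_one, mul_one]
  · show embR ((degenDelta N q (degenOne (N * q) q g) : Gamma0 N) : SL(2, ℤ))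
      = dlt q * embR (g : SL(2, ℤ)) * (dlt q)⁻¹
    rw [embR_degenDelta, degenOne_coe]
  · show embR ((degenDelta N q (degenDelta (N * q) q g) : Gamma0 N) : SL(2, ℤ))
      = dlt q * dlt q * embR (g : SL(2, ℤ)) * (dlt q * dlt q)⁻¹
    rw [embR_degenDelta, embR_degenDelta]
    group

omit hpF hqF in
theorem almMat_comm (hp : p ≠ 0) (hq : q ≠ 0) (m : Fin 3) :
    dlt p * almMat q m = almMat q m * dlt p := by
  fin_cases m
  · show dlt p * 1 = 1 * dlt p
    rw [mul_one, one_mul]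
  · exact dlt_comm hp hq
  · show dlt p * (dlt q * dlt q) = dlt q * dlt q * dlt p
    rw [← mul_assoc, dlt_comm hp hq, mul_assoc, dlt_comm hp hq, mul_assoc]

omit hpF in
/-- **`α_m ∘ res_p = res_p ∘ α_m`** through the level cast. -/
theorem lamCast_alm_resP (m : Fin 3) (x : Lam N) :
    lamCast (level_eq N p q) (alm (N * p) q m (resP ℤ N p x))
      = resP ℤ (N * q * q) p (alm N q m x) := by
  refine lamCast_eq_of_apply _ _ _ fun g hg hg' => ?_
  rw [resP_coe, res_apply, alm_apply, alm_apply, resP_coe, res_apply]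
  congr 2
  apply Subtype.ext
  apply embR_injective
  rw [degenOne_coe, embR_almPt, embR_almPt, degenOne_coe]

/-- **`α_m ∘ res_{p,δ} = res_{p,δ} ∘ α_m`** through the level cast. -/
theorem lamCast_alm_resDP (m : Fin 3) (x : Lam N) :
    lamCast (level_eq N p q) (alm (N * p) q m (resDP ℤ N p x))
      = resDP ℤ (N * q * q) p (alm N q m x) := by
  refine lamCast_eq_of_apply _ _ _ fun g hg hg' => ?_
  rw [resDP_coe, resD_apply, alm_apply, alm_apply, resDP_coe, resD_apply]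
  congr 2
  apply Subtype.ext
  apply embR_injective
  rw [embR_degenDelta, embR_almPt, embR_almPt, embR_degenDelta]
  exact conj_conj_comm _ _ _ (almMat_comm hpF.out.ne_zero hqF.out.ne_zero m).symm

end AlphaSide

/-! ### the `β`-side -/

section BetaSide

variable {N p q : ℕ} [hpF : Fact p.Prime] [hqF : Fact q.Prime]
  [NeZero N] [NeZero (N * q)] [NeZero (N * q * q)]
  [NeZero (N * p)] [NeZero (N * p * q)] [NeZero (N * p * q * q)] [NeZero (N * q * q * p)]

/-- `⟨α_m x, w⟩ = ⟨x, (β₃ w)_m⟩`. -/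
theorem lamB_alm_beta3 (hqN : ¬ q ∣ N) (m : Fin 3) (x : Lam N) (w : Lam (N * q * q)) :
    lamB (N * q * q) (alm N q m x) w = lamB N x (beta3 hqN w m) := by
  fin_cases m
  · exact lamB_al0_be0 hqN x w
  · exact lamB_al1_be1 hqN x w
  · exact lamB_al2_be2 hqN x w

/-- **the `p`- and `q`-transfers commute**: `cores_p ∘ (β₃^{N p})_m = (β₃^{N})_m ∘ cores_p`
through the level cast. -/
theorem coresP_beta3 (hpN : ¬ p ∣ N) (hqN : ¬ q ∣ N) (hqNp : ¬ q ∣ N * p)
    (hpNqq : ¬ p ∣ N * q * q) (m : Fin 3) (w : Lam (N * p * q * q)) :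
    coresP ℤ hpN (beta3 hqNp w m)
      = beta3 hqN (coresP ℤ hpNqq (lamCast (level_eq N p q) w)) m := by
  rw [← sub_eq_zero]
  refine lamB_right_inj N _ fun x => ?_
  rw [map_sub, ← lamB_resP_coresP hpN, ← lamB_alm_beta3 hqNp, ← lamB_alm_beta3 hqN,
    ← lamB_resP_coresP hpNqq, ← lamCast_alm_resP, lamB_lamCast, sub_self]

/-- the same for `cores_{p,δ}`. -/
theorem coresDP_beta3 (hpN : ¬ p ∣ N) (hqN : ¬ q ∣ N) (hqNp : ¬ q ∣ N * p)
    (hpNqq : ¬ p ∣ N * q * q) (m : Fin 3) (w : Lam (N * p * q * q)) :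
    coresDP ℤ hpN (beta3 hqNp w m)
      = beta3 hqN (coresDP ℤ hpNqq (lamCast (level_eq N p q) w)) m := by
  rw [← sub_eq_zero]
  refine lamB_right_inj N _ fun x => ?_
  rw [map_sub, ← lamB_O1 hpN, ← lamB_alm_beta3 hqNp, ← lamB_alm_beta3 hqN,
    ← lamB_O1 hpNqq, ← lamCast_alm_resDP, lamB_lamCast, sub_self]

/-- **R4-E**: `β_p^{N} ∘ (β₃^{N p, q})_m = ((β₃^{N, q})_m × (β₃^{N, q})_m) ∘ β_p^{N q²}`. -/
theorem betaP_beta3 (hpN : ¬ p ∣ N) (hqN : ¬ q ∣ N) (hqNp : ¬ q ∣ N * p)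
    (hpNqq : ¬ p ∣ N * q * q) (m : Fin 3) (w : Lam (N * p * q * q)) :
    betaP ℤ hpN (beta3 hqNp w m)
      = (beta3 hqN ((betaP ℤ hpNqq (lamCast (level_eq N p q) w)).1) m,
         beta3 hqN ((betaP ℤ hpNqq (lamCast (level_eq N p q) w)).2) m) := by
  rw [betaP_apply, betaP_apply, coresP_beta3 hpN hqN hqNp hpNqq, coresDP_beta3 hpN hqN hqNp hpNqq]

omit [NeZero N] [NeZero (N * q)] [NeZero (N * q * q)] [NeZero (N * p)] [NeZero (N * p * q)]
  [NeZero (N * p * q * q)] [NeZero (N * q * q * p)] in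
/-- the side conditions from `p ≠ q`. -/
theorem not_dvd_mul_of_ne (hqN : ¬ q ∣ N) (hpq : p ≠ q) : ¬ q ∣ N * p := by
  intro h
  rcases (Nat.Prime.dvd_mul hqF.out).mp h with h1 | h1
  · exact hqN h1
  · exact hpq ((Nat.prime_dvd_prime_iff_eq hqF.out hpF.out).mp h1).symm

omit [NeZero N] [NeZero (N * q)] [NeZero (N * q * q)] [NeZero (N * p)] [NeZero (N * p * q)]
  [NeZero (N * p * q * q)] [NeZero (N * q * q * p)] in
theorem not_dvd_mul_sq_of_ne (hpN : ¬ p ∣ N) (hpq : p ≠ q) : ¬ p ∣ N * q * q := by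
  intro h
  rcases (Nat.Prime.dvd_mul hpF.out).mp h with h1 | h1
  · rcases (Nat.Prime.dvd_mul hpF.out).mp h1 with h2 | h2
    · exact hpN h2
    · exact hpq ((Nat.prime_dvd_prime_iff_eq hpF.out hqF.out).mp h2)
  · exact hpq ((Nat.prime_dvd_prime_iff_eq hpF.out hqF.out).mp h1)

end BetaSide

end Fermat.Agent.GE9.Eta.DualIhara2
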