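/-
GATE-E / GE9-ETA-LOC-LAM-U (helper5): **the O1 addendum of helper2's node table (board 7190), part 1**
— the Hecke operators on the image of `α₃ ⊗ O`, over ANY commutative ring `O`, on the model
`O ⊗[ℤ] Lam N` of `GE9/Eta/LocLam` (`alpha3O`), from helper37's `ℤ`-level `GE9/Adj3U`:

* `latT_alComp`, `latT_alpha3O` : `(T_ℓ ⊗ O) (α₃^O u) = α₃^O ((T_ℓ ⊗ O) ∘ u)` for EVERY prime `ℓ ≠ q`
  (`U_ℓ`, `ℓ ∣ N`, included);
* `uq_alpha3O` : `(U_q ⊗ O) (α₃^O u) = α₀^O (T_q u₀) − α₁^O u₀ + q • α₀^O u₁ + q • α₁^O u₂`;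
* `uq_raise3O` : `T_q^O x = a • x` (`a : O`) ⟹ `(U_q ⊗ O) (α₃^O (v3 q a ⊗ x)) = 0`;
* `raise3O_mem_eigenTensor` : **`hmem` of the assembly O2** — if `x ∈ eigenTensor N O lam` then
  `α₃^O (v3 q (lam q) ⊗ x) ∈ eigenTensor (N q q) O (Function.update lam q 0)`;
  `raise3_mem_eigenTensor` : the same for a family, in the spelling of `Eta/Three.raise3`.
-/
import Mathlib
import Fermat.Agent.GE9.Eta.LocLam
import Fermat.Agent.GE9.Adj3U.EquivDvd

set_option autoImplicit false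
set_option linter.unusedSectionVars false

open scoped TensorProduct

namespace Fermat.Agent.GE9.Eta.LocLamU

open Fermat.Agent.GJ.J2.Lat Fermat.Agent.GM.Asm Fermat.Agent.GE9.Adj3 Fermat.Agent.GE9.Adj3U
  Fermat.Agent.GE9.Eta.LocLam

variable {N q : ℕ} [Fact q.Prime] [NeZero N] [NeZero (N * q)] [NeZero (N * q * q)]

/-! ### the components of `α₃` over `ℤ` -/

theorem alComp_apply (m : Fin 3) (x : Lam N) :
    alComp N q m x = alpha3 N q (Pi.single m x) := rfl

theorem alComp_zero_apply (x : Lam N) : alComp N q 0 x = al0 N q x := by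
  rw [alComp_apply, alpha3_apply]
  simp

theorem alComp_one_apply (x : Lam N) : alComp N q 1 x = al1 N q x := by
  rw [alComp_apply, alpha3_apply]
  simp

theorem alComp_two_apply (x : Lam N) : alComp N q 2 x = al2 N q x := by
  rw [alComp_apply, alpha3_apply]
  simp

/-- `T_ℓ ∘ α_m = α_m ∘ T_ℓ` for every prime `ℓ ≠ q`. -/
theorem latT_alComp (l : Nat.Primes) (hlq : (l : ℕ) ≠ q) (m : Fin 3) :
    (latT (N * q * q) l).comp (alComp N q m) = (alComp N q m).comp (latT N l) := by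
  refine LinearMap.ext fun x => ?_
  rw [LinearMap.comp_apply, LinearMap.comp_apply, alComp_apply, alComp_apply,
    latT_alpha3_ne l hlq]
  congr 1
  funext m'
  by_cases h : m' = m
  · subst h
    rw [Pi.single_eq_same, Pi.single_eq_same]
  · rw [Pi.single_eq_of_ne h, Pi.single_eq_of_ne h, map_zero]

/-- `U_q ∘ α₀ = α₀ ∘ T_q − α₁`. -/
theorem uq_alComp_zero (hqN : ¬ q ∣ N) (hq : q.Prime) :
    (latT (N * q * q) (⟨q, hq⟩ : Nat.Primes)).comp (alComp N q 0)
      = (alComp N q 0).comp (latT N (⟨q, hq⟩ : Nat.Primes)) - alComp N q 1 := by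
  refine LinearMap.ext fun x => ?_
  rw [LinearMap.comp_apply, LinearMap.sub_apply, LinearMap.comp_apply, alComp_zero_apply,
    alComp_zero_apply, alComp_one_apply, uq_al0 hqN hq, ← tqLin_eq_latT hqN hq]
  rfl

/-- `U_q ∘ α₁ = q • α₀`. -/
theorem uq_alComp_one (hq : q.Prime) :
    (latT (N * q * q) (⟨q, hq⟩ : Nat.Primes)).comp (alComp N q 1)
      = (q : ℤ) • alComp N q 0 := by
  refine LinearMap.ext fun x => ?_
  rw [LinearMap.comp_apply, LinearMap.smul_apply, alComp_zero_apply, alComp_one_apply,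
    uq_al1 hq, natCast_zsmul]

/-- `U_q ∘ α₂ = q • α₁`. -/
theorem uq_alComp_two (hq : q.Prime) :
    (latT (N * q * q) (⟨q, hq⟩ : Nat.Primes)).comp (alComp N q 2)
      = (q : ℤ) • alComp N q 1 := by
  refine LinearMap.ext fun x => ?_
  rw [LinearMap.comp_apply, LinearMap.smul_apply, alComp_one_apply, alComp_two_apply,
    uq_al2 hq, natCast_zsmul]

/-! ### over `O` -/

section OverO

variable {O : Type*} [CommRing O]

/-- base change of a composition, applied. -/
theorem baseChange_comp_apply {Λ₁ Λ₂ Λ₃ : Type*} [AddCommGroup Λ₁] [AddCommGroup Λ₂]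
    [AddCommGroup Λ₃] (g : Λ₂ →ₗ[ℤ] Λ₃) (f : Λ₁ →ₗ[ℤ] Λ₂) (y : O ⊗[ℤ] Λ₁) :
    g.baseChange O (f.baseChange O y) = (g.comp f).baseChange O y := by
  rw [LinearMap.baseChange_comp, LinearMap.comp_apply]

/-- **`(T_ℓ ⊗ O) ∘ α₃^O = α₃^O ∘ (T_ℓ ⊗ O)`** for every prime `ℓ ≠ q`. -/
theorem latT_alpha3O (l : Nat.Primes) (hlq : (l : ℕ) ≠ q) (u : Fin 3 → O ⊗[ℤ] Lam N) :
    (latT (N * q * q) l).baseChange O (alpha3O N q O u)
      = alpha3O N q O (fun m => (latT N l).baseChange O (u m)) := by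
  rw [alpha3O_apply, alpha3O_apply, map_sum]
  refine Finset.sum_congr rfl fun m _ => ?_
  rw [baseChange_comp_apply, latT_alComp l hlq m, ← baseChange_comp_apply]

/-- **`U_q ⊗ O` on the image of `α₃^O`.** -/
theorem uq_alpha3O (hqN : ¬ q ∣ N) (hq : q.Prime) (u : Fin 3 → O ⊗[ℤ] Lam N) :
    (latT (N * q * q) (⟨q, hq⟩ : Nat.Primes)).baseChange O (alpha3O N q O u)
      = (alComp N q 0).baseChange O ((latT N (⟨q, hq⟩ : Nat.Primes)).baseChange O (u 0))
        - (alComp N q 1).baseChange O (u 0)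
        + ((q : ℕ) : O) • (alComp N q 0).baseChange O (u 1)
        + ((q : ℕ) : O) • (alComp N q 1).baseChange O (u 2) := by
  have hz : ∀ (f : Lam N →ₗ[ℤ] Lam (N * q * q)) (y : O ⊗[ℤ] Lam N),
      (((q : ℤ)) • f).baseChange O y = ((q : ℕ) : O) • f.baseChange O y := by
    intro f y
    rw [LinearMap.baseChange_smul, LinearMap.smul_apply, ← Int.cast_smul_eq_zsmul O,
      Int.cast_natCast]
  rw [alpha3O_apply, Fin.sum_univ_three, map_add, map_add, baseChange_comp_apply,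
    baseChange_comp_apply, baseChange_comp_apply, uq_alComp_zero hqN hq, uq_alComp_one hq,
    uq_alComp_two hq, LinearMap.baseChange_sub, LinearMap.sub_apply, ← baseChange_comp_apply,
    hz, hz]

/-- **`U_q ⊗ O` kills `α₃^O (v3 q a ⊗ x)`** for a `T_q ⊗ O`-eigenvector `x` of eigenvalue `a : O`. -/
theorem uq_raise3O (hqN : ¬ q ∣ N) (hq : q.Prime) (x : O ⊗[ℤ] Lam N) (a : O)
    (hT : (latT N (⟨q, hq⟩ : Nat.Primes)).baseChange O x = a • x) :
    (latT (N * q * q) (⟨q, hq⟩ : Nat.Primes)).baseChange O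
      (alpha3O N q O (fun m => Fermat.Agent.GE9.Eta.v3 ((q : ℕ) : O) a m • x)) = 0 := by
  rw [uq_alpha3O hqN hq]
  have h0 : Fermat.Agent.GE9.Eta.v3 ((q : ℕ) : O) a 0 = ((q : ℕ) : O) := rfl
  have h1 : Fermat.Agent.GE9.Eta.v3 ((q : ℕ) : O) a 1 = -a := rfl
  have h2 : Fermat.Agent.GE9.Eta.v3 ((q : ℕ) : O) a 2 = 1 := rfl
  simp only [h0, h1, h2, map_smul, hT, map_neg, neg_smul, smul_neg, one_smul]
  module

/-- the raised vector, in the spelling of `Eta/Three.raise3`. -/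
theorem raise3_alpha3O_apply (a : O) {d : ℕ} (b : Fin d → O ⊗[ℤ] Lam N) (i : Fin d) :
    Fermat.Agent.GE9.Eta.raise3 (alpha3O N q O) ((q : ℕ) : O) a b i
      = alpha3O N q O (fun m => Fermat.Agent.GE9.Eta.v3 ((q : ℕ) : O) a m • b i) := rfl

end OverO

/-! ### `hmem` : the raised family lies in the new eigenspace -/

section HMem

open Fermat.Agent.GE9.Mult1

variable {O : Type*} [CommRing O] [IsDomain O] [CharZero O]

/-- **`hmem`** : if `x` is an eigenvector for the integer eigensystem `lam` at level `N`, then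
`α₃^O (v3 q (lam q) ⊗ x)` is an eigenvector at level `N q²` for `lam` with `lam q` replaced by `0`. -/
theorem raise3O_mem_eigenTensor (hqN : ¬ q ∣ N) (hq : q.Prime) (lam : Nat.Primes → ℤ)
    {x : O ⊗[ℤ] Lam N} (hx : x ∈ eigenTensor N O lam) :
    alpha3O N q O (fun m => Fermat.Agent.GE9.Eta.v3 ((q : ℕ) : O)
        (((lam (⟨q, hq⟩ : Nat.Primes) : ℤ) : O)) m • x)
      ∈ eigenTensor (N * q * q) O (Function.update lam (⟨q, hq⟩ : Nat.Primes) 0) := by
  rw [mem_eigenTensor] at hx ⊢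
  intro l
  by_cases hl : l = (⟨q, hq⟩ : Nat.Primes)
  · have hupd : Function.update lam (⟨q, hq⟩ : Nat.Primes) 0 l = 0 := by
      rw [hl]
      exact Function.update_self _ _ _
    rw [hupd, Int.cast_zero, zero_smul, hl]
    exact uq_raise3O hqN hq x _ (hx _)
  · have hlq : (l : ℕ) ≠ q := fun h => hl (Subtype.ext h)
    rw [Function.update_of_ne hl, latT_alpha3O l hlq]
    simp only [map_smul, hx l]
    rw [← map_smul]
    congr 1
    funext m
    rw [Pi.smul_apply, smul_comm]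

/-- `hmem` for a family, in the spelling of `Eta/Three.raise3`. -/
theorem raise3_mem_eigenTensor (hqN : ¬ q ∣ N) (hq : q.Prime) (lam : Nat.Primes → ℤ)
    {d : ℕ} (b : Fin d → O ⊗[ℤ] Lam N) (hb : ∀ i, b i ∈ eigenTensor N O lam) (i : Fin d) :
    Fermat.Agent.GE9.Eta.raise3 (alpha3O N q O) ((q : ℕ) : O)
        (((lam (⟨q, hq⟩ : Nat.Primes) : ℤ) : O)) b i
      ∈ eigenTensor (N * q * q) O (Function.update lam (⟨q, hq⟩ : Nat.Primes) 0) := by
  rw [raise3_alpha3O_apply]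
  exact raise3O_mem_eigenTensor hqN hq lam (hb i)

end HMem

end Fermat.Agent.GE9.Eta.LocLamU
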