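/-
GATE-E / GE9-ETA-LOC-LAM-FR (helper5): **the O1 addendum of helper2's node table (board 7190), part 2**
— the FRICKE-TWISTED cup form over `O` on the model `O ⊗[ℤ] Lam M`, from helper2's `GE9/Fricke`
(Z1, Z2, Z5) and the abstract `GE9/Eta/LocTw`.

* `frL M : Lam M →ₗ[ℤ] Lam M`, `frO M O := (frL M).baseChange O`, `frO_frO`;
* `BW M O := twForm O (lamB M) (frL M)`, i.e. `BW x y = lamBO x (frO y)`;
* `perfect_BW` (`hperf`), `BW_latT` : `BW (T_ℓ x) y = BW x (T_ℓ y)` for EVERY prime `ℓ` (`U_ℓ` included),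
  `BW_skew`;
* `frO_latT` : `frO` commutes with `T_ℓ ⊗ O`, `ℓ ∤ M`; `frO_alpha3O` : Z5 over `O`;
* **`BW_raise3`** : `T_q^O y = a • y` ⟹
  `BW' (α₃^O (v3 q a ⊗ x)) (α₃^O (v3 q a ⊗ y)) = (q − 1) ((1 + q)² − a²) · BW x y`
  — the binder `h` of `Eta/Abstract.card_congMod_growth` with `c = (q − 1) ((1 + q)² − a²)`;
* `card_congMod_growth_BW` : plug.
-/
import Mathlib
import Fermat.Agent.GE9.Eta.LocTw
import Fermat.Agent.GE9.Eta.LocLamU
import Fermat.Agent.GE9.Fricke.Adjoint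
import Fermat.Agent.GE9.Fricke.Alpha3

set_option autoImplicit false
set_option linter.unusedSectionVars false

open scoped TensorProduct

namespace Fermat.Agent.GE9.Eta.LocLamFr

open Fermat.Agent.GJ.J2.Lat Fermat.Agent.GM.Asm Fermat.Agent.GM.Theta.Outer
  Fermat.Agent.GE9.Adj3 Fermat.Agent.GE9.Fricke
  Fermat.Agent.GE9.Eta.Loc Fermat.Agent.GE9.Eta.LocLam Fermat.Agent.GE9.Eta.LocTw
  Fermat.Agent.GE9.Eta.LocLamU

/-! ### one level -/

section Level

variable (M : ℕ) [NeZero M] (O : Type*) [CommRing O]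

/-- the Fricke involution of `Lam M` as a `ℤ`-linear map. -/
noncomputable def frL : Lam M →ₗ[ℤ] Lam M := (frP M ℤ).toIntLinearMap

theorem frL_apply (x : Lam M) : frL M x = frP M ℤ x := rfl

theorem frL_comp_frL : (frL M).comp (frL M) = LinearMap.id :=
  LinearMap.ext fun x => frP_frP x

/-- the Fricke involution of `O ⊗[ℤ] Lam M`. -/
noncomputable def frO : (O ⊗[ℤ] Lam M) →ₗ[O] (O ⊗[ℤ] Lam M) := (frL M).baseChange O

/-- **the Fricke-twisted cup form over `O`** : `BW x y = ⟨x, W y⟩`. -/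
noncomputable def BW : (O ⊗[ℤ] Lam M) →ₗ[O] (O ⊗[ℤ] Lam M) →ₗ[O] O :=
  twForm O (lamB M) (frL M)

variable {M O}

theorem BW_apply (x y : O ⊗[ℤ] Lam M) : BW M O x y = lamBO M O x (frO M O y) := rfl

theorem frO_frO (x : O ⊗[ℤ] Lam M) : frO M O (frO M O x) = x := by
  unfold frO
  rw [baseChange_comp_apply, frL_comp_frL, LinearMap.baseChange_id, LinearMap.id_apply]

theorem frO_one_tmul (x : Lam M) : frO M O ((1 : O) ⊗ₜ x) = (1 : O) ⊗ₜ frP M ℤ x :=
  LinearMap.baseChange_tmul _ _ _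

variable (M O)

/-- **`hperf`** for the Fricke-twisted form. -/
theorem perfect_BW : Perfect (BW M O) :=
  perfect_twForm (lamB M) (lamB_bijective M) (frL M) (frL_comp_frL M)

variable {M O}

/-- **the FULL Hecke algebra is self-adjoint for `BW`** : every prime `ℓ`. -/
theorem BW_latT (l : Nat.Primes) (x y : O ⊗[ℤ] Lam M) :
    BW M O ((latT M l).baseChange O x) y = BW M O x ((latT M l).baseChange O y) :=
  twForm_selfAdjoint (lamB M) (frL M) (latT M l) (fun u v => lamB_latT_frP l u v) x y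

/-- `BW` is skew-symmetric. -/
theorem BW_skew (x y : O ⊗[ℤ] Lam M) : BW M O x y = - BW M O y x :=
  twForm_skew (lamB M) (frL M) (fun u v => by
    rw [frL_apply, frL_apply, lamB_skew M u, lamB_frP_left]) x y

/-- `frO` commutes with `T_ℓ ⊗ O`, `ℓ ∤ M`. -/
theorem frO_latT (l : Nat.Primes) (hlM : ¬ (l : ℕ) ∣ M) (x : O ⊗[ℤ] Lam M) :
    frO M O ((latT M l).baseChange O x) = (latT M l).baseChange O (frO M O x) := by
  unfold frO
  rw [baseChange_comp_apply, baseChange_comp_apply]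
  congr 2
  exact LinearMap.ext fun u => frP_latT_of_not_dvd l hlM u

end Level

/-! ### two levels : `α₃` -/

section Alpha3

variable {N q : ℕ} [Fact q.Prime] [NeZero N] [NeZero (N * q)] [NeZero (N * q * q)]
variable {O : Type*} [CommRing O]

/-- `W ∘ α_m = α_{2 - m} ∘ W` over `ℤ`. -/
theorem frL_alComp (m : Fin 3) :
    (frL (N * q * q)).comp (alComp N q m) = (alComp N q (Fin.rev m)).comp (frL N) := by
  refine LinearMap.ext fun x => ?_
  rw [LinearMap.comp_apply, LinearMap.comp_apply, frL_apply, frL_apply]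
  fin_cases m
  · show frP (N * q * q) ℤ (alComp N q 0 x) = alComp N q 2 (frP N ℤ x)
    rw [alComp_zero_apply, alComp_two_apply, frP_al0]
  · show frP (N * q * q) ℤ (alComp N q 1 x) = alComp N q 1 (frP N ℤ x)
    rw [alComp_one_apply, alComp_one_apply, frP_al1]
  · show frP (N * q * q) ℤ (alComp N q 2 x) = alComp N q 0 (frP N ℤ x)
    rw [alComp_two_apply, alComp_zero_apply, frP_al2]

/-- **Z5 over `O`** : `W (α₃^O u) = α₃^O (W ∘ u ∘ rev)`. -/
theorem frO_alpha3O (u : Fin 3 → O ⊗[ℤ] Lam N) :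
    frO (N * q * q) O (alpha3O N q O u)
      = alpha3O N q O (fun m => frO N O (u (Fin.rev m))) := by
  rw [alpha3O_apply, alpha3O_apply, map_sum]
  rw [← Equiv.sum_comp Fin.revPerm
    (fun m => (alComp N q m).baseChange O (frO N O (u (Fin.rev m))))]
  refine Finset.sum_congr rfl fun m _ => ?_
  show frO (N * q * q) O ((alComp N q m).baseChange O (u m))
    = (alComp N q (Fin.rev m)).baseChange O (frO N O (u (Fin.rev (Fin.rev m))))
  unfold frO
  rw [Fin.rev_rev, baseChange_comp_apply, baseChange_comp_apply, frL_alComp]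

/-- **the twisted Gram identity on the raised vectors.** -/
theorem BW_raise3 (hqN : ¬ q ∣ N) (hq : q.Prime) (a : O) (x y : O ⊗[ℤ] Lam N)
    (hy : (latT N (⟨q, hq⟩ : Nat.Primes)).baseChange O y = a • y) :
    BW (N * q * q) O
        (alpha3O N q O (fun m => Fermat.Agent.GE9.Eta.v3 ((q : ℕ) : O) a m • x))
        (alpha3O N q O (fun m => Fermat.Agent.GE9.Eta.v3 ((q : ℕ) : O) a m • y))
      = ((((q : ℕ) : O) - 1) * ((1 + ((q : ℕ) : O)) ^ 2 - a ^ 2)) * BW N O x y := by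
  have hq' : ¬ (((⟨q, hq⟩ : Nat.Primes) : ℕ)) ∣ N := hqN
  have hWy : (latT N (⟨q, hq⟩ : Nat.Primes)).baseChange O (frO N O y) = a • frO N O y := by
    rw [← frO_latT (⟨q, hq⟩ : Nat.Primes) hq', hy, map_smul]
  have hterm : ∀ m n : Fin 3,
      lamBO N O (Fermat.Agent.GE9.Eta.v3 ((q : ℕ) : O) a m • x)
          (Fermat.Agent.GE9.Eta.A3op ((q : ℕ) : O)
            ((latT N (⟨q, hq⟩ : Nat.Primes)).baseChange O) m n
            (frO N O (Fermat.Agent.GE9.Eta.v3 ((q : ℕ) : O) a (Fin.rev n) • y)))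
        = (Fermat.Agent.GE9.Eta.v3 ((q : ℕ) : O) a m
            * Fermat.Agent.GE9.Eta.v3 ((q : ℕ) : O) a (Fin.rev n)
            * Fermat.Agent.GE9.Eta.A3 ((q : ℕ) : O) a m n) * lamBO N O x (frO N O y) := by
    intro m n
    rw [map_smul (frO N O), map_smul (Fermat.Agent.GE9.Eta.A3op ((q : ℕ) : O)
        ((latT N (⟨q, hq⟩ : Nat.Primes)).baseChange O) m n),
      Fermat.Agent.GE9.Eta.A3op_apply_of_eigen _ _ hWy]
    simp only [map_smul, LinearMap.smul_apply, smul_eq_mul]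
    ring
  have hs : ∑ m : Fin 3, ∑ n : Fin 3,
      Fermat.Agent.GE9.Eta.v3 ((q : ℕ) : O) a m
        * Fermat.Agent.GE9.Eta.v3 ((q : ℕ) : O) a (Fin.rev n)
        * Fermat.Agent.GE9.Eta.A3 ((q : ℕ) : O) a m n
      = (((q : ℕ) : O) - 1) * ((1 + ((q : ℕ) : O)) ^ 2 - a ^ 2) := by
    have r0 : Fin.rev (0 : Fin 3) = 2 := rfl
    have r1 : Fin.rev (1 : Fin 3) = 1 := rfl
    have r2 : Fin.rev (2 : Fin 3) = 0 := rfl
    simp only [Fin.sum_univ_three, r0, r1, r2]
    simp [Fermat.Agent.GE9.Eta.v3, Fermat.Agent.GE9.Eta.A3]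
    ring
  rw [BW_apply, frO_alpha3O, lamBO_alpha3O hqN hq]
  simp only [hterm]
  simp only [← Finset.sum_mul]
  rw [hs, BW_apply]

end Alpha3

/-! ### plug : growth of the congruence module for the twisted forms -/

section Plug

open Submodule

variable {N q : ℕ} [Fact q.Prime] [NeZero N] [NeZero (N * q)] [NeZero (N * q * q)]
variable {O : Type*} [CommRing O] [IsDomain O] [IsDiscreteValuationRing O]
  [Finite (IsLocalRing.ResidueField O)]

/-- **`Eta/Abstract.card_congMod_growth` for the Fricke-twisted forms** : the Gram binder `h` is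
discharged by `BW_raise3`, with `c = (q − 1) ((1 + q)² − a²)`. -/
theorem card_congMod_growth_BW (hqN : ¬ q ∣ N) (hq : q.Prime) (a : O)
    {d : ℕ} (b : Fin d → O ⊗[ℤ] Lam N)
    (hT : ∀ j, (latT N (⟨q, hq⟩ : Nat.Primes)).baseChange O (b j) = a • b j)
    (hc : (((q : ℕ) : O) - 1) * ((1 + ((q : ℕ) : O)) ^ 2 - a ^ 2) ≠ 0)
    (hext : ∀ r : Fin d → O, ∃ x : O ⊗[ℤ] Lam N, ∀ i, BW N O (b i) x = r i)
    (hext' : ∀ r : Fin d → O, ∃ x : O ⊗[ℤ] Lam (N * q * q), ∀ i,
      BW (N * q * q) O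
        (Fermat.Agent.GE9.Eta.raise3 (alpha3O N q O) ((q : ℕ) : O) a b i) x = r i)
    (hdet : (Fermat.Agent.GE9.Eta.gram (BW N O) b).det ≠ 0) :
    Nat.card (Fermat.Agent.GE9.Eta.CongMod (BW (N * q * q) O)
        (span O (Set.range
          (Fermat.Agent.GE9.Eta.raise3 (alpha3O N q O) ((q : ℕ) : O) a b)))) =
      Nat.card (Fermat.Agent.GE9.Eta.CongMod (BW N O) (span O (Set.range b))) *
        Nat.card (O ⧸ Ideal.span
          {(((q : ℕ) : O) - 1) * ((1 + ((q : ℕ) : O)) ^ 2 - a ^ 2)}) ^ d :=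
  Fermat.Agent.GE9.Eta.card_congMod_growth (BW N O) (BW (N * q * q) O) b
    (Fermat.Agent.GE9.Eta.raise3 (alpha3O N q O) ((q : ℕ) : O) a b) _ hc hext hext' hdet
    (fun i j => BW_raise3 hqN hq a (b i) (b j) (hT j))

end Plug

end Fermat.Agent.GE9.Eta.LocLamFr
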