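/-
GATE-E / GE9-ETA (helper2): **the module side of the induction over `Σ`, iterated** — the invariant
`EtaStage` and the number `omegaCard` at EVERY stage level `N_Σ = M ∏_{q ∈ Σ} q²`
(`= GE/Engine/Top.levOf M Σ` by `rfl`), from the base `EtaStage M O lam d` (`GE9/Eta/Base`).

* `lamAt lam Sg` : the eigensystem of the stage `Sg` (`0` at the primes of `Sg`, `lam` elsewhere);
* `EtaStage.congr_level`, `omegaCard_congr_level` : transport along an equality of levels;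
* **`etaStage_lev`** : `EtaStage N O (lamAt lam Sg) d` for every `N = M ∏_{q ∈ Sg} q²`;
* **`omegaCard_lev_insert`** : `#Ω_{Sg ∪ {q}} = #Ω_{Sg} · #(O ⧸ wilesFactor f q) ^ d` — the `heta`
  binder of `GE9/Stage/Step.exists_stepInputFL'` with `w' := omegaCard …` (in fact an equality).

The non-Eisenstein input is ONE binder `hne`: outside any finite set there is a prime `l ≡ 1 (q)`
with `lam l − (l + 1)` a unit (`GE9/Ihara2/NonEisOne.exists_prime_one_mod_noFixed` + Eichler–Shimura).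
-/
import Mathlib
import Fermat.Agent.GE9.Eta.ModStage
import Fermat.Agent.GE.Engine.LevArith

set_option autoImplicit false
set_option linter.unusedSectionVars false

open scoped TensorProduct

namespace Fermat.Agent.GE9.Eta.Chain

open Fermat.Agent.GJ.J2.Lat Fermat.Agent.GE9.Eta Fermat.Agent.GE9.Eta.Mod
  Fermat.Agent.GE9.Mult1 Fermat.Agent.GE.Engine.LevArith Submodule

section Defs

variable {O : Type*} [CommRing O]

open Classical in
/-- the eigensystem of the stage `Sg`: `U_q = 0` at the primes of `Sg`. -/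
noncomputable def lamAt (lam : Nat.Primes → O) (Sg : Finset ℕ) : Nat.Primes → O :=
  fun l => if (l : ℕ) ∈ Sg then 0 else lam l

theorem lamAt_of_mem (lam : Nat.Primes → O) {Sg : Finset ℕ} {l : Nat.Primes}
    (h : (l : ℕ) ∈ Sg) : lamAt lam Sg l = 0 := by
  unfold lamAt; rw [if_pos h]

theorem lamAt_of_notMem (lam : Nat.Primes → O) {Sg : Finset ℕ} {l : Nat.Primes}
    (h : (l : ℕ) ∉ Sg) : lamAt lam Sg l = lam l := by
  unfold lamAt; rw [if_neg h]

theorem lamAt_empty (lam : Nat.Primes → O) : lamAt lam ∅ = lam := by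
  funext l
  exact lamAt_of_notMem lam (Finset.notMem_empty _)

theorem lamAt_insert (lam : Nat.Primes → O) (Sg : Finset ℕ) {q : ℕ} (hq : q.Prime) :
    lamAt lam (insert q Sg) = Function.update (lamAt lam Sg) (⟨q, hq⟩ : Nat.Primes) 0 := by
  funext l
  by_cases hl : l = (⟨q, hq⟩ : Nat.Primes)
  · subst hl
    rw [Function.update_self]
    exact lamAt_of_mem lam (Finset.mem_insert_self _ _)
  · rw [Function.update_of_ne hl]
    have hne : (l : ℕ) ≠ q := fun h => hl (Subtype.ext h)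
    by_cases hS : (l : ℕ) ∈ Sg
    · rw [lamAt_of_mem lam hS, lamAt_of_mem lam (Finset.mem_insert_of_mem hS)]
    · rw [lamAt_of_notMem lam hS, lamAt_of_notMem lam]
      rw [Finset.mem_insert]
      exact fun h => h.elim hne hS

end Defs

section Congr

variable {O : Type*} [CommRing O]

theorem EtaStage.congr_level {N N' : ℕ} [NeZero N] [NeZero N'] (h : N = N')
    {lam : Nat.Primes → O} {d : ℕ} (hst : EtaStage N O lam d) : EtaStage N' O lam d := by
  subst h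
  exact hst

theorem omegaCard_congr_level {N N' : ℕ} [NeZero N] [NeZero N'] (h : N = N')
    (lam : Nat.Primes → O) : omegaCard N O lam = omegaCard N' O lam := by
  subst h
  rfl

end Congr

section Chain

variable {O : Type*} [CommRing O] [IsDomain O] [CharZero O] [IsDiscreteValuationRing O]
  [Finite (IsLocalRing.ResidueField O)]
variable {M : ℕ} [NeZero M]

/-- **one step at the stage levels**: from `Sg` to `insert q Sg`. -/
theorem step_lev {p : ℕ} (hp : p.Prime) (hp2 : p ≠ 2)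
    {ϖ : O} (hϖ : Irreducible ϖ) (hpϖ : ∃ c : O, (p : O) = ϖ * c)
    (lam : Nat.Primes → O)
    (hne : ∀ (F : Finset ℕ) (q : ℕ), q.Prime → ∃ l : Nat.Primes, (l : ℕ) ∉ F ∧
      (((l : ℕ) : ZMod q) = 1) ∧ IsUnit (lam l - (((l : ℕ) : O) + 1)))
    {d : ℕ} (hd : 2 ≤ d)
    (Sg : Finset ℕ) (hSg : ∀ q ∈ Sg, q.Prime)
    {q : ℕ} (hq : q.Prime) (hqS : q ∉ Sg) (hqM : ¬ q ∣ M)
    (f : Matrix (Fin 2) (Fin 2) O) (hf : f.trace = lam (⟨q, hq⟩ : Nat.Primes))
    (hc : Fermat.Agent.GE9.TanGrow.wilesFactor f ((q : ℕ) : O) ≠ 0)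
    (N N' : ℕ) [NeZero N] [NeZero N'] (hN : N = M * ∏ x ∈ Sg, x ^ 2)
    (hN' : N' = M * ∏ x ∈ insert q Sg, x ^ 2)
    (hst : EtaStage N O (lamAt lam Sg) d) :
    EtaStage N' O (lamAt lam (insert q Sg)) d ∧
      omegaCard N' O (lamAt lam (insert q Sg))
        = omegaCard N O (lamAt lam Sg) *
          Nat.card (O ⧸ Ideal.span {Fermat.Agent.GE9.TanGrow.wilesFactor f ((q : ℕ) : O)}) ^ d := by
  have hN'eq : N' = N * q * q := by rw [hN', hN, lev_insert' hqS]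
  have hqN : ¬ q ∣ N := by
    rw [hN]
    exact not_dvd_lev hSg hq hqM hqS
  have : Fact q.Prime := ⟨hq⟩
  have hN0 : N ≠ 0 := NeZero.ne N
  have : NeZero (N * q) := ⟨mul_ne_zero hN0 hq.ne_zero⟩
  have : NeZero (N * q * q) := ⟨mul_ne_zero (mul_ne_zero hN0 hq.ne_zero) hq.ne_zero⟩
  -- the auxiliary primes
  obtain ⟨l, hlF, hlq, hlu⟩ := hne ((N * q).primeFactors ∪ Sg) q hq
  have hlNq : ¬ (l : ℕ) ∣ N * q := fun h => hlF (Finset.mem_union_left _
    (Nat.mem_primeFactors.mpr ⟨l.2, h, mul_ne_zero hN0 hq.ne_zero⟩))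
  have hlS : (l : ℕ) ∉ Sg := fun h => hlF (Finset.mem_union_right _ h)
  have hlN : ¬ (l : ℕ) ∣ N := fun h => hlNq (Dvd.dvd.mul_right h q)
  have ha : IsUnit (lamAt lam Sg l - (((l : ℕ) : O) + 1)) := by
    rw [lamAt_of_notMem lam hlS]; exact hlu
  have hf' : f.trace = lamAt lam Sg (⟨q, hq⟩ : Nat.Primes) := by
    rw [lamAt_of_notMem lam (show ((⟨q, hq⟩ : Nat.Primes) : ℕ) ∉ Sg from hqS)]; exact hf
  obtain ⟨h1, h2⟩ := etaStage_next hqN hq hp hp2 hϖ hpϖ (lamAt lam Sg) l l hlNq hlq hlN ha ha hd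
    f hf' hc hst
  rw [← lamAt_insert lam Sg hq] at h1 h2
  refine ⟨EtaStage.congr_level hN'eq.symm h1, ?_⟩
  rw [omegaCard_congr_level hN'eq (lamAt lam (insert q Sg))]
  exact h2

/-- **`EtaStage` at every stage level.** -/
theorem etaStage_lev {p : ℕ} (hp : p.Prime) (hp2 : p ≠ 2)
    {ϖ : O} (hϖ : Irreducible ϖ) (hpϖ : ∃ c : O, (p : O) = ϖ * c)
    (lam : Nat.Primes → O)
    (hne : ∀ (F : Finset ℕ) (q : ℕ), q.Prime → ∃ l : Nat.Primes, (l : ℕ) ∉ F ∧
      (((l : ℕ) : ZMod q) = 1) ∧ IsUnit (lam l - (((l : ℕ) : O) + 1)))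
    {d : ℕ} (hd : 2 ≤ d) (hbase : EtaStage M O lam d)
    (Sg : Finset ℕ) (hSg : ∀ q ∈ Sg, q.Prime ∧ ¬ q ∣ M)
    (hc : ∀ (q : ℕ) (hq : q.Prime), q ∈ Sg →
      (((q : ℕ) : O) - 1) * ((1 + ((q : ℕ) : O)) ^ 2 - lam (⟨q, hq⟩ : Nat.Primes) ^ 2) ≠ 0)
    (N : ℕ) [NeZero N] (hN : N = M * ∏ x ∈ Sg, x ^ 2) :
    EtaStage N O (lamAt lam Sg) d := by
  induction Sg using Finset.induction_on generalizing N with
  | empty =>
    rw [lamAt_empty]
    have hNM : N = M := by rw [hN, Finset.prod_empty, mul_one]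
    exact EtaStage.congr_level hNM.symm hbase
  | insert q Sg hqS ih =>
    have hq : q.Prime := (hSg q (Finset.mem_insert_self _ _)).1
    have hqM : ¬ q ∣ M := (hSg q (Finset.mem_insert_self _ _)).2
    have hSg' : ∀ x ∈ Sg, x.Prime ∧ ¬ x ∣ M := fun x hx => hSg x (Finset.mem_insert_of_mem hx)
    have hN₀ : M * ∏ x ∈ Sg, x ^ 2 ≠ 0 := lev_ne_zero (NeZero.ne M) fun x hx => (hSg' x hx).1
    have : NeZero (M * ∏ x ∈ Sg, x ^ 2) := ⟨hN₀⟩
    have hst := ih hSg' (fun x hx hxS => hc x hx (Finset.mem_insert_of_mem hxS))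
      (M * ∏ x ∈ Sg, x ^ 2) rfl
    -- the matrix with trace `lam q`
    let f : Matrix (Fin 2) (Fin 2) O := !![lam (⟨q, hq⟩ : Nat.Primes), 0; 0, 0]
    have hf : f.trace = lam (⟨q, hq⟩ : Nat.Primes) := by
      simp [f, Matrix.trace_fin_two]
    have hcf : Fermat.Agent.GE9.TanGrow.wilesFactor f ((q : ℕ) : O) ≠ 0 := by
      rw [Fermat.Agent.GE9.TanGrow.wilesFactor, hf]
      exact hc q hq (Finset.mem_insert_self _ _)
    exact (step_lev hp hp2 hϖ hpϖ lam hne hd Sg (fun x hx => (hSg' x hx).1) hq hqS hqM f hf hcf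
      (M * ∏ x ∈ Sg, x ^ 2) N rfl hN hst).1

/-- **the growth of `#Ω` at the stage levels** (`heta`, as an equality). -/
theorem omegaCard_lev_insert {p : ℕ} (hp : p.Prime) (hp2 : p ≠ 2)
    {ϖ : O} (hϖ : Irreducible ϖ) (hpϖ : ∃ c : O, (p : O) = ϖ * c)
    (lam : Nat.Primes → O)
    (hne : ∀ (F : Finset ℕ) (q : ℕ), q.Prime → ∃ l : Nat.Primes, (l : ℕ) ∉ F ∧
      (((l : ℕ) : ZMod q) = 1) ∧ IsUnit (lam l - (((l : ℕ) : O) + 1)))
    {d : ℕ} (hd : 2 ≤ d) (hbase : EtaStage M O lam d)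
    (Sg : Finset ℕ) (hSg : ∀ q ∈ Sg, q.Prime ∧ ¬ q ∣ M)
    (hc : ∀ (q : ℕ) (hq : q.Prime), q ∈ Sg →
      (((q : ℕ) : O) - 1) * ((1 + ((q : ℕ) : O)) ^ 2 - lam (⟨q, hq⟩ : Nat.Primes) ^ 2) ≠ 0)
    {q : ℕ} (hq : q.Prime) (hqS : q ∉ Sg) (hqM : ¬ q ∣ M)
    (f : Matrix (Fin 2) (Fin 2) O) (hf : f.trace = lam (⟨q, hq⟩ : Nat.Primes))
    (hcf : Fermat.Agent.GE9.TanGrow.wilesFactor f ((q : ℕ) : O) ≠ 0)
    (N N' : ℕ) [NeZero N] [NeZero N'] (hN : N = M * ∏ x ∈ Sg, x ^ 2)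
    (hN' : N' = M * ∏ x ∈ insert q Sg, x ^ 2) :
    omegaCard N' O (lamAt lam (insert q Sg))
        = omegaCard N O (lamAt lam Sg) *
          Nat.card (O ⧸ Ideal.span {Fermat.Agent.GE9.TanGrow.wilesFactor f ((q : ℕ) : O)}) ^ d :=
  (step_lev hp hp2 hϖ hpϖ lam hne hd Sg (fun x hx => (hSg x hx).1) hq hqS hqM f hf hcf N N' hN hN'
    (etaStage_lev hp hp2 hϖ hpϖ lam hne hd hbase Sg hSg hc N hN)).2

end Chain

end Fermat.Agent.GE9.Eta.Chain
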