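/-
GATE-E (S59) / RISK-4 = PNEW-STAGE, leaf R4-B core (helper19, second seat of helper21; plan of
helper80, board 7564; route (O') of helper21, board 7528), Mathlib only:

**the kernel of a surjection between two free modules of the same finite rank over two quotients
of one commutative ring `TT` is `Ann_TT(target) · source`.**

Setting of use: `TT = 𝒪[T_ℓ : ℓ ∉ S₀]`, `X = A'_n`, `Y = A'_{n-1}` (the flat-side stage modules),
`f = t_A : A'_n ↠ A'_{n-1}` the `TT`-linear transfer, `T1 = T_o(n)`, `T2 = T_o(n-1)` the two stage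
carriers (quotients of `TT`), `A'_n` free of rank `r` over `T_o(n)` and `A'_{n-1}` free of rank `r`
over `T_o(n-1)` (flat engine in module form).  Then every `y ∈ ker t_A` is `∑ s_i • b_i` with
`s_i ∈ TT` killing `A'_{n-1}` — the hypothesis (i) of the stage lemma `KerStage`.

* `linearIndependent_of_span_eq_top` : `r` vectors spanning a free module of rank `r` are
  linearly independent (commutative ring, no nontriviality needed);
* `exists_lift_repr`                 : coordinates of `x : X` lifted to `TT`;
* `mem_ker_iff_exists_sum`           : `f x = 0 ↔ x = ∑ s_i • b1_i` with all `s_i ∈ Ann_TT Y`;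
* `ker_le_annihilator_smul_top`, `ker_eq_annihilator_smul_top`.
-/
import Mathlib

set_option autoImplicit false

namespace Fermat.Agent.GE9.Eta.AnnKer

open Module Submodule

/-- `r` vectors spanning a free module of rank `r` over a commutative ring are linearly
independent. -/
theorem linearIndependent_of_span_eq_top {T Y : Type*} [CommRing T] [AddCommGroup Y] [Module T Y]
    {r : ℕ} (b : Basis (Fin r) T Y) (y : Fin r → Y) (hy : span T (Set.range y) = ⊤) :
    LinearIndependent T y := by
  rcases subsingleton_or_nontrivial T with hT | hT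
  · exact linearIndependent_of_subsingleton
  · refine linearIndependent_of_top_le_span_of_card_eq_finrank hy.ge ?_
    rw [finrank_eq_card_basis b]

section Main

variable {TT X Y : Type*} [CommRing TT] [AddCommGroup X] [Module TT X] [AddCommGroup Y]
  [Module TT Y] (f : X →ₗ[TT] Y)
  {T1 T2 : Type*} [CommRing T1] [CommRing T2] [Algebra TT T1] [Algebra TT T2]
  [Module T1 X] [IsScalarTower TT T1 X] [Module T2 Y] [IsScalarTower TT T2 Y]
  {r : ℕ}

/-- coordinates lifted to `TT`. -/
theorem exists_lift_repr (h1 : Function.Surjective (algebraMap TT T1)) (b1 : Basis (Fin r) T1 X)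
    (x : X) : ∃ s : Fin r → TT, x = ∑ i, s i • b1 i := by
  choose g hg using h1
  refine ⟨fun i => g (b1.repr x i), ?_⟩
  conv_lhs => rw [← b1.sum_repr x]
  refine Finset.sum_congr rfl fun i _ => ?_
  rw [← algebraMap_smul T1 (g (b1.repr x i)) (b1 i), hg]

/-- the images of the basis vectors span the target. -/
theorem span_map_basis_eq_top (hf : Function.Surjective f)
    (h1 : Function.Surjective (algebraMap TT T1)) (b1 : Basis (Fin r) T1 X) :
    span T2 (Set.range fun i => f (b1 i)) = ⊤ := by
  rw [eq_top_iff]
  rintro y -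
  obtain ⟨x, rfl⟩ := hf y
  obtain ⟨s, rfl⟩ := exists_lift_repr h1 b1 x
  rw [map_sum]
  refine sum_mem fun i _ => ?_
  rw [map_smul, ← algebraMap_smul T2 (s i) (f (b1 i))]
  exact smul_mem _ _ (subset_span ⟨i, rfl⟩)

/-- **operator form of (i)**: `f x = 0` iff `x = ∑ s_i • b1_i` with every `s_i ∈ TT` killing `Y`. -/
theorem mem_ker_iff_exists_sum (hf : Function.Surjective f)
    (h1 : Function.Surjective (algebraMap TT T1)) (b1 : Basis (Fin r) T1 X)
    (b2 : Basis (Fin r) T2 Y) (x : X) :
    f x = 0 ↔ ∃ s : Fin r → TT, (∀ i, s i ∈ Module.annihilator TT Y) ∧ x = ∑ i, s i • b1 i := by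
  constructor
  · intro hx
    obtain ⟨s, rfl⟩ := exists_lift_repr h1 b1 x
    refine ⟨s, fun i => ?_, rfl⟩
    have hli : LinearIndependent T2 (fun i => f (b1 i)) :=
      linearIndependent_of_span_eq_top b2 _ (span_map_basis_eq_top f hf h1 b1)
    have h2 : ∑ i, algebraMap TT T2 (s i) • f (b1 i) = 0 := by
      rw [← hx, map_sum]
      refine Finset.sum_congr rfl fun i _ => ?_
      rw [map_smul, algebraMap_smul]
    have h3 := Fintype.linearIndependent_iff.1 hli _ h2 i
    rw [Module.mem_annihilator]
    intro y
    rw [← algebraMap_smul T2 (s i) y, h3, zero_smul]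
  · rintro ⟨s, hs, rfl⟩
    rw [map_sum]
    refine Finset.sum_eq_zero fun i _ => ?_
    rw [map_smul]
    exact Module.mem_annihilator.1 (hs i) _

/-- **(i)**: `ker f ≤ Ann_TT(Y) · X`. -/
theorem ker_le_annihilator_smul_top (hf : Function.Surjective f)
    (h1 : Function.Surjective (algebraMap TT T1)) (b1 : Basis (Fin r) T1 X)
    (b2 : Basis (Fin r) T2 Y) :
    LinearMap.ker f ≤ (Module.annihilator TT Y) • (⊤ : Submodule TT X) := by
  intro x hx
  obtain ⟨s, hs, rfl⟩ := (mem_ker_iff_exists_sum f hf h1 b1 b2 x).1 (LinearMap.mem_ker.1 hx)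
  exact sum_mem fun i _ => Submodule.smul_mem_smul (hs i) mem_top

omit [Module T1 X] [IsScalarTower TT T1 X] [Module T2 Y] [IsScalarTower TT T2 Y] in
/-- the trivial inclusion `Ann_TT(Y) · X ≤ ker f`. -/
theorem annihilator_smul_top_le_ker :
    (Module.annihilator TT Y) • (⊤ : Submodule TT X) ≤ LinearMap.ker f := by
  rw [Submodule.smul_le]
  intro s hs x _
  rw [LinearMap.mem_ker, map_smul]
  exact Module.mem_annihilator.1 hs _

/-- **(i), equality form**: `ker f = Ann_TT(Y) · X`. -/
theorem ker_eq_annihilator_smul_top (hf : Function.Surjective f)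
    (h1 : Function.Surjective (algebraMap TT T1)) (b1 : Basis (Fin r) T1 X)
    (b2 : Basis (Fin r) T2 Y) :
    LinearMap.ker f = (Module.annihilator TT Y) • (⊤ : Submodule TT X) :=
  le_antisymm (ker_le_annihilator_smul_top f hf h1 b1 b2) (annihilator_smul_top_le_ker f)

end Main

/-! ### `Module.Free` + `finrank` form -/

section Free

variable {TT X Y : Type*} [CommRing TT] [AddCommGroup X] [Module TT X] [AddCommGroup Y]
  [Module TT Y] (f : X →ₗ[TT] Y)
  {T1 T2 : Type*} [CommRing T1] [CommRing T2] [Algebra TT T1] [Algebra TT T2]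
  [Module T1 X] [IsScalarTower TT T1 X] [Module T2 Y] [IsScalarTower TT T2 Y]

/-- **(i) from `Module.Free` + equal `finrank`** (nontrivial carriers). -/
theorem ker_eq_annihilator_smul_top_of_free [Nontrivial T1] [Nontrivial T2]
    [Module.Free T1 X] [Module.Finite T1 X] [Module.Free T2 Y] [Module.Finite T2 Y]
    (hf : Function.Surjective f) (h1 : Function.Surjective (algebraMap TT T1))
    (hr : finrank T1 X = finrank T2 Y) :
    LinearMap.ker f = (Module.annihilator TT Y) • (⊤ : Submodule TT X) := by
  have b1 : Basis (Fin (finrank T1 X)) T1 X := Module.finBasis T1 X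
  have b2 : Basis (Fin (finrank T1 X)) T2 Y := by
    rw [hr]
    exact Module.finBasis T2 Y
  exact ker_eq_annihilator_smul_top f hf h1 b1 b2

end Free

end Fermat.Agent.GE9.Eta.AnnKer
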