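/-
GATE-E / RISK-2, route (O') (helper21): **input (i) of `KerStage.card_congMod_ker_growth` from
freeness on the flat side** (Mathlib only).

`T` a commutative ring acting on `A'` (the flat Hecke algebra `T_o(Σ')` on `A_{Σ'}`), `I ≤ T` an ideal
(`I = ker (T_o(Σ') → T_o(Σ))`), `t_A : A' → A` a `T`-linear surjection onto a module killed by `I`
(so `A` is a `T ⧸ I`-module).  If `A'` is free of rank `r` over `T` and `A` is free of the same rank
`r` over `T ⧸ I`, then `ker t_A = I • ⊤`.

* `ker_eq_smul_top_of_free` : the statement above;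
* `ker_le_iSup_range` : the same in the spelling of `KerStage.ker_le_map_orth`
  (`ker t_A ≤ ⨆ τ ∈ S, range τ`, `S` = the `O`-linear actions of the elements of `I`).
-/
import Mathlib

set_option autoImplicit false

namespace Fermat.Agent.GE9.Eta.KerFree

open Module Submodule

section Free

variable {T : Type*} [CommRing T] (I : Ideal T) {A' A : Type*} [AddCommGroup A'] [Module T A']
  [AddCommGroup A] [Module T A] [Module (T ⧸ I) A] [IsScalarTower T (T ⧸ I) A]

omit [Module (T ⧸ I) A] [IsScalarTower T (T ⧸ I) A] in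
/-- `I • ⊤ ≤ ker f` when the target is killed by `I`. -/
theorem smul_top_le_ker (f : A' →ₗ[T] A) (hI : ∀ a ∈ I, ∀ y : A, a • y = 0) :
    I • (⊤ : Submodule T A') ≤ LinearMap.ker f := by
  rw [Submodule.smul_le]
  intro a ha m _
  rw [LinearMap.mem_ker, map_smul]
  exact hI a ha _

/-- the images of a basis of `A'` under a surjection onto a free `T ⧸ I`-module of the same rank
are linearly independent over `T ⧸ I`. -/
theorem linearCombination_injective {r : ℕ} (bA' : Basis (Fin r) T A')
    (bA : Basis (Fin r) (T ⧸ I) A) (f : A' →ₗ[T] A) (hf : Function.Surjective f) :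
    Function.Injective (Fintype.linearCombination (T ⧸ I) fun i => f (bA' i)) := by
  set g := Fintype.linearCombination (T ⧸ I) fun i => f (bA' i) with hg
  have hgs : Function.Surjective g := by
    intro y
    obtain ⟨m, rfl⟩ := hf y
    refine ⟨fun i => Ideal.Quotient.mk I (bA'.repr m i), ?_⟩
    rw [hg, Fintype.linearCombination_apply]
    conv_rhs => rw [← bA'.sum_repr m, map_sum]
    refine Finset.sum_congr rfl fun i _ => ?_
    rw [map_smul]
    exact (algebraMap_smul (T ⧸ I) (bA'.repr m i) (f (bA' i)))
  have h := OrzechProperty.injective_of_surjective_endomorphism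
    ((bA.equivFun : A →ₗ[T ⧸ I] (Fin r → T ⧸ I)).comp g)
    (bA.equivFun.surjective.comp hgs)
  intro x y hxy
  apply h
  rw [LinearMap.comp_apply, LinearMap.comp_apply, hxy]

/-- **`ker t_A = I • ⊤`** from freeness of both sides (same rank). -/
theorem ker_eq_smul_top_of_free {r : ℕ} (bA' : Basis (Fin r) T A')
    (bA : Basis (Fin r) (T ⧸ I) A) (f : A' →ₗ[T] A) (hf : Function.Surjective f) :
    LinearMap.ker f = I • (⊤ : Submodule T A') := by
  have hI : ∀ a ∈ I, ∀ y : A, a • y = 0 := by
    intro a ha y
    rw [← algebraMap_smul (T ⧸ I) a y]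
    have : algebraMap T (T ⧸ I) a = 0 := Ideal.Quotient.eq_zero_iff_mem.mpr ha
    rw [this, zero_smul]
  refine le_antisymm ?_ (smul_top_le_ker I f hI)
  intro m hm
  have hinj := linearCombination_injective I bA' bA f hf
  have h0 : Fintype.linearCombination (T ⧸ I) (fun i => f (bA' i))
      (fun i => Ideal.Quotient.mk I (bA'.repr m i)) = 0 := by
    rw [Fintype.linearCombination_apply]
    have h1 : f m = 0 := hm
    conv_rhs => rw [← h1, ← bA'.sum_repr m, map_sum]
    refine Finset.sum_congr rfl fun i _ => ?_
    rw [map_smul]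
    exact (algebraMap_smul (T ⧸ I) (bA'.repr m i) (f (bA' i)))
  have h2 : (fun i => Ideal.Quotient.mk I (bA'.repr m i)) = 0 :=
    hinj (h0.trans (map_zero _).symm)
  have h3 : ∀ i, bA'.repr m i ∈ I := fun i =>
    Ideal.Quotient.eq_zero_iff_mem.mp (congrFun h2 i)
  rw [← bA'.sum_repr m]
  exact Submodule.sum_mem _ fun i _ => Submodule.smul_mem_smul (h3 i) mem_top

end Free

section Spelling

variable {O : Type*} [CommRing O] {T : Type*} [CommRing T] [Algebra O T] (I : Ideal T)
  {A' A : Type*} [AddCommGroup A'] [Module O A'] [Module T A'] [IsScalarTower O T A']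
  [AddCommGroup A] [Module O A]

/-- the `O`-linear action of an element of `T`. -/
def act (a : T) : A' →ₗ[O] A' where
  toFun y := a • y
  map_add' := smul_add a
  map_smul' c y := smul_comm a c y

@[simp] theorem act_apply (a : T) (y : A') : act (O := O) a y = a • y := rfl

/-- `I • ⊤ ≤ ⨆ a ∈ I, range (act a)` (as `O`-submodules). -/
theorem smul_top_le_iSup_range :
    (I • (⊤ : Submodule T A')).restrictScalars O ≤
      ⨆ τ ∈ (Set.range fun a : I => act (O := O) (A' := A') (a : T)), LinearMap.range τ := by
  intro y hy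
  rw [Submodule.restrictScalars_mem] at hy
  refine Submodule.smul_induction_on hy (fun a ha m _ => ?_) (fun x z hx hz => ?_)
  · refine Submodule.mem_iSup_of_mem (act (O := O) a) ?_
    refine Submodule.mem_iSup_of_mem ⟨⟨a, ha⟩, rfl⟩ ?_
    exact ⟨m, rfl⟩
  · exact Submodule.add_mem _ hx hz

/-- **input (i) in the spelling of `KerStage`**: `t_A` is `O`-linear, commutes with the action of
`T` through a `T`-linear twin `f`. -/
theorem ker_le_iSup_range [Module T A] [Module (T ⧸ I) A] [IsScalarTower T (T ⧸ I) A]
    {r : ℕ} (bA' : Basis (Fin r) T A') (bA : Basis (Fin r) (T ⧸ I) A)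
    (f : A' →ₗ[T] A) (hf : Function.Surjective f) (tA : A' →ₗ[O] A) (htA : ∀ y, tA y = f y) :
    LinearMap.ker tA ≤
      ⨆ τ ∈ (Set.range fun a : I => act (O := O) (A' := A') (a : T)), LinearMap.range τ := by
  refine le_trans ?_ (smul_top_le_iSup_range (O := O) I)
  intro y hy
  rw [Submodule.restrictScalars_mem, ← ker_eq_smul_top_of_free I bA' bA f hf, LinearMap.mem_ker,
    ← htA]
  exact hy

end Spelling

end Fermat.Agent.GE9.Eta.KerFree
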