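/-
GATE-E / RISK-2, route (O') (helper21): **the `p`-new stage in Hecke-algebra spelling.**

`𝕋` a commutative `O`-algebra (the abstract anemic Hecke algebra `O[T_ℓ : ℓ ∤ N_Σ' p]`) acting on
`L' = M_{Σ'}` (level `N_Σ' p`) and on `A' = A_{Σ'}²` (level `N_Σ'`, the flat side), `β'` equivariant,
`B'` `𝕋`-adjoint, `g : 𝕋 → O` the `p`-new base point (`b' i` are `g`-eigenvectors), `J ≤ 𝕋` an ideal
(`J = Ann_𝕋 (A_Σ²)`, the annihilator of the flat module of the PREVIOUS stage).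

Inputs from the flat side:
 (i)  `ker t_A ≤ J • A'`                       [`KerFree.ker_le_iSup_range` : freeness of `A_Σ`, `A_Σ'`];
 (ii) `g J ⊆ g (Ann_𝕋 A')`                     [congruence ideals of `g` with the flat Hecke algebras of
       the two stages agree: minimal flat `R = T` + flatness of `ρ_{T_o(Σ')}` + Carayol].
Output: `#Ω(K') = #Ω(K) · #(O ⧸ c) ^ d` for the kernels `K = ker β`, `K' = ker β'`.
-/
import Fermat.Agent.GE9.Eta.KerStage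
import Fermat.Agent.GE9.Eta.KerFree

set_option autoImplicit false

namespace Fermat.Agent.GE9.Eta.KerHecke

open Module Submodule Fermat.Agent.GE9.Eta Fermat.Agent.GE9.Eta.KerFree

section Lift

variable {O : Type*} [CommRing O] {𝕋 : Type*} [CommRing 𝕋] [Algebra O 𝕋]
  {L' A' : Type*} [AddCommGroup L'] [Module O L'] [Module 𝕋 L'] [IsScalarTower O 𝕋 L']
  [AddCommGroup A'] [Module O A'] [Module 𝕋 A'] [IsScalarTower O 𝕋 A']

/-- **(D) in Hecke spelling**: the operators of `J` on `A'` have `B'`-self-adjoint lifts killing the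
`g`-eigenvectors `b' i`, as soon as `g J ⊆ g (Ann A')` (pointwise form `hJ`). -/
theorem exists_lift_of_mem (B' : L' →ₗ[O] L' →ₗ[O] O) {d : ℕ} (b' : Fin d → L')
    (β' : L' →ₗ[O] A') (hβ'eq : ∀ (s : 𝕋) (m : L'), β' (s • m) = s • β' m)
    (hB'adj : ∀ (s : 𝕋) (x y : L'), B' (s • x) y = B' x (s • y))
    (g : 𝕋 →ₐ[O] O) (hg : ∀ (s : 𝕋) (i : Fin d), s • b' i = g s • b' i)
    (J : Ideal 𝕋) (hJ : ∀ s ∈ J, ∃ s₂ : 𝕋, (∀ y : A', s₂ • y = 0) ∧ g s₂ = g s) :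
    ∀ τ ∈ (Set.range fun s : J => act (O := O) (A' := A') (s : 𝕋)),
      ∃ τt : L' →ₗ[O] L', (∀ m, β' (τt m) = τ (β' m)) ∧
        (∀ x y, B' (τt x) y = B' x (τt y)) ∧ ∀ i, τt (b' i) = 0 := by
  rintro _ ⟨⟨s, hs⟩, rfl⟩
  obtain ⟨s₂, h1, h2⟩ := hJ s hs
  refine ⟨act (O := O) (A' := L') (s - s₂), fun m => ?_, fun x y => ?_, fun i => ?_⟩
  · rw [act_apply, act_apply, hβ'eq, sub_smul, h1, sub_zero]
  · rw [act_apply, act_apply, hB'adj]
  · rw [act_apply, hg, map_sub, h2, sub_self, zero_smul]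

omit [Module O A'] [IsScalarTower O 𝕋 A'] in
/-- `hJ` from the inclusion of congruence ideals `g(J) ≤ g(Ann_𝕋 A')`. -/
theorem hJ_of_map_le (g : 𝕋 →ₐ[O] O) (J : Ideal 𝕋)
    (h : Ideal.map (g : 𝕋 →+* O) J ≤
      Ideal.map (g : 𝕋 →+* O) (Module.annihilator 𝕋 A')) :
    ∀ s ∈ J, ∃ s₂ : 𝕋, (∀ y : A', s₂ • y = 0) ∧ g s₂ = g s := by
  intro s hs
  have hsurj : Function.Surjective (g : 𝕋 →+* O) := fun c =>
    ⟨algebraMap O 𝕋 c, by simp⟩
  have h1 : (g : 𝕋 →+* O) s ∈ Ideal.map (g : 𝕋 →+* O) (Module.annihilator 𝕋 A') :=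
    h (Ideal.mem_map_of_mem _ hs)
  obtain ⟨s₂, hs₂, h2⟩ := (Ideal.mem_map_iff_of_surjective _ hsurj).mp h1
  exact ⟨s₂, fun y => Module.mem_annihilator.mp hs₂ y, h2⟩

end Lift

section Stage

variable {O : Type*} [CommRing O] [IsDomain O] [IsDiscreteValuationRing O]
  [Finite (IsLocalRing.ResidueField O)]
  {𝕋 : Type*} [CommRing 𝕋] [Algebra O 𝕋]
  {L L' K₀ K₀' A A' : Type*} [AddCommGroup L] [Module O L] [AddCommGroup L'] [Module O L']
  [AddCommGroup K₀] [Module O K₀] [AddCommGroup K₀'] [Module O K₀']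
  [AddCommGroup A] [Module O A] [AddCommGroup A'] [Module O A']
  [Module 𝕋 L'] [IsScalarTower O 𝕋 L'] [Module 𝕋 A'] [IsScalarTower O 𝕋 A']

/-- **the `p`-new stage, Hecke spelling.** -/
theorem card_congMod_ker_growth_hecke (B : L →ₗ[O] L →ₗ[O] O) (B' : L' →ₗ[O] L' →ₗ[O] O)
    (ι : K₀ →ₗ[O] L) (ι' : K₀' →ₗ[O] L') {d : ℕ} (b : Fin d → L) (b' : Fin d → L')
    (bK : Fin d → K₀) (bK' : Fin d → K₀') (hbK : ∀ i, ι (bK i) = b i)
    (hbK' : ∀ i, ι' (bK' i) = b' i) (c : O) (hc : c ≠ 0) (hdet : (gram B b).det ≠ 0)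
    (h : ∀ i j, B' (b' i) (b' j) = c * B (b i) (b j))
    (t : L' →ₗ[O] L) (ht : Function.Surjective t)
    (hadj : ∀ i y, B' (b' i) y = B (b i) (t y))
    (β : L →ₗ[O] A) (β' : L' →ₗ[O] A') (hβ' : Function.Surjective β') (tA : A' →ₗ[O] A)
    (hcomm : ∀ y, β (t y) = tA (β' y))
    (hι : LinearMap.range ι = LinearMap.ker β) (hι' : LinearMap.range ι' = LinearMap.ker β')
    (hβ'eq : ∀ (s : 𝕋) (m : L'), β' (s • m) = s • β' m)
    (hB'adj : ∀ (s : 𝕋) (x y : L'), B' (s • x) y = B' x (s • y))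
    (g : 𝕋 →ₐ[O] O) (hg : ∀ (s : 𝕋) (i : Fin d), s • b' i = g s • b' i)
    (J : Ideal 𝕋)
    (hJ : Ideal.map (g : 𝕋 →+* O) J ≤
      Ideal.map (g : 𝕋 →+* O) (Module.annihilator 𝕋 A'))
    (hker : LinearMap.ker tA ≤
      ⨆ τ ∈ (Set.range fun s : J => act (O := O) (A' := A') (s : 𝕋)), LinearMap.range τ) :
    Nat.card (CongMod (B'.compl₁₂ ι' ι') (span O (Set.range bK'))) =
      Nat.card (CongMod (B.compl₁₂ ι ι) (span O (Set.range bK))) *
        Nat.card (O ⧸ Ideal.span {c}) ^ d :=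
  KerStage.card_congMod_ker_growth B B' ι ι' b b' bK bK' hbK hbK' c hc hdet h t ht hadj β β' hβ'
    tA hcomm hι hι' _
    (exists_lift_of_mem B' b' β' hβ'eq hB'adj g hg J (hJ_of_map_le g J hJ)) hker

end Stage

end Fermat.Agent.GE9.Eta.KerHecke
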