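/-
GATE-E (S59) / RISK-4 = PNEW-STAGE (helper19, second seat of helper21; plan helper80 7564):
**the `p`-new stage equality with input (i) DISCHARGED from freeness on the flat side.**

`KerHecke.card_congMod_ker_growth_hecke` (helper21) takes
 (i)  `hker : ker t_A ≤ ⨆ τ ∈ range (fun s : J => act s), range τ`   and
 (ii) `hJ : g J ≤ g (Ann_𝕋 A')`.
Here `J := Ann_𝕋 A` (the annihilator of the flat module of the PREVIOUS stage) and (i) is proved by
`AnnKer.ker_le_annihilator_smul_top` from: `t_A : A' ↠ A` `𝕋`-equivariant, `A'` free of rank `r`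
over a carrier `T1` (a quotient of `𝕋`), `A` free of the same rank `r` over a carrier `T2`
(ANY `𝕋`-algebra acting compatibly; no map `T1 → T2`, no literal quotient ring needed).

* `hker_of_free`                      : input (i) for `J = Ann_𝕋 A`;
* `card_congMod_ker_growth_free`      : `#Ω(K') = #Ω(K) · #(O ⧸ c) ^ d` from freeness + (ii);
* `hJ_of_forall`                      : (ii) in pointwise form
  (`∀ s ∈ Ann_𝕋 A, ∃ s₂ ∈ Ann_𝕋 A', g s₂ = g s`) ⟹ the `Ideal.map` form.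
-/
import Fermat.Agent.GE9.Eta.KerHecke
import Fermat.Agent.GE9.Eta.AnnKer

set_option autoImplicit false

namespace Fermat.Agent.GE9.Eta.KerHeckeFree

open Module Submodule Fermat.Agent.GE9.Eta Fermat.Agent.GE9.Eta.KerFree

section Hker

variable {O : Type*} [CommRing O] {𝕋 : Type*} [CommRing 𝕋] [Algebra O 𝕋]
  {A A' : Type*} [AddCommGroup A] [Module O A] [Module 𝕋 A] [IsScalarTower O 𝕋 A]
  [AddCommGroup A'] [Module O A'] [Module 𝕋 A'] [IsScalarTower O 𝕋 A']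
  {T1 T2 : Type*} [CommRing T1] [CommRing T2] [Algebra 𝕋 T1] [Algebra 𝕋 T2]
  [Module T1 A'] [IsScalarTower 𝕋 T1 A'] [Module T2 A] [IsScalarTower 𝕋 T2 A]

/-- the `𝕋`-linear twin of an equivariant `O`-linear map. -/
def linTwin (tA : A' →ₗ[O] A) (htAeq : ∀ (s : 𝕋) (y : A'), tA (s • y) = s • tA y) :
    A' →ₗ[𝕋] A where
  toFun := tA
  map_add' := map_add tA
  map_smul' := htAeq

@[simp] theorem linTwin_apply (tA : A' →ₗ[O] A)
    (htAeq : ∀ (s : 𝕋) (y : A'), tA (s • y) = s • tA y) (y : A') :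
    linTwin tA htAeq y = tA y := rfl

/-- **input (i)** of `card_congMod_ker_growth_hecke` for `J = Ann_𝕋 A`, from freeness. -/
theorem hker_of_free (tA : A' →ₗ[O] A)
    (htAeq : ∀ (s : 𝕋) (y : A'), tA (s • y) = s • tA y) (htA : Function.Surjective tA)
    (h1 : Function.Surjective (algebraMap 𝕋 T1)) {r : ℕ} (b1 : Basis (Fin r) T1 A')
    (b2 : Basis (Fin r) T2 A) :
    LinearMap.ker tA ≤
      ⨆ τ ∈ (Set.range fun s : (Module.annihilator 𝕋 A) =>
        act (O := O) (A' := A') (s : 𝕋)), LinearMap.range τ := by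
  refine le_trans ?_ (smul_top_le_iSup_range (O := O) (Module.annihilator 𝕋 A))
  intro y hy
  rw [Submodule.restrictScalars_mem]
  refine AnnKer.ker_le_annihilator_smul_top (linTwin tA htAeq) htA h1 b1 b2 ?_
  rw [LinearMap.mem_ker, linTwin_apply]
  exact hy

omit [Module O A] [IsScalarTower O 𝕋 A] [Module O A'] [IsScalarTower O 𝕋 A'] in
/-- (ii) from its pointwise form. -/
theorem hJ_of_forall (g : 𝕋 →ₐ[O] O)
    (h : ∀ s ∈ Module.annihilator 𝕋 A, ∃ s₂ ∈ Module.annihilator 𝕋 A', g s₂ = g s) :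
    Ideal.map (g : 𝕋 →+* O) (Module.annihilator 𝕋 A) ≤
      Ideal.map (g : 𝕋 →+* O) (Module.annihilator 𝕋 A') := by
  rw [Ideal.map_le_iff_le_comap]
  intro s hs
  obtain ⟨s₂, hs₂, h2⟩ := h s hs
  rw [Ideal.mem_comap]
  have : (g : 𝕋 →+* O) s = (g : 𝕋 →+* O) s₂ := h2.symm
  rw [this]
  exact Ideal.mem_map_of_mem _ hs₂

end Hker

section Stage

variable {O : Type*} [CommRing O] [IsDomain O] [IsDiscreteValuationRing O]
  [Finite (IsLocalRing.ResidueField O)]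
  {𝕋 : Type*} [CommRing 𝕋] [Algebra O 𝕋]
  {L L' K₀ K₀' A A' : Type*} [AddCommGroup L] [Module O L] [AddCommGroup L'] [Module O L']
  [AddCommGroup K₀] [Module O K₀] [AddCommGroup K₀'] [Module O K₀']
  [AddCommGroup A] [Module O A] [AddCommGroup A'] [Module O A']
  [Module 𝕋 L'] [IsScalarTower O 𝕋 L'] [Module 𝕋 A'] [IsScalarTower O 𝕋 A']
  [Module 𝕋 A] [IsScalarTower O 𝕋 A]
  {T1 T2 : Type*} [CommRing T1] [CommRing T2] [Algebra 𝕋 T1] [Algebra 𝕋 T2]
  [Module T1 A'] [IsScalarTower 𝕋 T1 A'] [Module T2 A] [IsScalarTower 𝕋 T2 A]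

/-- **the `p`-new stage from freeness on the flat side + (ii).**  `K = ker β`, `K' = ker β'`,
`t = a^†` onto, `β t = t_A β'`, Gram matrix multiplied by `c`; `t_A : A' ↠ A` `𝕋`-equivariant,
`A'` free of rank `r` over the carrier `T1` (`𝕋 ↠ T1`), `A` free of rank `r` over the carrier `T2`;
(ii) `g (Ann_𝕋 A) ≤ g (Ann_𝕋 A')`.  Then `#Ω(K') = #Ω(K) · #(O ⧸ c) ^ d`. -/
theorem card_congMod_ker_growth_free (B : L →ₗ[O] L →ₗ[O] O) (B' : L' →ₗ[O] L' →ₗ[O] O)
    (ι : K₀ →ₗ[O] L) (ι' : K₀' →ₗ[O] L') {d : ℕ} (b : Fin d → L) (b' : Fin d → L')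
    (bK : Fin d → K₀) (bK' : Fin d → K₀') (hbK : ∀ i, ι (bK i) = b i)
    (hbK' : ∀ i, ι' (bK' i) = b' i) (c : O) (hc : c ≠ 0) (hdet : (gram B b).det ≠ 0)
    (h : ∀ i j, B' (b' i) (b' j) = c * B (b i) (b j))
    (t : L' →ₗ[O] L) (ht : Function.Surjective t)
    (hadj : ∀ i y, B' (b' i) y = B (b i) (t y))
    (β : L →ₗ[O] A) (β' : L' →ₗ[O] A') (hβ' : Function.Surjective β') (tA : A' →ₗ[O] A)
    (hcomm : ∀ y, β (t y) = tA (β' y))
    (hι : LinearMap.range ι = LinearMap.ker β) (hι' : LinearMap.range ι' = LinearMap.ker β')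
    (hβ'eq : ∀ (s : 𝕋) (m : L'), β' (s • m) = s • β' m)
    (hB'adj : ∀ (s : 𝕋) (x y : L'), B' (s • x) y = B' x (s • y))
    (g : 𝕋 →ₐ[O] O) (hg : ∀ (s : 𝕋) (i : Fin d), s • b' i = g s • b' i)
    (htAeq : ∀ (s : 𝕋) (y : A'), tA (s • y) = s • tA y) (htA : Function.Surjective tA)
    (h1 : Function.Surjective (algebraMap 𝕋 T1)) {r : ℕ} (b1 : Basis (Fin r) T1 A')
    (b2 : Basis (Fin r) T2 A)
    (hJ : Ideal.map (g : 𝕋 →+* O) (Module.annihilator 𝕋 A) ≤
      Ideal.map (g : 𝕋 →+* O) (Module.annihilator 𝕋 A')) :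
    Nat.card (CongMod (B'.compl₁₂ ι' ι') (span O (Set.range bK'))) =
      Nat.card (CongMod (B.compl₁₂ ι ι) (span O (Set.range bK))) *
        Nat.card (O ⧸ Ideal.span {c}) ^ d :=
  KerHecke.card_congMod_ker_growth_hecke B B' ι ι' b b' bK bK' hbK hbK' c hc hdet h t ht hadj
    β β' hβ' tA hcomm hι hι' hβ'eq hB'adj g hg (Module.annihilator 𝕋 A) hJ
    (hker_of_free tA htAeq htA h1 b1 b2)

end Stage

end Fermat.Agent.GE9.Eta.KerHeckeFree
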