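/-
GATE-E (S59) / RISK-4 = PNEW-STAGE, leaf (I-e) (helper19; plan helper80 7597):
**the `p`-new stage step in the PRODUCT form the instance uses.**

In the instance the flat modules are SQUARES: `A = A₀ × A₀`, `A' = A₀' × A₀'`
(`β = (cores_p, cores_p')`), and `t_A = t_N × t_N` with `t_N : A₀' ↠ A₀` the transfer at the level
without `p`.  Freeness (R4-D) is known for `A₀'` over the carrier `T1` (rank `r`) and for `A₀` over
the carrier `T2` (rank `r`); (ii) is proved for the annihilators of `A₀`, `A₀'`.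

* `annihilator_prod_self`             : `Ann_𝕋 (A₀ × A₀) = Ann_𝕋 A₀`;
* `hker_of_free_prod`                 : input (i) for `t_A = t_N × t_N`, `J = Ann_𝕋 A₀`;
* `card_congMod_ker_growth_free_prod` : `#Ω(K') = #Ω(K) · #(O ⧸ c) ^ d`.
-/
import Fermat.Agent.GE9.Eta.KerHeckeFree

set_option autoImplicit false

namespace Fermat.Agent.GE9.Eta.KerHeckeProd

open Module Submodule Fermat.Agent.GE9.Eta Fermat.Agent.GE9.Eta.KerFree

section Ann

variable {𝕋 : Type*} [CommRing 𝕋] {A₀ : Type*} [AddCommGroup A₀] [Module 𝕋 A₀]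

/-- the annihilator of a square is the annihilator of the module. -/
theorem annihilator_prod_self :
    Module.annihilator 𝕋 (A₀ × A₀) = Module.annihilator 𝕋 A₀ := by
  ext s
  simp only [Module.mem_annihilator]
  constructor
  · intro h a
    have := h (a, 0)
    simpa using congrArg Prod.fst this
  · intro h x
    ext
    · simpa using h x.1
    · simpa using h x.2

end Ann

section Hker

variable {O : Type*} [CommRing O] {𝕋 : Type*} [CommRing 𝕋] [Algebra O 𝕋]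
  {A₀ A₀' : Type*} [AddCommGroup A₀] [Module O A₀] [Module 𝕋 A₀] [IsScalarTower O 𝕋 A₀]
  [AddCommGroup A₀'] [Module O A₀'] [Module 𝕋 A₀'] [IsScalarTower O 𝕋 A₀']
  {T1 T2 : Type*} [CommRing T1] [CommRing T2] [Algebra 𝕋 T1] [Algebra 𝕋 T2]
  [Module T1 A₀'] [IsScalarTower 𝕋 T1 A₀'] [Module T2 A₀] [IsScalarTower 𝕋 T2 A₀]

/-- the product basis of a square, indexed by `Fin (r + r)`. -/
noncomputable def basisSq {T X : Type*} [CommRing T] [AddCommGroup X] [Module T X] {r : ℕ}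
    (b : Basis (Fin r) T X) : Basis (Fin (r + r)) T (X × X) :=
  (b.prod b).reindex finSumFinEquiv

/-- **input (i)** for `t_A = t_N × t_N`, `J = Ann_𝕋 A₀` (as `Ann_𝕋 (A₀ × A₀)`). -/
theorem hker_of_free_prod (tN : A₀' →ₗ[O] A₀)
    (htNeq : ∀ (s : 𝕋) (y : A₀'), tN (s • y) = s • tN y) (htN : Function.Surjective tN)
    (h1 : Function.Surjective (algebraMap 𝕋 T1)) {r : ℕ} (b1 : Basis (Fin r) T1 A₀')
    (b2 : Basis (Fin r) T2 A₀) :
    LinearMap.ker (tN.prodMap tN) ≤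
      ⨆ τ ∈ (Set.range fun s : (Module.annihilator 𝕋 (A₀ × A₀)) =>
        act (O := O) (A' := A₀' × A₀') (s : 𝕋)), LinearMap.range τ :=
  KerHeckeFree.hker_of_free (T1 := T1) (T2 := T2) (tN.prodMap tN)
    (fun s y => by
      ext
      · simpa using htNeq s y.1
      · simpa using htNeq s y.2)
    (fun x => by
      obtain ⟨y1, hy1⟩ := htN x.1
      obtain ⟨y2, hy2⟩ := htN x.2
      exact ⟨(y1, y2), by ext <;> simp [hy1, hy2]⟩)
    h1 (basisSq b1) (basisSq b2)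

end Hker

section Stage

variable {O : Type*} [CommRing O] [IsDomain O] [IsDiscreteValuationRing O]
  [Finite (IsLocalRing.ResidueField O)]
  {𝕋 : Type*} [CommRing 𝕋] [Algebra O 𝕋]
  {L L' K₀ K₀' A₀ A₀' : Type*} [AddCommGroup L] [Module O L] [AddCommGroup L'] [Module O L']
  [AddCommGroup K₀] [Module O K₀] [AddCommGroup K₀'] [Module O K₀']
  [AddCommGroup A₀] [Module O A₀] [AddCommGroup A₀'] [Module O A₀']
  [Module 𝕋 L'] [IsScalarTower O 𝕋 L'] [Module 𝕋 A₀'] [IsScalarTower O 𝕋 A₀']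
  [Module 𝕋 A₀] [IsScalarTower O 𝕋 A₀]
  {T1 T2 : Type*} [CommRing T1] [CommRing T2] [Algebra 𝕋 T1] [Algebra 𝕋 T2]
  [Module T1 A₀'] [IsScalarTower 𝕋 T1 A₀'] [Module T2 A₀] [IsScalarTower 𝕋 T2 A₀]

/-- **the `p`-new stage step, product form.**  `β : L → A₀ × A₀`, `β' : L' ↠ A₀' × A₀'`,
`t_A = t_N × t_N`; `A₀'` free of rank `r` over `T1` (`𝕋 ↠ T1`), `A₀` free of rank `r` over `T2`;
(ii) `g (Ann_𝕋 A₀) ≤ g (Ann_𝕋 A₀')`.  Then `#Ω(K') = #Ω(K) · #(O ⧸ c) ^ d`. -/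
theorem card_congMod_ker_growth_free_prod (B : L →ₗ[O] L →ₗ[O] O) (B' : L' →ₗ[O] L' →ₗ[O] O)
    (ι : K₀ →ₗ[O] L) (ι' : K₀' →ₗ[O] L') {d : ℕ} (b : Fin d → L) (b' : Fin d → L')
    (bK : Fin d → K₀) (bK' : Fin d → K₀') (hbK : ∀ i, ι (bK i) = b i)
    (hbK' : ∀ i, ι' (bK' i) = b' i) (c : O) (hc : c ≠ 0) (hdet : (gram B b).det ≠ 0)
    (h : ∀ i j, B' (b' i) (b' j) = c * B (b i) (b j))
    (t : L' →ₗ[O] L) (ht : Function.Surjective t)
    (hadj : ∀ i y, B' (b' i) y = B (b i) (t y))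
    (β : L →ₗ[O] A₀ × A₀) (β' : L' →ₗ[O] A₀' × A₀') (hβ' : Function.Surjective β')
    (tN : A₀' →ₗ[O] A₀)
    (hcomm : ∀ y, β (t y) = (tN (β' y).1, tN (β' y).2))
    (hι : LinearMap.range ι = LinearMap.ker β) (hι' : LinearMap.range ι' = LinearMap.ker β')
    (hβ'eq : ∀ (s : 𝕋) (m : L'), β' (s • m) = s • β' m)
    (hB'adj : ∀ (s : 𝕋) (x y : L'), B' (s • x) y = B' x (s • y))
    (g : 𝕋 →ₐ[O] O) (hg : ∀ (s : 𝕋) (i : Fin d), s • b' i = g s • b' i)
    (htNeq : ∀ (s : 𝕋) (y : A₀'), tN (s • y) = s • tN y) (htN : Function.Surjective tN)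
    (h1 : Function.Surjective (algebraMap 𝕋 T1)) {r : ℕ} (b1 : Basis (Fin r) T1 A₀')
    (b2 : Basis (Fin r) T2 A₀)
    (hJ : Ideal.map (g : 𝕋 →+* O) (Module.annihilator 𝕋 A₀) ≤
      Ideal.map (g : 𝕋 →+* O) (Module.annihilator 𝕋 A₀')) :
    Nat.card (CongMod (B'.compl₁₂ ι' ι') (span O (Set.range bK'))) =
      Nat.card (CongMod (B.compl₁₂ ι ι) (span O (Set.range bK))) *
        Nat.card (O ⧸ Ideal.span {c}) ^ d :=
  KerHecke.card_congMod_ker_growth_hecke B B' ι ι' b b' bK bK' hbK hbK' c hc hdet h t ht hadj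
    β β' hβ' (tN.prodMap tN) (fun y => by rw [hcomm y]; rfl) hι hι' hβ'eq hB'adj g hg
    (Module.annihilator 𝕋 (A₀ × A₀))
    (by rw [annihilator_prod_self, annihilator_prod_self]; exact hJ)
    (hker_of_free_prod tN htNeq htN h1 b1 b2)

end Stage

end Fermat.Agent.GE9.Eta.KerHeckeProd
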