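/-
GATE-E / RISK-4 (R4-A addendum, helper21): **the binders `hadj`, `hnd`, `hli` of
`ModForm.hM1_of_eta_ne_bot` for the restricted pairing `B_K = B.compl₁₂ ι ι` on `K = range ι`**
(Mathlib + `GE9/Eta/Abstract` only).

* `hadj_compl` : `B_K` is adjoint for every operator that `ι` intertwines with a `B`-adjoint one;
* `hnd_compl` : `B_K` is right non-degenerate when `ι` is injective and `K ⊓ K^⊥ = ⊥`;
* `inf_orth_eq_bot_of_comp_injective` : `K ⊓ K^⊥ = ⊥` for `K = ker β` when `K^⊥ ≤ range α` and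
  `β ∘ α` is injective (`Δ_p = β_p α_p` injective on the old part: `a_p² ≠ (p+1)²`);
* `hnd_ker` : the two together;
* `linearIndependent_compl` : `hli` for `bK` from `hli` for `b = ι ∘ bK`.
-/
import Fermat.Agent.GE9.Eta.Abstract

set_option autoImplicit false

namespace Fermat.Agent.GE9.Eta.KerNd

open Module Submodule Fermat.Agent.GE9.Eta

variable {O : Type*} [CommRing O] {L K₀ : Type*} [AddCommGroup L] [Module O L]
  [AddCommGroup K₀] [Module O K₀]

/-- `B_K` is adjoint for a pair of operators intertwined by `ι`. -/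
theorem hadj_compl (B : L →ₗ[O] L →ₗ[O] O) (ι : K₀ →ₗ[O] L) (u : K₀ → K₀) (U : L → L)
    (hι : ∀ x, ι (u x) = U (ι x)) (hU : ∀ x y, B (U x) y = B x (U y)) (x y : K₀) :
    (B.compl₁₂ ι ι) (u x) y = (B.compl₁₂ ι ι) x (u y) := by
  rw [LinearMap.compl₁₂_apply, LinearMap.compl₁₂_apply, hι, hι, hU]

/-- `B_K` is `T`-adjoint when `ι` is `T`-equivariant and `B` is `T`-adjoint. -/
theorem hadj_compl_smul {T : Type*} [SMul T K₀] [SMul T L] (B : L →ₗ[O] L →ₗ[O] O)
    (ι : K₀ →ₗ[O] L) (hι : ∀ (t : T) x, ι (t • x) = t • ι x)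
    (hB : ∀ (t : T) x y, B (t • x) y = B x (t • y)) (t : T) (x y : K₀) :
    (B.compl₁₂ ι ι) (t • x) y = (B.compl₁₂ ι ι) x (t • y) :=
  hadj_compl B ι (fun x => t • x) (fun x => t • x) (hι t) (hB t) x y

/-- **`hnd` for `B_K`** from `K ⊓ K^⊥ = ⊥`. -/
theorem hnd_compl (B : L →ₗ[O] L →ₗ[O] O) (ι : K₀ →ₗ[O] L) (hι : Function.Injective ι)
    (h : LinearMap.range ι ⊓ orth B (LinearMap.range ι) = ⊥) :
    ∀ w : K₀, (∀ z : K₀, (B.compl₁₂ ι ι) z w = 0) → w = 0 := by
  intro w hw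
  apply hι
  rw [map_zero]
  have h1 : ι w ∈ LinearMap.range ι ⊓ orth B (LinearMap.range ι) := by
    refine ⟨⟨w, rfl⟩, ?_⟩
    rintro _ ⟨z, rfl⟩
    exact hw z
  rw [h] at h1
  exact (Submodule.mem_bot O).mp h1

/-- `K ⊓ K^⊥ = ⊥` for `K = ker β` when `K^⊥ ≤ range α` and `β ∘ α` is injective. -/
theorem inf_orth_eq_bot_of_comp_injective {A : Type*} [AddCommGroup A] [Module O A]
    (B : L →ₗ[O] L →ₗ[O] O) (β : L →ₗ[O] A) (α : A →ₗ[O] L)
    (horth : orth B (LinearMap.ker β) ≤ LinearMap.range α)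
    (hinj : Function.Injective (β.comp α)) :
    LinearMap.ker β ⊓ orth B (LinearMap.ker β) = ⊥ := by
  rw [eq_bot_iff]
  rintro x ⟨hx1, hx2⟩
  obtain ⟨a, rfl⟩ := horth hx2
  have h0 : (β.comp α) a = (β.comp α) 0 := by
    rw [map_zero]
    exact hx1
  rw [hinj h0, map_zero]
  exact Submodule.zero_mem _

/-- **`hnd` for the kernel of `β`** with `K^⊥ ≤ range α`, `β ∘ α` injective. -/
theorem hnd_ker {A : Type*} [AddCommGroup A] [Module O A] (B : L →ₗ[O] L →ₗ[O] O)
    (ι : K₀ →ₗ[O] L) (hι : Function.Injective ι) (β : L →ₗ[O] A) (α : A →ₗ[O] L)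
    (hrange : LinearMap.range ι = LinearMap.ker β)
    (horth : orth B (LinearMap.ker β) ≤ LinearMap.range α)
    (hinj : Function.Injective (β.comp α)) :
    ∀ w : K₀, (∀ z : K₀, (B.compl₁₂ ι ι) z w = 0) → w = 0 := by
  refine hnd_compl B ι hι ?_
  rw [hrange]
  exact inf_orth_eq_bot_of_comp_injective B β α horth hinj

/-- `K^⊥ ≤ range α` for `K = ker β` when `B` is right non-degenerate-perfect in the sense that
every `x` orthogonal to `ker β` is in the image of the adjoint `α` of `β`: the standard supplier is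
`B (α a) y = B_A a (β y)` with `B_A` perfect and `β` onto; we give the formal half
`range α ≤ K^⊥`. -/
theorem range_le_orth_ker {A : Type*} [AddCommGroup A] [Module O A]
    (B : L →ₗ[O] L →ₗ[O] O) (BA : A →ₗ[O] A →ₗ[O] O) (β : L →ₗ[O] A) (α : A →ₗ[O] L)
    (hadj : ∀ y a, B y (α a) = BA (β y) a) :
    LinearMap.range α ≤ orth B (LinearMap.ker β) := by
  rintro _ ⟨a, rfl⟩ y hy
  rw [hadj, LinearMap.mem_ker.mp hy, map_zero, LinearMap.zero_apply]

/-- the non-formal half `K^⊥ ≤ range α` : `β` onto, `B_A` (right) perfect, `B` right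
non-degenerate, `α` the adjoint of `β`. -/
theorem orth_ker_le_range {A : Type*} [AddCommGroup A] [Module O A]
    (B : L →ₗ[O] L →ₗ[O] O) (BA : A →ₗ[O] A →ₗ[O] O) (β : L →ₗ[O] A) (α : A →ₗ[O] L)
    (hβ : Function.Surjective β)
    (hadj : ∀ y a, B y (α a) = BA (β y) a)
    (hperfA : ∀ ψ : A →ₗ[O] O, ∃ a : A, ∀ z, BA z a = ψ z)
    (hnd : ∀ w : L, (∀ z : L, B z w = 0) → w = 0) :
    orth B (LinearMap.ker β) ≤ LinearMap.range α := by
  intro x hx
  -- the functional `B (·) x` vanishes on `ker β`, hence factors through `β`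
  have hle : LinearMap.ker β ≤ LinearMap.ker (B.flip x) := by
    intro y hy
    rw [LinearMap.mem_ker, LinearMap.flip_apply]
    exact hx y hy
  set ψ : A →ₗ[O] O := ((LinearMap.ker β).liftQ (B.flip x) hle).comp
    (β.quotKerEquivOfSurjective hβ).symm.toLinearMap with hψ
  have hψβ : ∀ y, ψ (β y) = B y x := by
    intro y
    have h1 : (β.quotKerEquivOfSurjective hβ).symm (β y) = (LinearMap.ker β).mkQ y := by
      rw [LinearEquiv.symm_apply_eq]
      rfl
    rw [hψ, LinearMap.comp_apply, LinearEquiv.coe_coe, h1, Submodule.mkQ_apply,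
      Submodule.liftQ_apply, LinearMap.flip_apply]
  obtain ⟨a, ha⟩ := hperfA ψ
  refine ⟨a, ?_⟩
  have h2 : α a - x = 0 := by
    apply hnd
    intro z
    rw [map_sub, hadj, ha, hψβ, sub_self]
  exact sub_eq_zero.mp h2

/-- `hli` for `bK`. -/
theorem linearIndependent_compl (ι : K₀ →ₗ[O] L) {d : ℕ} (b : Fin d → L) (bK : Fin d → K₀)
    (hbK : ∀ i, ι (bK i) = b i) (hli : LinearIndependent O b) : LinearIndependent O bK := by
  have : b = ι ∘ bK := by
    funext i
    exact (hbK i).symm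
  rw [this] at hli
  exact LinearIndependent.of_comp ι hli

end Fermat.Agent.GE9.Eta.KerNd
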