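/-
GATE-E / RISK-2, route (O') (helper21): **the congruence module of the kernel of a surjection
`β : L ↠ A` (the `p`-new part `K = ker (cores, coresD)`), and its growth** — abstract linear
algebra over a DVR, on top of `GE9/Eta/Abstract` (Mathlib only otherwise).

On `K = ker β` the restricted pairing is NOT perfect, so `card_congMod` (`hext`) does not apply.
Instead, with `ev = evalMap B b : L → O ^ d` (`P = span b ≤ K`),

* `card_congMod_compl` : `#CongMod (B|K) P = [ev K : ev P]` (`relIndex` in `O ^ d`);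
* `card_congMod_compl_growth` : if `ev' K' = ev K` inside `O ^ d` and the Gram matrix is multiplied
  by `c`, then `#Ω(K') = #Ω(K) · #(O ⧸ c) ^ d`;
* `map_evalMap_ker_eq` : `ev' K' = ev K` when `t = a^† : L' ↠ L`, `t_A : A' → A`, `β t = t_A β'`
  and `ker t_A ≤ β' (P'^⊥)`  (this is "`o_{Σ'} = o_Σ`");
* `ker_le_map_orth` : `ker t_A ≤ β' (P'^⊥)` when `ker t_A` is contained in the sum of the ranges of
  operators `τ` of `A'` each of which has a `B'`-self-adjoint lift to `L'` killing `P'`
  (`τ` = the image of a Hecke operator `s` with `g s = 0`);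
* `card_congMod_ker_growth` : the assembled stage inequality (an equality).

`KerFree.lean` supplies `ker t_A = I • ⊤` from freeness on the flat side.
-/
import Fermat.Agent.GE9.Eta.Abstract

set_option autoImplicit false

namespace Fermat.Agent.GE9.Eta.KerStage

open Module Submodule Fermat.Agent.GE9.Eta

section Compl

variable {O : Type*} [CommRing O] {L K₀ : Type*} [AddCommGroup L] [Module O L]
  [AddCommGroup K₀] [Module O K₀]

/-- the evaluation map of the pulled-back pairing is the pulled-back evaluation map. -/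
theorem evalMap_compl (B : L →ₗ[O] L →ₗ[O] O) (ι : K₀ →ₗ[O] L) {d : ℕ} (b : Fin d → L)
    (bK : Fin d → K₀) (hbK : ∀ i, ι (bK i) = b i) :
    evalMap (B.compl₁₂ ι ι) bK = (evalMap B b).comp ι := by
  ext x i
  rw [evalMap_apply, LinearMap.comp_apply, evalMap_apply, LinearMap.compl₁₂_apply, hbK]

theorem gram_compl (B : L →ₗ[O] L →ₗ[O] O) (ι : K₀ →ₗ[O] L) {d : ℕ} (b : Fin d → L)
    (bK : Fin d → K₀) (hbK : ∀ i, ι (bK i) = b i) :
    gram (B.compl₁₂ ι ι) bK = gram B b := by
  ext i j
  rw [gram_apply, gram_apply, LinearMap.compl₁₂_apply, hbK, hbK]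

/-- the denominator of the congruence module, as a pull-back along the evaluation map. -/
theorem sup_orth_eq_comap (B : L →ₗ[O] L →ₗ[O] O) {d : ℕ} (b : Fin d → L) :
    span O (Set.range b) ⊔ orth B (span O (Set.range b)) =
      (span O (Set.range fun j => (gram B b).transpose j)).comap (evalMap B b) := by
  rw [← map_evalMap_span, Submodule.comap_map_eq, ker_evalMap]

/-- **`#CongMod B (span b) = [range ev : ev (span b)]`** for any bilinear form. -/
theorem card_congMod_eq_relIndex (B : L →ₗ[O] L →ₗ[O] O) {d : ℕ} (b : Fin d → L) :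
    Nat.card (CongMod B (span O (Set.range b))) =
      (span O (Set.range fun j => (gram B b).transpose j)).toAddSubgroup.relIndex
        (LinearMap.range (evalMap B b)).toAddSubgroup := by
  have h1 : Nat.card (CongMod B (span O (Set.range b))) =
      (span O (Set.range b) ⊔ orth B (span O (Set.range b))).toAddSubgroup.index := by
    rw [AddSubgroup.index_eq_card]
    rfl
  rw [h1, sup_orth_eq_comap]
  have h2 : ((span O (Set.range fun j => (gram B b).transpose j)).comap
      (evalMap B b)).toAddSubgroup =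
      (span O (Set.range fun j => (gram B b).transpose j)).toAddSubgroup.comap
        (evalMap B b).toAddMonoidHom := rfl
  rw [h2, AddSubgroup.index_comap]
  rfl

/-- **`#CongMod (B|K) (span b) = [ev K : ev (span b)]`**. -/
theorem card_congMod_compl (B : L →ₗ[O] L →ₗ[O] O) (ι : K₀ →ₗ[O] L) {d : ℕ} (b : Fin d → L)
    (bK : Fin d → K₀) (hbK : ∀ i, ι (bK i) = b i) :
    Nat.card (CongMod (B.compl₁₂ ι ι) (span O (Set.range bK))) =
      (span O (Set.range fun j => (gram B b).transpose j)).toAddSubgroup.relIndex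
        ((LinearMap.range ι).map (evalMap B b)).toAddSubgroup := by
  rw [card_congMod_eq_relIndex, gram_compl B ι b bK hbK, evalMap_compl B ι b bK hbK,
    LinearMap.range_comp]

/-- the Gram lattice is contained in `ev K` as soon as `b i ∈ K`. -/
theorem span_gram_le_map (B : L →ₗ[O] L →ₗ[O] O) (ι : K₀ →ₗ[O] L) {d : ℕ} (b : Fin d → L)
    (bK : Fin d → K₀) (hbK : ∀ i, ι (bK i) = b i) :
    span O (Set.range fun j => (gram B b).transpose j) ≤
      (LinearMap.range ι).map (evalMap B b) := by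
  rw [← map_evalMap_span]
  refine Submodule.map_mono ?_
  rw [Submodule.span_le]
  rintro _ ⟨i, rfl⟩
  exact ⟨bK i, hbK i⟩

end Compl

section Growth

variable {O : Type*} [CommRing O] [IsDomain O] [IsDiscreteValuationRing O]
  [Finite (IsLocalRing.ResidueField O)]
  {L L' K₀ K₀' : Type*} [AddCommGroup L] [Module O L] [AddCommGroup L'] [Module O L']
  [AddCommGroup K₀] [Module O K₀] [AddCommGroup K₀'] [Module O K₀']

/-- `#(O ⧸ (x)) ≠ 0` for `x ≠ 0` (finite residue field). -/
theorem card_quotient_span_ne_zero {x : O} (hx : x ≠ 0) :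
    Nat.card (O ⧸ Ideal.span {x}) ≠ 0 := by
  obtain ⟨n, hn⟩ := Fermat.Agent.GE9.NumCrit.exists_span_singleton_eq_pow hx
  rw [hn, Fermat.Agent.GE9.NumCrit.card_quotient_maximalIdeal_pow]
  have : Finite (O ⧸ IsLocalRing.maximalIdeal O) :=
    inferInstanceAs (Finite (IsLocalRing.ResidueField O))
  exact pow_ne_zero n Nat.card_pos.ne'

/-- the index of the Gram lattice in `O ^ d`. -/
theorem index_span_gram (B : L →ₗ[O] L →ₗ[O] O) {d : ℕ} (b : Fin d → L)
    (hdet : (gram B b).det ≠ 0) :
    (span O (Set.range fun j => (gram B b).transpose j)).toAddSubgroup.index =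
      Nat.card (O ⧸ Ideal.span {(gram B b).det}) := by
  rw [AddSubgroup.index_eq_card]
  have := Fermat.Agent.GE9.NumCrit.card_quotient_span_rows (gram B b).transpose
    (by rwa [Matrix.det_transpose])
  rw [Matrix.det_transpose] at this
  exact this

/-- **growth of the congruence module of a kernel**: if `ev' K' = ev K` in `O ^ d` and the Gram
matrix is multiplied by `c`, then `#Ω(K') = #Ω(K) · #(O ⧸ c) ^ d`. -/
theorem card_congMod_compl_growth (B : L →ₗ[O] L →ₗ[O] O) (B' : L' →ₗ[O] L' →ₗ[O] O)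
    (ι : K₀ →ₗ[O] L) (ι' : K₀' →ₗ[O] L') {d : ℕ} (b : Fin d → L) (b' : Fin d → L')
    (bK : Fin d → K₀) (bK' : Fin d → K₀') (hbK : ∀ i, ι (bK i) = b i)
    (hbK' : ∀ i, ι' (bK' i) = b' i) (c : O) (hc : c ≠ 0) (hdet : (gram B b).det ≠ 0)
    (h : ∀ i j, B' (b' i) (b' j) = c * B (b i) (b j))
    (hX : (LinearMap.range ι').map (evalMap B' b') = (LinearMap.range ι).map (evalMap B b)) :
    Nat.card (CongMod (B'.compl₁₂ ι' ι') (span O (Set.range bK'))) =
      Nat.card (CongMod (B.compl₁₂ ι ι) (span O (Set.range bK))) *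
        Nat.card (O ⧸ Ideal.span {c}) ^ d := by
  have hdet' : (gram B' b').det = c ^ d * (gram B b).det := det_gram_of_smul B B' b b' c h
  have hne : (gram B' b').det ≠ 0 := by
    rw [hdet']
    exact mul_ne_zero (pow_ne_zero d hc) hdet
  set X := ((LinearMap.range ι).map (evalMap B b)).toAddSubgroup with hXdef
  set G := (span O (Set.range fun j => (gram B b).transpose j)).toAddSubgroup with hG
  set G' := (span O (Set.range fun j => (gram B' b').transpose j)).toAddSubgroup with hG'
  have hGX : G ≤ X := span_gram_le_map B ι b bK hbK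
  have hG'X : G' ≤ X := by
    have := span_gram_le_map B' ι' b' bK' hbK'
    rw [hX] at this
    exact this
  have e1 : G.relIndex X * X.index = Nat.card (O ⧸ Ideal.span {(gram B b).det}) := by
    rw [AddSubgroup.relIndex_mul_index hGX, hG, index_span_gram B b hdet]
  have e2 : G'.relIndex X * X.index = Nat.card (O ⧸ Ideal.span {(gram B' b').det}) := by
    rw [AddSubgroup.relIndex_mul_index hG'X, hG', index_span_gram B' b' hne]
  have hfin : Nat.card (O ⧸ Ideal.span {(gram B b).det}) ≠ 0 := card_quotient_span_ne_zero hdet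
  have hXne : X.index ≠ 0 := by
    intro h0
    rw [h0, mul_zero] at e1
    exact hfin e1.symm
  rw [card_congMod_compl B' ι' b' bK' hbK', card_congMod_compl B ι b bK hbK, hX]
  have e3 : Nat.card (O ⧸ Ideal.span {(gram B' b').det}) =
      Nat.card (O ⧸ Ideal.span {(gram B b).det}) * Nat.card (O ⧸ Ideal.span {c}) ^ d := by
    rw [hdet', Fermat.Agent.GE9.NumCrit.card_quotient_span_mul (pow_ne_zero d hc) hdet,
      card_quotient_span_pow hc, mul_comm]
  refine Nat.eq_of_mul_eq_mul_right (Nat.pos_of_ne_zero hXne) ?_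
  rw [e2, e3, ← e1]
  ring

end Growth

/-! ### `ev' K' = ev K` : the transfer along `t = a^†` -/

section Transfer

variable {O : Type*} [CommRing O] {L L' A A' : Type*} [AddCommGroup L] [Module O L]
  [AddCommGroup L'] [Module O L'] [AddCommGroup A] [Module O A] [AddCommGroup A'] [Module O A']

/-- `ev' = ev ∘ t` when `b' i` is adjoint to `b i` along `t`. -/
theorem evalMap_eq_comp (B : L →ₗ[O] L →ₗ[O] O) (B' : L' →ₗ[O] L' →ₗ[O] O) {d : ℕ}
    (b : Fin d → L) (b' : Fin d → L') (t : L' →ₗ[O] L)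
    (hadj : ∀ i y, B' (b' i) y = B (b i) (t y)) :
    evalMap B' b' = (evalMap B b).comp t := by
  ext y i
  rw [evalMap_apply, LinearMap.comp_apply, evalMap_apply, hadj]

/-- **`ev' (ker β') = ev (ker β)`** : `t : L' ↠ L`, `β t = t_A β'`, `ker t_A ≤ β' (P'^⊥)`. -/
theorem map_evalMap_ker_eq (B : L →ₗ[O] L →ₗ[O] O) (B' : L' →ₗ[O] L' →ₗ[O] O) {d : ℕ}
    (b : Fin d → L) (b' : Fin d → L') (t : L' →ₗ[O] L) (ht : Function.Surjective t)
    (hadj : ∀ i y, B' (b' i) y = B (b i) (t y))
    (β : L →ₗ[O] A) (β' : L' →ₗ[O] A') (tA : A' →ₗ[O] A)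
    (hcomm : ∀ y, β (t y) = tA (β' y))
    (hker : LinearMap.ker tA ≤ (orth B' (span O (Set.range b'))).map β') :
    (LinearMap.ker β').map (evalMap B' b') = (LinearMap.ker β).map (evalMap B b) := by
  rw [evalMap_eq_comp B B' b b' t hadj]
  apply le_antisymm
  · rintro _ ⟨y, hy, rfl⟩
    refine ⟨t y, ?_, rfl⟩
    show β (t y) = 0
    rw [hcomm, LinearMap.mem_ker.mp hy, map_zero]
  · rintro _ ⟨k, hk, rfl⟩
    obtain ⟨m', rfl⟩ := ht k
    have h1 : β' m' ∈ LinearMap.ker tA := by
      rw [LinearMap.mem_ker, ← hcomm]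
      exact LinearMap.mem_ker.mp hk
    obtain ⟨n', hn', hn'e⟩ := hker h1
    refine ⟨m' - n', ?_, ?_⟩
    · show β' (m' - n') = 0
      rw [map_sub, hn'e, sub_self]
    · have h2 : evalMap B' b' n' = 0 := by
        have : n' ∈ LinearMap.ker (evalMap B' b') := by
          rw [ker_evalMap]
          exact hn'
        exact this
      rw [evalMap_eq_comp B B' b b' t hadj] at h2
      rw [map_sub, h2, sub_zero]
      rfl

/-- **`ker t_A ≤ β' (P'^⊥)`** : `ker t_A` lies in the sum of the ranges of operators `τ ∈ S` of `A'`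
each of which lifts to a `B'`-self-adjoint operator of `L'` killing the `b' i`. -/
theorem ker_le_map_orth (B' : L' →ₗ[O] L' →ₗ[O] O) {d : ℕ} (b' : Fin d → L')
    (β' : L' →ₗ[O] A') (hβ' : Function.Surjective β') (tA : A' →ₗ[O] A)
    (S : Set (A' →ₗ[O] A'))
    (hS : ∀ τ ∈ S, ∃ τt : L' →ₗ[O] L', (∀ m, β' (τt m) = τ (β' m)) ∧
      (∀ x y, B' (τt x) y = B' x (τt y)) ∧ ∀ i, τt (b' i) = 0)
    (hker : LinearMap.ker tA ≤ ⨆ τ ∈ S, LinearMap.range τ) :
    LinearMap.ker tA ≤ (orth B' (span O (Set.range b'))).map β' := by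
  refine hker.trans ?_
  refine iSup₂_le fun τ hτ => ?_
  obtain ⟨τt, h1, h2, h3⟩ := hS τ hτ
  rintro _ ⟨y, rfl⟩
  obtain ⟨m, rfl⟩ := hβ' y
  refine ⟨τt m, ?_, h1 m⟩
  rw [← ker_evalMap]
  show evalMap B' b' (τt m) = 0
  funext i
  rw [evalMap_apply, ← h2, h3, map_zero, LinearMap.zero_apply, Pi.zero_apply]

end Transfer

/-! ### the assembled stage equality -/

section Stage

variable {O : Type*} [CommRing O] [IsDomain O] [IsDiscreteValuationRing O]
  [Finite (IsLocalRing.ResidueField O)]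
  {L L' K₀ K₀' A A' : Type*} [AddCommGroup L] [Module O L] [AddCommGroup L'] [Module O L']
  [AddCommGroup K₀] [Module O K₀] [AddCommGroup K₀'] [Module O K₀']
  [AddCommGroup A] [Module O A] [AddCommGroup A'] [Module O A']

/-- **the `p`-new stage**: `K = ker β`, `K' = ker β'` (as ranges of `ι`, `ι'`), `t = a^†` onto,
`β t = t_A β'`, Gram matrix multiplied by `c`, and `ker t_A` generated by ranges of operators with
self-adjoint lifts killing `P'`.  Then `#Ω(K') = #Ω(K) · #(O ⧸ c) ^ d`. -/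
theorem card_congMod_ker_growth (B : L →ₗ[O] L →ₗ[O] O) (B' : L' →ₗ[O] L' →ₗ[O] O)
    (ι : K₀ →ₗ[O] L) (ι' : K₀' →ₗ[O] L') {d : ℕ} (b : Fin d → L) (b' : Fin d → L')
    (bK : Fin d → K₀) (bK' : Fin d → K₀') (hbK : ∀ i, ι (bK i) = b i)
    (hbK' : ∀ i, ι' (bK' i) = b' i) (c : O) (hc : c ≠ 0) (hdet : (gram B b).det ≠ 0)
    (h : ∀ i j, B' (b' i) (b' j) = c * B (b i) (b j))
    (t : L' →ₗ[O] L) (ht : Function.Surjective t)
    (hadj : ∀ i y, B' (b' i) y = B (b i) (t y))
    (β : L →ₗ[O] A) (β' : L' →ₗ[O] A') (hβ' : Function.Surjective β') (tA : A' →ₗ[O] A)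
    (hcomm : ∀ y, β (t y) = tA (β' y))
    (hι : LinearMap.range ι = LinearMap.ker β) (hι' : LinearMap.range ι' = LinearMap.ker β')
    (S : Set (A' →ₗ[O] A'))
    (hS : ∀ τ ∈ S, ∃ τt : L' →ₗ[O] L', (∀ m, β' (τt m) = τ (β' m)) ∧
      (∀ x y, B' (τt x) y = B' x (τt y)) ∧ ∀ i, τt (b' i) = 0)
    (hker : LinearMap.ker tA ≤ ⨆ τ ∈ S, LinearMap.range τ) :
    Nat.card (CongMod (B'.compl₁₂ ι' ι') (span O (Set.range bK'))) =
      Nat.card (CongMod (B.compl₁₂ ι ι) (span O (Set.range bK))) *
        Nat.card (O ⧸ Ideal.span {c}) ^ d := by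
  refine card_congMod_compl_growth B B' ι ι' b b' bK bK' hbK hbK' c hc hdet h ?_
  rw [hι, hι']
  exact map_evalMap_ker_eq B B' b b' t ht hadj β β' tA hcomm
    (ker_le_map_orth B' b' β' hβ' tA S hS hker)

end Stage

end Fermat.Agent.GE9.Eta.KerStage
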