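/-
GATE-E (S59) / E9 ETA, case (b) of the strict-ordinary stage (`W` multiplicative at `p`, `ρ̄` flat):
the two MATRIX LEMMAS which compute the old–new congruence module at the base point `g`
(helper87; referee note 7502 on helper26 7482 — they replace the non-formal input (H)).

Setting (Mathlib only).  `R` a commutative ring, `V` an `R`-module (`V = A_Σ` or `A_Σ/𝔭'_g A_Σ`),
`T : R` (the Hecke operator `T_p` of the level `N_Σ` prime to `p`), `c : R` (`= p`), `u : R` with
`u * u = 1` (`u = a_p(g) = ± 1`).  On `V × V` (the TARGET of `β_p = (π₁_*, π₂_*)`):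

* `Bm T c (x, y) = ((c+1) x + T y, T x + (c+1) y)`      — `β_p α_p`;
* `Up T c (x, y) = (c y, − x + T y)`                     — the operator `U'` with `β_p U_p = U' β_p`
  (`U' = B Ũ B⁻¹` for `Ũ = [[T, p],[−1, 0]]`, the matrix of `U_p` on `α_p(A²)`: `Up_Bm`);
* `Up_sq_sub_one`   : `U'² − 1 = − B ∘ S`, `S (x, y) = (x − T y, y)` an automorphism; hence
* `range_Bm_le`     : `range B ≤ range (U' − u)` — `β_p α_p` DISAPPEARS from `D ⊗ O_g`;
* `cokerEquiv`      : `(V × V) ⧸ range (U' − u) ≃ V ⧸ range (T − u (1 + c))`;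
* `cokerEquivFull`  : `(V × V) ⧸ (range B ⊔ range (U' − u)) ≃ V ⧸ range (T − u (1 + c))`.

Consequence: `D_Σ ⊗_T O_g = A_Σ / (𝔭'_g + (T_p − u (1 + p))) A_Σ` canonically, with NO freeness and NO
local–global compatibility at `p`.
-/
import Mathlib

set_option autoImplicit false

namespace Fermat.Agent.GE9.Eta.NewPartMat

variable {R : Type*} [CommRing R] {V : Type*} [AddCommGroup V] [Module R V]

/-- `β_p α_p = [[c+1, T],[T, c+1]]` on `V × V`. -/
def Bm (T c : R) : (V × V) →ₗ[R] (V × V) where
  toFun v := ((c + 1) • v.1 + T • v.2, T • v.1 + (c + 1) • v.2)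
  map_add' v w := by
    ext <;> simp only [Prod.fst_add, Prod.snd_add, smul_add] <;> abel
  map_smul' r v := by
    ext <;> simp only [Prod.smul_fst, Prod.smul_snd, RingHom.id_apply, smul_add, smul_comm r]

/-- `U' = [[0, c],[−1, T]]` on `V × V`. -/
def Up (T c : R) : (V × V) →ₗ[R] (V × V) where
  toFun v := (c • v.2, - v.1 + T • v.2)
  map_add' v w := by
    ext <;> simp only [Prod.fst_add, Prod.snd_add, smul_add, neg_add] <;> abel
  map_smul' r v := by
    ext <;> simp only [Prod.smul_fst, Prod.smul_snd, RingHom.id_apply, smul_add, smul_neg,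
      smul_comm r]

/-- `Ũ = [[T, c],[−1, 0]]` on `V × V` (the matrix of `U_p` on `α_p(A²)`). -/
def Ut (T c : R) : (V × V) →ₗ[R] (V × V) where
  toFun v := (T • v.1 + c • v.2, - v.1)
  map_add' v w := by
    ext <;> simp only [Prod.fst_add, Prod.snd_add, smul_add, neg_add] <;> abel
  map_smul' r v := by
    ext <;> simp only [Prod.smul_fst, Prod.smul_snd, RingHom.id_apply, smul_add, smul_neg,
      smul_comm r]

/-- the shear `S = [[1, −T],[0, 1]]`. -/
def Sh (T : R) : (V × V) →ₗ[R] (V × V) where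
  toFun v := (v.1 - T • v.2, v.2)
  map_add' v w := by
    ext <;> simp only [Prod.fst_add, Prod.snd_add, smul_add] <;> abel
  map_smul' r v := by
    ext <;> simp only [Prod.smul_fst, Prod.smul_snd, RingHom.id_apply, smul_sub, smul_comm r]

@[simp] theorem Bm_apply (T c : R) (v : V × V) :
    Bm T c v = ((c + 1) • v.1 + T • v.2, T • v.1 + (c + 1) • v.2) := rfl

@[simp] theorem Up_apply (T c : R) (v : V × V) : Up T c v = (c • v.2, - v.1 + T • v.2) := rfl

@[simp] theorem Ut_apply (T c : R) (v : V × V) : Ut T c v = (T • v.1 + c • v.2, - v.1) := rfl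

@[simp] theorem Sh_apply (T : R) (v : V × V) : Sh T v = (v.1 - T • v.2, v.2) := rfl

/-- `U' B = B Ũ` : `U'` is the operator induced by `U_p` on the target of `β_p`. -/
theorem Up_Bm (T c : R) (v : V × V) : Up T c (Bm T c v) = Bm T c (Ut T c v) := by
  ext
  · simp only [Up_apply, Bm_apply, Ut_apply]
    module
  · simp only [Up_apply, Bm_apply, Ut_apply]
    module

/-- the shear is surjective. -/
theorem Sh_surjective (T : R) : Function.Surjective (Sh (V := V) T) := fun w =>
  ⟨(w.1 + T • w.2, w.2), by ext <;> simp⟩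

/-- **`U'² − 1 = − B ∘ S`** (a matrix identity over `ℤ[T, c]`). -/
theorem Up_sq_sub_one (T c : R) (v : V × V) :
    Up T c (Up T c v) - v = - Bm T c (Sh T v) := by
  ext
  · simp only [Up_apply, Bm_apply, Sh_apply, Prod.fst_sub, Prod.fst_neg]
    module
  · simp only [Up_apply, Bm_apply, Sh_apply, Prod.snd_sub, Prod.snd_neg]
    module

/-- `U' − u`. -/
def UpSub (T c u : R) : (V × V) →ₗ[R] (V × V) := Up T c - u • LinearMap.id

@[simp] theorem UpSub_apply (T c u : R) (v : V × V) :
    UpSub T c u v = (c • v.2 - u • v.1, - v.1 + T • v.2 - u • v.2) := by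
  ext <;> simp [UpSub]

/-- `U'² − 1 = (U' − u)(U' + u)` when `u² = 1`. -/
theorem Up_sq_sub_one_eq (T c u : R) (hu : u * u = 1) (v : V × V) :
    Up T c (Up T c v) - v = UpSub T c u (Up T c v + u • v) := by
  have h1 : UpSub T c u (Up T c v + u • v) =
      Up T c (Up T c v) - (u * u) • v := by
    simp only [UpSub, LinearMap.sub_apply, LinearMap.smul_apply, LinearMap.id_apply, map_add,
      map_smul]
    module
  rw [h1, hu, one_smul]

/-- **`β_p α_p` disappears**: `range B ≤ range (U' − u)` for `u² = 1`. -/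
theorem range_Bm_le (T c u : R) (hu : u * u = 1) :
    LinearMap.range (Bm (V := V) T c) ≤ LinearMap.range (UpSub (V := V) T c u) := by
  rintro _ ⟨w, rfl⟩
  obtain ⟨v, rfl⟩ := Sh_surjective T w
  have h1 := Up_sq_sub_one (V := V) T c v
  have h2 := Up_sq_sub_one_eq (V := V) T c u hu v
  refine ⟨-(Up T c v + u • v), ?_⟩
  rw [map_neg, ← h2, h1, neg_neg]

/-- the map `V → V × V`, `y ↦ (0, y)`. -/
def inr' : V →ₗ[R] (V × V) := LinearMap.inr R V V

/-- the image of `(0, y)` modulo `range (U' − u)` vanishes iff `y ∈ (T − u (1 + c)) V`. -/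
theorem inr_mem_range_iff (T c u : R) (hu : u * u = 1) (y : V) :
    ((0 : V), y) ∈ LinearMap.range (UpSub (V := V) T c u) ↔
      y ∈ LinearMap.range ((T - u * (1 + c)) • (LinearMap.id : V →ₗ[R] V)) := by
  constructor
  · rintro ⟨w, hw⟩
    rw [UpSub_apply, Prod.mk.injEq] at hw
    obtain ⟨h1, h2⟩ := hw
    -- `u w₁ = c w₂`, hence `w₁ = u c w₂`
    have hw1 : w.1 = (u * c) • w.2 := by
      have : u • w.1 = c • w.2 := (sub_eq_zero.mp h1).symm
      calc w.1 = (u * u) • w.1 := by rw [hu, one_smul]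
        _ = u • (u • w.1) := by rw [smul_smul]
        _ = u • (c • w.2) := by rw [this]
        _ = (u * c) • w.2 := by rw [smul_smul]
    refine ⟨w.2, ?_⟩
    rw [LinearMap.smul_apply, LinearMap.id_apply, ← h2, hw1, sub_smul, mul_add, mul_one, add_smul]
    abel
  · rintro ⟨z, rfl⟩
    refine ⟨((u * c) • z, z), ?_⟩
    rw [UpSub_apply, Prod.mk.injEq]
    refine ⟨?_, ?_⟩
    · show c • z - u • (u * c) • z = 0
      rw [smul_smul, ← mul_assoc, hu, one_mul, sub_self]
    · show -((u * c) • z) + T • z - u • z = ((T - u * (1 + c)) • LinearMap.id) z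
      rw [LinearMap.smul_apply, LinearMap.id_apply, sub_smul, mul_add, mul_one, add_smul]
      abel

/-- every class of `V × V` modulo `range (U' − u)` is represented by some `(0, y)`. -/
theorem exists_inr_rep (T c u : R) (hu : u * u = 1) (v : V × V) :
    ∃ y : V, v - ((0 : V), y) ∈ LinearMap.range (UpSub (V := V) T c u) := by
  -- `(U' − u)(−u x, 0) = (x, u x)`
  refine ⟨v.2 - u • v.1, ⟨(-(u • v.1), 0), ?_⟩⟩
  rw [UpSub_apply]
  ext
  · show c • (0 : V) - u • -(u • v.1) = v.1 - 0
    rw [smul_zero, smul_neg, smul_smul, hu, one_smul]; abel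
  · show - -(u • v.1) + T • (0 : V) - u • (0 : V) = v.2 - (v.2 - u • v.1)
    rw [smul_zero, smul_zero]; abel

/-- **`coker (U' − u | V × V) ≃ V / (T − u (1 + c)) V`**. -/
noncomputable def cokerEquiv (T c u : R) (hu : u * u = 1) :
    ((V × V) ⧸ LinearMap.range (UpSub (V := V) T c u)) ≃ₗ[R]
      (V ⧸ LinearMap.range ((T - u * (1 + c)) • (LinearMap.id : V →ₗ[R] V))) :=
  LinearEquiv.symm <| LinearEquiv.ofBijective
    (Submodule.liftQ _ ((Submodule.mkQ _).comp (inr' (R := R) (V := V))) (by
      intro y hy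
      rw [LinearMap.mem_ker, LinearMap.comp_apply, Submodule.mkQ_apply,
        Submodule.Quotient.mk_eq_zero]
      exact (inr_mem_range_iff T c u hu y).mpr hy))
    ⟨by
      rw [← LinearMap.ker_eq_bot, LinearMap.ker_eq_bot']
      intro x hx
      obtain ⟨y, rfl⟩ := Submodule.mkQ_surjective _ x
      rw [Submodule.mkQ_apply, Submodule.liftQ_apply, LinearMap.comp_apply, Submodule.mkQ_apply,
        Submodule.Quotient.mk_eq_zero] at hx
      rw [Submodule.mkQ_apply, Submodule.Quotient.mk_eq_zero]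
      exact (inr_mem_range_iff T c u hu y).mp hx,
    by
      intro x
      obtain ⟨v, rfl⟩ := Submodule.mkQ_surjective _ x
      obtain ⟨y, hy⟩ := exists_inr_rep T c u hu v
      refine ⟨Submodule.Quotient.mk y, ?_⟩
      rw [Submodule.liftQ_apply, LinearMap.comp_apply, Submodule.mkQ_apply, Submodule.mkQ_apply]
      exact ((Submodule.Quotient.eq _).mpr hy).symm⟩

/-- **the old–new congruence module at the base point**:
`(V × V) / (range (β_p α_p) + range (U' − u)) ≃ V / (T − u (1 + c)) V`. -/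
noncomputable def cokerEquivFull (T c u : R) (hu : u * u = 1) :
    ((V × V) ⧸ (LinearMap.range (Bm (V := V) T c) ⊔ LinearMap.range (UpSub (V := V) T c u))) ≃ₗ[R]
      (V ⧸ LinearMap.range ((T - u * (1 + c)) • (LinearMap.id : V →ₗ[R] V))) :=
  (Submodule.quotEquivOfEq _ _ (sup_eq_right.mpr (range_Bm_le T c u hu))).trans
    (cokerEquiv T c u hu)

end Fermat.Agent.GE9.Eta.NewPartMat
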